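import Fermat.Agent.S36.RC.Conc.PolesL

/-!
# S36/RC/Conc (block RC-KUM): construction of the Kummer data `Kum S n` (hypothesis `mk` of `abstract_RC`)

`B : BC K0 F0 Kb F`, `T : Tri K0 F0 k Fb`, `S : Poles T` with `S.L a c = B.L w a c`.
`Mf a c = β⁻¹ L_Kb (a (w)_∞ + c (w)_0 + D)`, `n D = div (β f)`.
-/

set_option autoImplicit false

noncomputable section

namespace Fermat.Agent.S36.RC

open AlgebraicCurve Fermat.Agent.Lib.RR Fermat.Agent.GAL.RED Fermat.Agent.DR.Abs

variable {K0 F0 Kb F k Fb : Type*} [Field K0] [Field F0] [Algebra K0 F0] [Field Kb] [Field F]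
  [Algebra Kb F] [Algebra K0 Kb] [Field k] [Field Fb] [Algebra k Fb]

namespace BC

variable (B : BC K0 F0 Kb F) [IsFF Kb F] [IsAlgClosed Kb]

/-- **The Kummer datum of `f`.** -/
theorem exists_kum {T : Tri K0 F0 k Fb} (S : Poles T) {w : F0} (hw : w ≠ 0)
    (hL : ∀ a c, S.L a c = B.L w a c)
    (hdeg : S.nF ≤ Divisor.degree (poleDiv (K := Kb) (B.β w)))
    (hg : (genusFF Kb F : ℤ) ≤ S.g)
    (hbdd : ∀ V : Submodule K0 F0, Module.Finite K0 V → ∃ Bf : Finset F0, ∀ y ∈ V, T.Int y →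
      y ∈ Submodule.span T.A (Bf : Set F0))
    {n : ℕ} (hn : 0 < n) (hnk : (n : k) ≠ 0) {f : F0} (hf : f ≠ 0)
    (hdiv : ∀ P : Place Kb F, (n : ℤ) ∣ P.ord (B.β f)) (hred : ∀ i, T.red i f = 1) :
    ∃ κ : Kum S n, κ.f = f := by
  obtain ⟨D, hD, hD0⟩ := exists_divisor_of_dvd hn (B.β f) hdiv
  have hinv : ∀ a c, B.Inv (bipole Kb (B.β w) a c + D) := fun a c =>
    (B.inv_bipole w a c).add B (B.inv_of_nsmul hn hD)
  refine ⟨{ f := f
            f_ne := hf
            red_f := hred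
            Mf := fun a c => B.pl (riemannRochSpace (bipole Kb (B.β w) a c + D))
            mem_Mf := fun a c y => ?_
            n_pos := hn
            n_ne := hnk
            a0 := 0
            finrank_Mf := fun a c _ => ?_
            bdd := fun a c => hbdd _ (B.fin _ inferInstance) }, rfl⟩
  · rw [hL, mem_L, B.mem_pl, map_mul, map_pow, bipole_smul]
    exact mem_L_add_iff_pow_mul_mem hn (B.β_ne_zero hf) hD _ _
  · have h1 := B.riemann (hinv a c)
    rw [map_add, hD0, add_zero, degree_bipole (B.β_ne_zero hw)] at h1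
    have h2 : ((a : ℤ) + c) * S.nF ≤ ((a : ℤ) + c) * Divisor.degree (poleDiv (K := Kb) (B.β w)) :=
      mul_le_mul_of_nonneg_left hdeg (by positivity)
    linarith

end BC

end Fermat.Agent.S36.RC
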