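import Fermat.Agent.S36.RC.Conc.BC

/-!
# S36/RC/Conc (block RC-KUM): linear disjointness, finiteness of `β⁻¹ W` (abstract)
-/

set_option autoImplicit false

noncomputable section

namespace Fermat.Agent.S36.RC

open Module

/-- **Linear disjointness** for spaces of "series": `K`-independent families stay independent over `L`. -/
theorem linearIndependent_of_coeff {K L E E' X : Type*} [Field K] [Field L] [Algebra K L]
    [AddCommGroup E] [Module K E] [AddCommGroup E'] [Module L E']
    (lam : X → E →ₗ[K] K) (lam' : X → E' →ₗ[L] L) (hsep : ∀ f : E, (∀ e, lam e f = 0) → f = 0)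
    (φ : E → E') (hφ : ∀ e f, lam' e (φ f) = algebraMap K L (lam e f))
    {n : ℕ} (z : Fin n → E) (hz : LinearIndependent K z) :
    LinearIndependent L (fun i => φ (z i)) := by
  classical
  rw [Fintype.linearIndependent_iff] at hz ⊢
  intro c hc i
  let b := Basis.ofVectorSpace K L
  have key : ∀ j, ∀ i, b.coord j (c i) = 0 := by
    intro j
    apply hz
    apply hsep
    intro e
    have h1 := congrArg (lam' e) hc
    rw [map_sum, map_zero] at h1
    have h2 := congrArg (b.coord j) h1
    rw [map_sum, map_zero] at h2
    rw [map_sum, ← h2]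
    refine Finset.sum_congr rfl fun i _ => ?_
    rw [map_smul, map_smul, hφ, smul_eq_mul, smul_eq_mul, mul_comm (c i), ← Algebra.smul_def,
      map_smul, smul_eq_mul, mul_comm]
  apply b.repr.injective
  ext j
  rw [map_zero]
  exact key j i

variable {K0 F0 Kb F : Type*} [Field K0] [Field F0] [Algebra K0 F0] [Field Kb] [Field F]
  [Algebra Kb F] [Algebra K0 Kb]

/-- LEAF KUM-I2.  `Module.rank K0 (pull β hβ W) ≤ finrank Kb W` by `rank_le` : an independent `s : Finset (pull β hβ W)` gives (via `s.equivFin`)
`z : Fin s.card → F0` independent (`LinearIndependent.map'` with `Submodule.subtype`, `ker_subtype`), so `β ∘ z` is independent over `Kb` and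
takes values in `W`: lift it to `W` (`LinearIndependent.of_comp W.subtype`) and use `LinearIndependent.fintype_card_le_finrank`.
Then `Module.rank_lt_aleph0_iff` / `Module.finite_of_rank_lt_aleph0`-type lemma (`Cardinal.nat_lt_aleph0`). -/
theorem finite_pull_of_indep (β : F0 →+* F)
    (hβ : ∀ a : K0, β (algebraMap K0 F0 a) = algebraMap Kb F (algebraMap K0 Kb a))
    (hind : ∀ (n : ℕ) (z : Fin n → F0), LinearIndependent K0 z →
      LinearIndependent Kb (fun i => β (z i)))
    (W : Submodule Kb F) (hW : Module.Finite Kb W) : Module.Finite K0 (pull β hβ W) := by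
  have hrank : Module.rank K0 (pull β hβ W) ≤ (finrank Kb W : ℕ) := by
    apply rank_le
    intro s hs
    -- reindex by `Fin s.card`
    have h1 : LinearIndependent K0 (fun i : Fin s.card => ((s.equivFin.symm i : s) : pull β hβ W)) :=
      hs.comp _ s.equivFin.symm.injective
    have h2 : LinearIndependent K0
        (fun i : Fin s.card => (((s.equivFin.symm i : s) : pull β hβ W) : F0)) :=
      h1.map' (pull β hβ W).subtype (Submodule.ker_subtype _)
    have h3 := hind _ _ h2
    have h4 : LinearIndependent Kb (fun i : Fin s.card =>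
        (⟨β (((s.equivFin.symm i : s) : pull β hβ W) : F0),
          ((s.equivFin.symm i : s) : pull β hβ W).2⟩ : W)) :=
      LinearIndependent.of_comp W.subtype h3
    have h5 := h4.fintype_card_le_finrank
    rwa [Fintype.card_fin] at h5
  exact Module.rank_lt_aleph0_iff.1 (lt_of_le_of_lt hrank Cardinal.natCast_lt_aleph0)

/-- a family of `dim W` independent elements of `β⁻¹ W`. -/
theorem finrank_le_pull_of_basis (β : F0 →+* F)
    (hβ : ∀ a : K0, β (algebraMap K0 F0 a) = algebraMap Kb F (algebraMap K0 Kb a))
    (W : Submodule Kb F) (hfin : Module.Finite K0 (pull β hβ W))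
    (b : Fin (finrank Kb W) → F0) (hb : ∀ j, β (b j) ∈ W) (hli : LinearIndependent K0 b) :
    finrank Kb W ≤ finrank K0 (pull β hβ W) := by
  have h1 : LinearIndependent K0 (fun j => (⟨b j, hb j⟩ : pull β hβ W)) :=
    LinearIndependent.of_comp (pull β hβ W).subtype hli
  have h2 := h1.fintype_card_le_finrank
  rwa [Fintype.card_fin] at h2

end Fermat.Agent.S36.RC
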