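import Fermat.Agent.S36R.Unit.Table
import Fermat.Agent.DR.Conc.XiAbs
import Fermat.Agent.DR.Abs.Bipole
import Fermat.Agent.Lib.PlaceEval

/-!
# S36/RC/Conc: the "Hasse function" `Δ̄ ^ (1 - q)` is a monic polynomial of degree `q - 1` in `j̄`

From the data of S28, block B: `U` monic, `U(j, u₀) = 0`, `u₀ = q¹² Δ(t^q) / Δ(t)`, `U(j, 0) = c = ± q¹²`.
With `v₀ = Δ(t) / Δ(t^q)` we have `u₀ v₀ = q¹²`, so dividing `U(j, u₀) = 0` by `u₀`:
`± v₀ + U₁(j) + u₀ (...) = 0`, and modulo `q`: `Δ̄ / Δ̄^q = ∓ Ū₁(j̄)`.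
-/

set_option autoImplicit false

noncomputable section

namespace Fermat.Agent.S36.RC

open ModularCurve Polynomial Fermat.Agent.S28 Fermat.Agent.S36R.Unit AlgebraicCurve
  Fermat.Agent.Lib.RR Fermat.Agent.GAL.RED Fermat.Agent.Lib.PlaceEval

variable {q : ℕ} [NeZero q] {Φ U G : ℤ[X][X]} {m : ℕ} {c : ℤ}

/-- LEAF RC-H1 (identity over `ℤ`).  `p := U.map (evJ ℤ)`; `p = divX p * X + C (p.coeff 0)` twice
(`Polynomial.divX_mul_X_add`); `p.coeff 0 = evJ ℤ (C c) = c`, `p.coeff 1 = evJ ℤ (U.coeff 1)`;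
`c = ε q¹²` with `ε = ± 1` (from `c * c = q ^ 24`: `(c - q¹²)(c + q¹²) = 0`); `u₀ v₀ = q¹²`
(`DlL_mul_DlLinv`, `map_mul`, `map_one` for `qExpand`); `LaurentSeries ℤ` is a domain and `u₀ ≠ 0`. -/
theorem hasse_int (hB : BData q Φ U G m c) :
    ∃ (ε : ℤ) (W : LaurentSeries ℤ), (ε = 1 ∨ ε = -1) ∧
      (ε : LaurentSeries ℤ) * (DlL ℤ * qExpand ℤ q (DlLinv ℤ)) + evJ ℤ (U.coeff 1) +
        W * ((q : LaurentSeries ℤ) ^ 12 * qExpand ℤ q (DlL ℤ) * DlLinv ℤ) = 0 := by
  obtain ⟨-, -, -, hU0, hcc, hev, -⟩ := hB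
  set u₀ : LaurentSeries ℤ := (q : LaurentSeries ℤ) ^ 12 * qExpand ℤ q (DlL ℤ) * DlLinv ℤ with hu₀
  set v₀ : LaurentSeries ℤ := DlL ℤ * qExpand ℤ q (DlLinv ℤ) with hv₀
  set p : (LaurentSeries ℤ)[X] := U.map (evJ ℤ) with hp
  have huv : u₀ * v₀ = (q : LaurentSeries ℤ) ^ 12 := by
    have h1 : qExpand ℤ q (DlL ℤ) * qExpand ℤ q (DlLinv ℤ) = 1 := by
      rw [← map_mul, DlL_mul_DlLinv, map_one]
    have h2 := DlL_mul_DlLinv (Λ := ℤ)
    rw [hu₀, hv₀]
    linear_combination ((q : LaurentSeries ℤ) ^ 12 * (DlL ℤ * DlLinv ℤ)) * h1 +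
      (q : LaurentSeries ℤ) ^ 12 * h2
  have hq0 : (q : LaurentSeries ℤ) ≠ 0 := by
    rw [← map_natCast (HahnSeries.C : ℤ →+* LaurentSeries ℤ) q]
    intro h
    have := HahnSeries.C_injective (h.trans (map_zero _).symm)
    exact NeZero.ne q (by exact_mod_cast this)
  have hu0 : u₀ ≠ 0 := by
    intro h
    rw [h, zero_mul] at huv
    exact pow_ne_zero 12 hq0 huv.symm
  obtain ⟨ε, hε, hc⟩ : ∃ ε : ℤ, (ε = 1 ∨ ε = -1) ∧ c = ε * (q : ℤ) ^ 12 := by
    have h1 : (c - (q : ℤ) ^ 12) * (c + (q : ℤ) ^ 12) = 0 := by linear_combination hcc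
    rcases mul_eq_zero.1 h1 with h | h
    · exact ⟨1, Or.inl rfl, by linarith⟩
    · exact ⟨-1, Or.inr rfl, by linarith⟩
  have hp0 : p.coeff 0 = (ε : LaurentSeries ℤ) * (u₀ * v₀) := by
    rw [hp, coeff_map, hU0, huv, evJ, coe_eval₂RingHom, eval₂_C, hc]
    simp
  have hp1 : (divX p).coeff 0 = evJ ℤ (U.coeff 1) := by
    rw [coeff_divX, hp, coeff_map]
  have h1 : p = (divX (divX p) * X + C ((divX p).coeff 0)) * X + C (p.coeff 0) := by
    rw [divX_mul_X_add, divX_mul_X_add]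
  rw [h1, hp0, hp1] at hev
  simp only [eval_add, eval_mul, eval_X, eval_C] at hev
  refine ⟨ε, eval u₀ (divX (divX p)), hε, ?_⟩
  have h2 : u₀ * ((ε : LaurentSeries ℤ) * v₀ + evJ ℤ (U.coeff 1) + eval u₀ (divX (divX p)) * u₀) = 0 := by
    linear_combination hev
  exact (mul_eq_zero.1 h2).resolve_left hu0

/-- base change of `evJ`. -/
theorem Hasse_coeffMap_evJ (k : Type) [Field k] (P : ℤ[X]) :
    coeffMap (Int.castRingHom k) (evJ ℤ P) = aeval (jqModC k) (P.map (Int.castRingHom k)) := by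
  rw [evJ, coe_eval₂RingHom, hom_eval₂, coeffMap_jqModC, aeval_def, eval₂_map]
  congr 1
  exact RingHom.ext_int _ _

/-- LEAF RC-H2 (reduction mod `q`).  Apply `coeffMap (Int.castRingHom k)` to `hasse_int`
(`coeffMap_DlL`, `coeffMap_DlLinv`, `coeffMap_qExpand`, `(q : k) = 0`, `qExpand_Dlinv`);
`coeffMap (evJ ℤ P) = aeval (jqModC k) (P.map (Int.castRingHom k))` (induction on `P`, or `Polynomial.hom_eval₂`; the image of
`jqModC ℤ` is `jqModC k`).  `R₀ = - ε (U.coeff 1).map (Int.castRingHom k)`. -/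
theorem exists_hasse_poly₀ (hB : BData q Φ U G m c) (hq : q.Prime) (k : Type) [Field k]
    [CharP k q] : ∃ R : k[X], aeval (jqModC k) R = DlL k * DlLinv k ^ q := by
  have : Fact q.Prime := ⟨hq⟩
  obtain ⟨ε, W, hε, h⟩ := hasse_int hB
  have h1 := congrArg (coeffMap (Int.castRingHom k)) h
  have hq0 : (q : LaurentSeries k) = 0 := by
    rw [← map_natCast (HahnSeries.C : k →+* LaurentSeries k) q, CharP.cast_eq_zero, map_zero]
  rw [map_add, map_add, map_mul, map_mul, map_mul, map_mul, map_mul, map_pow, map_natCast, hq0,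
    zero_pow (by norm_num), zero_mul, zero_mul, mul_zero, add_zero, map_zero, Hasse_coeffMap_evJ,
    coeffMap_DlL, ModularCurve.coeffMap_qExpand, coeffMap_DlLinv, qExpand_Dlinv, map_intCast] at h1
  refine ⟨-(C (ε : k)) * (U.coeff 1).map (Int.castRingHom k), ?_⟩
  have hεε : (ε : LaurentSeries k) * (ε : LaurentSeries k) = 1 := by
    rcases hε with rfl | rfl <;> simp
  have hC : aeval (jqModC k) (C (ε : k)) = (ε : LaurentSeries k) := by
    rw [aeval_C, map_intCast]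
  rw [map_mul, map_neg, hC]
  linear_combination (-(ε : LaurentSeries k)) * h1 + (DlL k * DlLinv k ^ q) * hεε

theorem Hasse_coeff_smul (k : Type) [Field k] (r : k) (x : LaurentSeries k) (m : ℤ) :
    (algebraMap k (LaurentSeries k) r * x).coeff m = r * x.coeff m := by
  rw [algebraMap_laurentSeries_eq_single, HahnSeries.coeff_single_mul, sub_zero]

/-- coefficients of `R(j̄)` below `- deg R` vanish. -/
theorem Hasse_coeff_aeval_of_lt (k : Type) [Field k] (R : k[X]) {m : ℤ}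
    (hm : m < -(R.natDegree : ℤ)) : (aeval (jqModC k) R).coeff m = 0 := by
  rw [aeval_eq_sum_range, HahnSeries.coeff_sum]
  refine Finset.sum_eq_zero fun i hi => ?_
  have hi' : i ≤ R.natDegree := Nat.lt_succ_iff.mp (Finset.mem_range.mp hi)
  rw [Algebra.smul_def, Hasse_coeff_smul, coeff_jqModC_pow_of_lt k (by omega), mul_zero]

/-- the coefficient of `R(j̄)` at `- deg R` is the leading coefficient. -/
theorem Hasse_coeff_aeval_self (k : Type) [Field k] (R : k[X]) :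
    (aeval (jqModC k) R).coeff (-(R.natDegree : ℤ)) = R.leadingCoeff := by
  rw [aeval_eq_sum_range, HahnSeries.coeff_sum, Finset.sum_range_succ,
    Finset.sum_eq_zero, zero_add]
  · rw [Algebra.smul_def, Hasse_coeff_smul, coeff_jqModC_pow_self, mul_one, Polynomial.leadingCoeff]
  · intro i hi
    have hi' : i < R.natDegree := Finset.mem_range.mp hi
    rw [Algebra.smul_def, Hasse_coeff_smul, coeff_jqModC_pow_of_lt k (by omega), mul_zero]

/-- LEAF RC-H3 (order of a polynomial in `j̄`).  `j̄ = t⁻¹ (1 + ...)`: for `R ≠ 0` the series `R(j̄)` has order `- deg R` and its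
leading coefficient is the leading coefficient of `R`; `Δ̄ Δ̄⁻^q = t ^ (1 - q) (1 + ...)`.  (`HahnSeries.order_mul`,
`HahnSeries.leadingCoeff_mul` / coefficients; `jqModC`, `DlL`, `DlLinv` are `single (±1) 1 * ofPowerSeries (unit with constant
coefficient 1)`.) -/
theorem hasse_poly_monic (hq : q.Prime) (k : Type) [Field k] {R : k[X]}
    (h : aeval (jqModC k) R = DlL k * DlLinv k ^ q) : R.Monic ∧ R.natDegree = q - 1 := by
  have hq1 : 1 ≤ q := hq.one_lt.le
  have hmono : IsMono (DlL k * DlLinv k ^ q) (1 - (q : ℤ)) 1 :=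
    ((IsMono.DlL (Λ := k)).mul ((IsMono.DlLinv (Λ := k)).pow q)).congr (by ring) (by simp)
  have hR0 : R ≠ 0 := by
    rintro rfl
    have h1 := hmono.coeff_self
    rw [← h, map_zero, HahnSeries.coeff_zero] at h1
    exact zero_ne_one h1
  have hlc : R.leadingCoeff ≠ 0 := leadingCoeff_ne_zero.mpr hR0
  have hdeg : -(R.natDegree : ℤ) = 1 - (q : ℤ) := by
    rcases lt_trichotomy (-(R.natDegree : ℤ)) (1 - (q : ℤ)) with hlt | heq | hgt
    · exfalso
      have h1 := hmono.coeff_of_lt hlt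
      rw [← h, Hasse_coeff_aeval_self] at h1
      exact hlc h1
    · exact heq
    · exfalso
      have h1 := hmono.coeff_self
      rw [← h, Hasse_coeff_aeval_of_lt k R hgt] at h1
      exact zero_ne_one h1
  refine ⟨?_, by omega⟩
  have h1 := hmono.coeff_self
  rw [← h, ← hdeg, Hasse_coeff_aeval_self] at h1
  exact h1

theorem exists_hasse_poly (hB : BData q Φ U G m c) (hq : q.Prime) (k : Type) [Field k]
    [CharP k q] :
    ∃ R : k[X], R.Monic ∧ R.natDegree = q - 1 ∧ aeval (jqModC k) R = DlL k * DlLinv k ^ q := by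
  obtain ⟨R, hR⟩ := exists_hasse_poly₀ hB hq k
  exact ⟨R, (hasse_poly_monic hq k hR).1, (hasse_poly_monic hq k hR).2, hR⟩

/-! ### consequences in a function field -/

section FF

variable {k Fb : Type*} [Field k] [Field Fb] [Algebra k Fb] [IsFF k Fb] [IsAlgClosed k]

/-- LEAF RC-H4. (`DR.Conc.XiAbs_ord_aeval_nonneg`.) -/
theorem ord_aeval_nonneg (t : Fb) (R : k[X]) (P : Place k Fb) (h : 0 ≤ P.ord t) :
    0 ≤ P.ord (aeval t R) :=
  DR.Conc.XiAbs_ord_aeval_nonneg P h R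

/-- LEAF RC-H4. (`DR.Conc.XiAbs_ord_aeval_monic`.) -/
theorem ord_aeval_nonpos (t : Fb) (R : k[X]) (hR : R.Monic) (P : Place k Fb) (h : P.ord t < 0) :
    P.ord (aeval t R) ≤ 0 := by
  rw [DR.Conc.XiAbs_ord_aeval_monic P h R hR]
  exact mul_nonpos_of_nonneg_of_nonpos (Nat.cast_nonneg _) h.le

/-- LEAF RC-H4. (`DR.Conc.poleDiv_aeval_monic`, `DR.Conc.degree_poleDiv_inv`.) -/
theorem degree_zeros_aeval (t : Fb) (R : k[X]) (hR : R.Monic) :
    Divisor.degree (poleDiv (K := k) (aeval t R)⁻¹) =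
      (R.natDegree : ℤ) * Divisor.degree (poleDiv (K := k) t) := by
  rw [DR.Conc.degree_poleDiv_inv, DR.Conc.poleDiv_aeval_monic t R hR, map_nsmul, nsmul_eq_mul]

/-- LEAF RC-H4. If `t(P) = s` then `R(t)(P) = R(s)` (`ev` is a ring homomorphism on the valuation ring: induction on `R`, or
`ev_eq_iff` + `X - C s ∣ R - C (R.eval s)`). -/
theorem ord_aeval_le_zero_of_eval_ne (t : Fb) (R : k[X]) (s : k) (hs : R.eval s ≠ 0)
    (P : Place k Fb) (h : 0 < P.ord (t - algebraMap k Fb s)) : P.ord (aeval t R) ≤ 0 := by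
  obtain ⟨Q, hQ⟩ := Polynomial.X_sub_C_dvd_sub_C_eval (a := s) (p := R)
  have h1 : aeval t R = algebraMap k Fb (R.eval s) + (t - algebraMap k Fb s) * aeval t Q := by
    have h2 := congrArg (aeval t) hQ
    rw [map_sub, map_mul, map_sub, aeval_X, aeval_C, aeval_C] at h2
    rw [← h2]
    ring
  have hc0 : algebraMap k Fb (R.eval s) ≠ 0 := (_root_.map_ne_zero _).2 hs
  have hts0 : t - algebraMap k Fb s ≠ 0 := by
    intro h0
    rw [h0, P.ord_zero] at h
    exact lt_irrefl _ h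
  have ht : 0 ≤ P.ord t := by
    by_cases ht0 : t = 0
    · rw [ht0, P.ord_zero]
    · have h3 : t = (t - algebraMap k Fb s) + algebraMap k Fb s := by ring
      have h4 := min_le_ord_add P (f := t - algebraMap k Fb s) (g := algebraMap k Fb s)
        (by rw [← h3]; exact ht0)
      rw [← h3, ord_algebraMap] at h4
      exact le_trans (le_min h.le le_rfl) h4
  by_cases hQ0 : aeval t Q = 0
  · rw [h1, hQ0, mul_zero, add_zero, ord_algebraMap]
  · have h5 : 0 < P.ord ((t - algebraMap k Fb s) * aeval t Q) := by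
      rw [P.ord_mul hts0 hQ0]
      have := DR.Conc.XiAbs_ord_aeval_nonneg P ht Q
      omega
    rw [h1, ord_add_eq_of_lt P hc0 (mul_ne_zero hts0 hQ0) (by rw [ord_algebraMap]; exact h5),
      ord_algebraMap]

/-- LEAF RC-H5 (choice of `c̄₁`).  `k` is infinite; avoid the roots of `R` and of `R.comp (X ^ N)`. -/
theorem exists_good_value (R : k[X]) (hR : R ≠ 0) (N : ℕ) (hN : 0 < N) :
    ∃ s : k, R.eval s ≠ 0 ∧ R.eval (s ^ N) ≠ 0 := by
  have hcomp : R.comp (X ^ N) ≠ 0 := by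
    intro h0
    rcases Polynomial.comp_eq_zero_iff.1 h0 with h1 | ⟨-, h2⟩
    · exact hR h1
    · have h3 := congrArg Polynomial.natDegree h2
      rw [natDegree_X_pow, natDegree_C] at h3
      omega
  have hprod : R * R.comp (X ^ N) ≠ 0 := mul_ne_zero hR hcomp
  have hex : ∃ s : k, (R * R.comp (X ^ N)).eval s ≠ 0 := by
    by_contra hall
    push Not at hall
    exact hprod (Polynomial.funext fun r => by rw [hall r, eval_zero])
  obtain ⟨s, hs⟩ := hex
  rw [eval_mul, eval_comp, eval_pow, eval_X] at hs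
  exact ⟨s, left_ne_zero_of_mul hs, right_ne_zero_of_mul hs⟩

end FF

end Fermat.Agent.S36.RC
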