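import Fermat.Agent.S36.RC.Defs
import Fermat.Agent.DR.Abs.Bipole
import Fermat.Agent.S36R.Bridge.Abs
import Fermat.Agent.GAL.Igusa.PoleSpace
import Fermat.Prelude.Def_AlgebraicCurve_BaseChangeGalois

/-!
# S36/RC/Conc (block RC-KUM): Galois base change `F0 / K0  ⟶  F / Kb`, abstract form

`Kb` algebraically closed, `F / Kb` a function field (`IsFF`), `β : F0 → F` the base change, `Γ` a set of semilinear
automorphisms of `F` fixing `β F0`.  Application: `K0 = K0 A`, `F0 = FF (K0 A) N`, `Kb = Kbar`, `F = FN N`, `β = bc0 A N`,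
`Γ = {arithmeticGalois _ τ | τ ∈ I_A}` (file `Conc/Inst.lean`).

* `pull β hβ W` : the `K0`-subspace `β ⁻¹ W` of `F0`, for a `Kb`-subspace `W` of `F`;
* `BC.desc` (a FIELD; `S36R.AA.exists_basis_bc0` + `linearIndependent_bc0`) : `dim_Kb W ≤ dim_K0 β⁻¹ W` for `Γ`-stable `W`;
* `BC.riemann` : Riemann's inequality for `β⁻¹ L(D)`, `D` a `Γ`-invariant divisor;
* `BC.mem_RR_of_ord`, `BC.ord_nonneg_of_mem_RR` : integrality over `K0[y]` in terms of the places of `F / Kb`.
-/

set_option autoImplicit false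

noncomputable section

namespace Fermat.Agent.S36.RC

open AlgebraicCurve Fermat.Agent.Lib.RR Fermat.Agent.GAL.RED Fermat.Agent.DR.Abs
  Fermat.Agent.S36R.Bridge IntermediateField

variable {K0 F0 Kb F : Type*} [Field K0] [Field F0] [Algebra K0 F0] [Field Kb] [Field F]
  [Algebra Kb F] [Algebra K0 Kb]

/-- `β⁻¹ W`. -/
def pull (β : F0 →+* F)
    (hβ : ∀ a : K0, β (algebraMap K0 F0 a) = algebraMap Kb F (algebraMap K0 Kb a))
    (W : Submodule Kb F) : Submodule K0 F0 where
  carrier := {z | β z ∈ W}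
  zero_mem' := by
    show β 0 ∈ W
    rw [map_zero]; exact W.zero_mem
  add_mem' := fun {y z} hy hz => by
    show β (y + z) ∈ W
    rw [map_add]; exact W.add_mem hy hz
  smul_mem' := fun a z hz => by
    show β (a • z) ∈ W
    rw [Algebra.smul_def, map_mul, hβ, ← Algebra.smul_def]
    exact W.smul_mem _ hz

variable (K0 F0 Kb F) in
/-- Galois base change. -/
structure BC where
  β : F0 →+* F
  β_alg : ∀ a : K0, β (algebraMap K0 F0 a) = algebraMap Kb F (algebraMap K0 Kb a)
  /-- the Galois group -/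
  Γ : Set (SemilinearAut Kb F)
  Γ_β : ∀ g ∈ Γ, ∀ z : F0, g • β z = β z
  /-- `K0` is algebraically closed in `F0`, in the form: a function which becomes constant is constant -/
  const : ∀ (z : F0) (b : Kb), β z = algebraMap Kb F b → ∃ a : K0, z = algebraMap K0 F0 a
  /-- Galois descent of subspaces -/
  desc : ∀ W : Submodule Kb F, Module.Finite Kb W → (∀ g ∈ Γ, ∀ u ∈ W, g • u ∈ W) →
    Module.finrank Kb W ≤ Module.finrank K0 (pull β β_alg W)
  /-- linear disjointness -/
  fin : ∀ W : Submodule Kb F, Module.Finite Kb W → Module.Finite K0 (pull β β_alg W)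

namespace BC

variable (B : BC K0 F0 Kb F)

/-- `β⁻¹ W`. -/
abbrev pl (W : Submodule Kb F) : Submodule K0 F0 := pull B.β B.β_alg W

theorem mem_pl {W : Submodule Kb F} {z : F0} : z ∈ B.pl W ↔ B.β z ∈ W := Iff.rfl

theorem β_injective : Function.Injective B.β := B.β.injective

theorem β_ne_zero {z : F0} (hz : z ≠ 0) : B.β z ≠ 0 := (map_ne_zero B.β).2 hz

/-- `Γ`-invariant divisors. -/
def Inv (D : Divisor Kb F) : Prop := ∀ g ∈ B.Γ, ∀ P : Place Kb F, D (g • P) = D P

theorem ord_smul_β {g : SemilinearAut Kb F} (hg : g ∈ B.Γ) (P : Place Kb F) (z : F0) :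
    (g • P).ord (B.β z) = P.ord (B.β z) := by
  have h := SemilinearAut.ord_smul g P (B.β z)
  rwa [B.Γ_β g hg] at h

theorem inv_zero : B.Inv 0 := fun _ _ _ => rfl

theorem Inv.add {D D' : Divisor Kb F} (h : B.Inv D) (h' : B.Inv D') : B.Inv (D + D') :=
  fun g hg P => by rw [Finsupp.add_apply, Finsupp.add_apply, h g hg, h' g hg]

theorem Inv.nsmul {D : Divisor Kb F} (h : B.Inv D) (n : ℕ) : B.Inv (n • D) :=
  fun g hg P => by rw [Finsupp.smul_apply, Finsupp.smul_apply, h g hg]

theorem inv_poleDiv [HasPrincipalDivisors Kb F] (z : F0) : B.Inv (poleDiv (K := Kb) (B.β z)) :=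
  fun g hg P => by rw [poleDiv_apply, poleDiv_apply, B.ord_smul_β hg]

theorem inv_bipole [HasPrincipalDivisors Kb F] (z : F0) (a c : ℕ) :
    B.Inv (bipole Kb (B.β z) a c) := by
  unfold bipole
  rw [← map_inv₀]
  exact ((B.inv_poleDiv z).nsmul B a).add B ((B.inv_poleDiv z⁻¹).nsmul B c)

theorem inv_of_nsmul [HasPrincipalDivisors Kb F] {n : ℕ} (hn : 0 < n) {f : F0} {D : Divisor Kb F}
    (hD : divOf (K := Kb) (B.β f) = n • D) : B.Inv D := by
  intro g hg P
  have h1 := DFunLike.congr_fun hD (g • P)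
  have h2 := DFunLike.congr_fun hD P
  rw [divOf_apply, Finsupp.smul_apply, B.ord_smul_β hg] at h1
  rw [divOf_apply, Finsupp.smul_apply] at h2
  rw [h2, nsmul_eq_mul, nsmul_eq_mul] at h1
  have hn' : (n : ℤ) ≠ 0 := by exact_mod_cast hn.ne'
  exact (mul_left_cancel₀ hn' h1).symm

/-- `L(D)` is `Γ`-stable. -/
theorem smul_mem_rr {D : Divisor Kb F} (hD : B.Inv D) {g : SemilinearAut Kb F} (hg : g ∈ B.Γ)
    {u : F} (hu : u ∈ riemannRochSpace D) : g • u ∈ riemannRochSpace D := by
  rw [mem_riemannRochSpace_iff] at hu ⊢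
  intro P
  rcases hu (g⁻¹ • P) with h | h
  · left; rw [h, smul_zero]
  · right
    have h1 := SemilinearAut.ord_smul g (g⁻¹ • P) u
    have h2 := hD g hg (g⁻¹ • P)
    rw [smul_inv_smul] at h1 h2
    rw [h1, h2]
    exact h

/-- **Riemann's inequality over `K0`.** -/
theorem riemann [IsFF Kb F] [IsAlgClosed Kb] {D : Divisor Kb F} (hD : B.Inv D) :
    Divisor.degree D + 1 - (genusFF Kb F : ℤ) ≤
      (Module.finrank K0 (B.pl (riemannRochSpace D)) : ℤ) := by
  have h1 := B.desc (riemannRochSpace D) inferInstance (fun g hg u hu => B.smul_mem_rr hD hg hu)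
  have h2 := riemann_ineq D
  rw [ell_zero] at h2
  have h3 : (ell D : ℤ) ≤ (Module.finrank K0 (B.pl (riemannRochSpace D)) : ℤ) := by
    exact_mod_cast h1
  push_cast at h2
  omega

/-- LEAF KUM-B1 (easy direction).  `map_mem_RR B.β` (constants go to constants, `y` to `β y`) : `β v ∈ RR Kb (β y)`;
`RR_le_valuationSubring P.toValuationSubring` (`P.algebraMap_mem'`, `PlaceEval.mem_iff` / `S24.ord_nonneg_of_mem`). -/
theorem ord_nonneg_of_mem_RR {y v : F0} (h : v ∈ RR K0 y) (P : Place Kb F)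
    (hP : 0 ≤ P.ord (B.β y)) : 0 ≤ P.ord (B.β v) := by
  have h1 : B.β v ∈ RR Kb (B.β y) := map_mem_RR B.β
    (fun a => by rw [B.β_alg]; exact Subalgebra.algebraMap_mem _ _)
    (Algebra.self_mem_adjoin_singleton _ _) h
  apply S24.ord_nonneg_of_mem
  refine RR_le_valuationSubring _ (fun a => P.algebraMap_mem' a) ?_ h1
  by_cases h0 : B.β y = 0
  · rw [h0]; exact zero_mem _
  · exact S24.mem_of_ord_nonneg P h0 hP

/-- LEAF KUM-B2 (descent of integrality).  `u := β v` is integral over `Kb[β y]`.  Every element of `Kb[β y]` is integral over the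
ring `R0 := K0[y]` acting on `F` through `β` (`Algebra.adjoin_induction`: `β y` is the image of `y`; a constant `b : Kb` is algebraic, hence
integral, over `K0` (`Algebra.IsAlgebraic.isIntegral`/`IsAlgebraic.isIntegral`), map the polynomial; sums and products).  Transitivity as in
`S36R.NormC.RR_le_of_mem` (`exists_monic_of_mem_RR`, `isIntegralElem_of_coeff`, `isIntegral_trans`), in the language of
`RingHom.IsIntegralElem (B.β.comp (algebraMap (Algebra.adjoin K0 {y}) F0))`.  Finally `S36R.NormC.isIntegralElem_of_map` (`β` injective). -/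
theorem mem_RR_of_β_mem_RR [Algebra.IsAlgebraic K0 Kb] {y v : F0}
    (h : B.β v ∈ RR Kb (B.β y)) : v ∈ RR K0 y := by
  let _ : Algebra (Algebra.adjoin K0 {y}) F :=
    (B.β.comp (algebraMap (Algebra.adjoin K0 {y}) F0)).toAlgebra
  have hmap : ∀ r : Algebra.adjoin K0 {y}, algebraMap (Algebra.adjoin K0 {y}) F r = B.β r :=
    fun _ => rfl
  have h1 : ∀ x ∈ Algebra.adjoin Kb {B.β y}, IsIntegral (Algebra.adjoin K0 {y}) x := by
    intro x hx
    induction hx using Algebra.adjoin_induction with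
    | mem x hx =>
      rw [Set.mem_singleton_iff] at hx
      rw [hx]
      exact isIntegral_algebraMap (R := Algebra.adjoin K0 {y}) (A := F)
        (x := ⟨y, Algebra.self_mem_adjoin_singleton K0 y⟩)
    | algebraMap b =>
      obtain ⟨p, hp, hpb⟩ := (Algebra.IsAlgebraic.isAlgebraic (R := K0) b).isIntegral
      refine ⟨p.map (algebraMap K0 (Algebra.adjoin K0 {y})), hp.map _, ?_⟩
      rw [Polynomial.eval₂_map]
      have e : (algebraMap (Algebra.adjoin K0 {y}) F).comp (algebraMap K0 (Algebra.adjoin K0 {y}))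
          = (algebraMap Kb F).comp (algebraMap K0 Kb) := by
        ext a
        exact B.β_alg a
      rw [e, ← Polynomial.hom_eval₂, hpb, map_zero]
    | add x y _ _ hx hy => exact hx.add hy
    | mul x y _ _ hx hy => exact hx.mul hy
  obtain ⟨P, hP, hcoe, hPz⟩ := exists_monic_of_mem_RR h
  have h2 : IsIntegral (integralClosure (Algebra.adjoin K0 {y}) F) (B.β v) :=
    isIntegralElem_of_coeff (algebraMap (integralClosure (Algebra.adjoin K0 {y}) F) F) hP
      (fun i => ⟨⟨_, h1 _ (hcoe i)⟩, rfl⟩) hPz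
  have h3 : IsIntegral (Algebra.adjoin K0 {y}) (B.β v) := isIntegral_trans _ h2
  obtain ⟨p, hp, hpv⟩ := h3
  refine mem_RR.2 ⟨p, hp, B.β_injective ?_⟩
  rw [Polynomial.hom_eval₂, map_zero]
  exact hpv

/-- regular where `y` is regular ⟹ integral over `K0[y]`. -/
theorem mem_RR_of_ord [Algebra.IsAlgebraic K0 Kb] [IsAlgClosed Kb] [CharZero Kb] {y v : F0}
    (hy : Transcendental Kb (B.β y)) [FiniteDimensional Kb⟮B.β y⟯ F]
    (h : ∀ P : Place Kb F, 0 ≤ P.ord (B.β y) → 0 ≤ P.ord (B.β v)) : v ∈ RR K0 y := by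
  apply B.mem_RR_of_β_mem_RR
  have : CharZero Kb⟮B.β y⟯ := charZero_of_injective_algebraMap (algebraMap Kb _).injective
  refine mem_RR.2 (GAL.Igusa.isIntegral_of_forall_mem_place (B.β y) hy (B.β v) fun P hP => ?_)
  have h1 := h P (S24.ord_nonneg_of_mem P hP)
  by_cases h0 : B.β v = 0
  · rw [h0]; exact P.toValuationSubring.zero_mem
  · exact S24.mem_of_ord_nonneg P h0 h1

end BC

end Fermat.Agent.S36.RC
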