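import Fermat.Agent.S36R.Val.Abs.Sat

/-!
# S36/RC/Conc (block RC-KUM): the unit ball of a finite dimensional space of functions is bounded

`O` a discrete valuation subring of `K` (NOT complete), `F / K(c)` finite separable, `W i` ALL the extensions to `F` of the Gauss valuation
of `K(c)` (`h : VertFam O ϖ c W e`, `S36R/Val/Abs/Sat.lean`).  For a finite dimensional `K`-subspace `V` of `F` the unit ball
`{y ∈ V | ∀ i, y ∈ W i}` is contained in a finitely generated `O`-module (`VertFam.bdd`).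

(The coefficients of the `t`-expansion can NOT be used: a Gauss unit such as `1 / (q j + 1)` has unbounded coefficients.)
1. `⋂ W i` is integral over the Gauss ring `G`, so it is contained in `∑ G d_l` for a basis `d` of `F / K(c)` (trace dual basis);
2. the coordinates `λ_l (V)` are finite dimensional `K`-subspaces of `K(c)`;
3. a finite dimensional `K`-subspace `U` of `K(c)` is contained in `(1 / Q(c)) K[c]_{≤ N}`, `Q` primitive, and `P(c) / Q(c) ∈ G` iff `P ∈ O[X]`.
-/

set_option autoImplicit false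

open Polynomial IntermediateField Module

noncomputable section

namespace Fermat.Agent.S36R.Val

variable {K F : Type*} [Field K] [Field F] [Algebra K F] {O : ValuationSubring K} {c : F}

/-- an element of `K(c)` is a quotient with non zero denominator. -/
theorem Bdd_exists_quot {c a : F} (ha : a ∈ K⟮c⟯) :
    ∃ P Q : K[X], aeval c Q ≠ 0 ∧ a = aeval c P / aeval c Q := by
  obtain ⟨P, Q, h⟩ := (IntermediateField.mem_adjoin_simple_iff K a).1 ha
  by_cases hQ : aeval c Q = 0
  · refine ⟨0, 1, by simp, ?_⟩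
    rw [h, hQ, div_zero, map_zero, zero_div]
  · exact ⟨P, Q, hQ, h⟩

/-- the common denominator for the span of a finite set. -/
theorem Bdd_common_denom_span (c : F) (s : Finset F) (hs : ∀ u ∈ s, u ∈ K⟮c⟯) :
    ∃ (Q : K[X]) (N : ℕ), aeval c Q ≠ 0 ∧
      ∀ u ∈ Submodule.span K (s : Set F), ∃ P : K[X], P.natDegree ≤ N ∧
        u = aeval c P / aeval c Q := by
  classical
  induction s using Finset.induction_on with
  | empty =>
    refine ⟨1, 0, by simp, fun u hu => ⟨0, by simp, ?_⟩⟩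
    rw [Finset.coe_empty, Submodule.span_empty, Submodule.mem_bot] at hu
    rw [hu, map_zero, zero_div]
  | insert a s _ ih =>
    obtain ⟨Q, N, hQ, hN⟩ := ih (fun u hu => hs u (Finset.mem_insert_of_mem hu))
    obtain ⟨Pa, Qa, hQa, ha⟩ := Bdd_exists_quot (K := K) (hs a (Finset.mem_insert_self a s))
    refine ⟨Q * Qa, max (Pa.natDegree + Q.natDegree) (N + Qa.natDegree), ?_, fun u hu => ?_⟩
    · rw [map_mul]; exact mul_ne_zero hQ hQa
    · rw [Finset.coe_insert, Submodule.mem_span_insert] at hu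
      obtain ⟨k, v, hv, rfl⟩ := hu
      obtain ⟨P, hP, rfl⟩ := hN v hv
      refine ⟨C k * Pa * Q + P * Qa, ?_, ?_⟩
      · refine (natDegree_add_le _ _).trans (max_le_max ?_ ?_)
        · refine natDegree_mul_le.trans (Nat.add_le_add_right ?_ _)
          exact natDegree_C_mul_le _ _
        · exact natDegree_mul_le.trans (Nat.add_le_add_right hP _)
      · rw [ha, map_add, map_mul, map_mul, map_mul, map_mul, aeval_C, Algebra.smul_def]
        field_simp

/-- LEAF KUM-D1 (common denominator).  Induction on a finite spanning family of `U` (`Submodule.fg_iff_finiteDimensional`/`Module.Finite.fg_top`,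
`Submodule.span_induction`), or take a basis `u : Fin r → F` of `U`.  `IntermediateField.mem_adjoin_simple_iff` : `u i = P_i(c) / Q_i(c)`,
`Q_i(c) ≠ 0` (if `Q_i(c) = 0` then `u i = 0 = 0 / 1`).  `Q = ∏ Q_i`, `P'_i = P_i ∏_{j ≠ i} Q_j`, `N = max natDegree P'_i`. -/
theorem exists_common_denom (c : F) (U : Submodule K F) [FiniteDimensional K U]
    (hU : ∀ u ∈ U, u ∈ K⟮c⟯) :
    ∃ (Q : K[X]) (N : ℕ), aeval c Q ≠ 0 ∧
      ∀ u ∈ U, ∃ P : K[X], P.natDegree ≤ N ∧ u = aeval c P / aeval c Q := by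
  obtain ⟨s, hs⟩ : U.FG := (Submodule.fg_iff_finiteDimensional U).2 inferInstance
  obtain ⟨Q, N, hQ, hN⟩ := Bdd_common_denom_span (K := K) c s
    (fun u hu => hU u (hs ▸ Submodule.subset_span hu))
  exact ⟨Q, N, hQ, fun u hu => hN u (hs ▸ hu)⟩

/-- LEAF KUM-D2.  `exists_common_denom` : `Q`, `N`.  `exists_prim O Q` : `Q = C a * Q₁`, `Q₁` primitive, `a ≠ 0`; replace `P` by `C a⁻¹ * P`.
`B = image (fun n => c ^ n / Q₁(c)) (range (N + 1))`.  If `u = P(c) / Q₁(c) ∈ W` then `P(c) = u Q₁(c) ∈ W` (`h.aeval_mem`), so all the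
coefficients of `P` are in `O` (`h.coeff_mem`), and `u = ∑_{n ≤ N} (coeff P n) • (c ^ n / Q₁(c))` (`aeval_eq_sum_range'`,
`Finset.sum_div`, `Algebra.smul_def`; the `O`-action on `F` is the restriction of the `K`-action: `rfl`). -/
theorem IsGaussExt.bdd {W : ValuationSubring F} (h : IsGaussExt O W c) (U : Submodule K F)
    [FiniteDimensional K U] (hU : ∀ u ∈ U, u ∈ K⟮c⟯) :
    ∃ B : Finset F, ∀ u ∈ U, u ∈ W → u ∈ Submodule.span ↥O (B : Set F) := by
  classical
  obtain ⟨Q, N, hQ, hPQ⟩ := exists_common_denom c U hU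
  have hQ0 : Q ≠ 0 := by
    rintro rfl
    simp at hQ
  obtain ⟨a, Q₁, ha, hprim, rfl⟩ := exists_prim O Q hQ0
  have hQ1 : aeval c Q₁ ≠ 0 := by
    intro h0
    apply hQ
    rw [map_mul, h0, mul_zero]
  have haF : algebraMap K F a ≠ 0 := by
    simpa using ha
  refine ⟨(Finset.range (N + 1)).image (fun n => c ^ n / aeval c Q₁), fun u hu huW => ?_⟩
  obtain ⟨P, hPN, rfl⟩ := hPQ u hu
  have hu' : aeval c P / aeval c (C a * Q₁) = aeval c (C a⁻¹ * P) / aeval c Q₁ := by
    rw [map_mul, map_mul, aeval_C, aeval_C, map_inv₀]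
    field_simp
  rw [hu'] at huW ⊢
  have hdeg : (C a⁻¹ * P).natDegree < N + 1 :=
    Nat.lt_succ_of_le ((natDegree_C_mul_le _ _).trans hPN)
  have hmem : aeval c (C a⁻¹ * P) ∈ W := by
    have h1 := W.mul_mem _ _ huW (h.aeval_mem hprim.1)
    rwa [div_mul_cancel₀ _ hQ1] at h1
  have hco := h.coeff_mem hmem
  rw [aeval_eq_sum_range' hdeg, Finset.sum_div]
  refine Submodule.sum_mem _ fun n hn => ?_
  have h2 : (C a⁻¹ * P).coeff n • c ^ n / aeval c Q₁
      = (⟨(C a⁻¹ * P).coeff n, hco n⟩ : ↥O) • (c ^ n / aeval c Q₁) := by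
    rw [smul_div_assoc]
    rfl
  rw [h2]
  exact Submodule.smul_mem _ _ (Submodule.subset_span (by
    rw [Finset.coe_image]
    exact ⟨n, hn, rfl⟩))

variable {ϖ : K} {ι : Type*} {W : ι → ValuationSubring F} {e : ι → ℕ}

/-- LEAF KUM-D3 (trace dual basis).  `E = K⟮c⟯`, `G = (W i₀).comap (algebraMap E F) : ValuationSubring E`; `↥G` is an integrally closed domain with
fraction field `E` (instances of `ValuationSubring`), `F` is a `↥G`-algebra, `IsScalarTower ↥G E F`.
* `FiniteDimensional.exists_is_basis_integral ↥G E F` : a basis `b : Basis s E F` of elements integral over `G`;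
* `d = (Algebra.traceForm E F).dualBasis (traceForm_nondegenerate E F) b`;
* `IsIntegralClosure.range_le_span_dualBasis (integralClosure ↥G F) b hb` : every element integral over `G` is in `span ↥G (range d)`;
* `y ∈ ⋂ W i` is integral over `G` : `h.integral y hy` gives a monic `p : F[X]` with coefficients in `E ∩ W i₀`, i.e. in the image of `G`
  (`Bridge.isIntegralElem_of_coeff (algebraMap ↥G F) hp ...`);
* `Module.Basis.mem_span_iff_repr_mem ↥G d y` : the coordinates are in the image of `G`. -/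
theorem VertFam.exists_basis_coord [FiniteDimensional K⟮c⟯ F] [Algebra.IsSeparable K⟮c⟯ F]
    (h : VertFam O ϖ c W e) (i₀ : ι) :
    ∃ (s : Finset F) (d : Basis s K⟮c⟯ F), ∀ y : F, (∀ i, y ∈ W i) →
      ∀ l, algebraMap K⟮c⟯ F (d.repr y l) ∈ W i₀ := by
  classical
  set G : ValuationSubring K⟮c⟯ := (W i₀).comap (algebraMap K⟮c⟯ F) with hG
  obtain ⟨s, b, hb⟩ := FiniteDimensional.exists_is_basis_integral ↥G K⟮c⟯ F
  refine ⟨s, (Algebra.traceForm K⟮c⟯ F).dualBasis (traceForm_nondegenerate K⟮c⟯ F) b,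
    fun y hy l => ?_⟩
  have hint : IsIntegral ↥G y := by
    obtain ⟨p, hp, hco, h0⟩ := h.integral y hy
    refine Bridge.isIntegralElem_of_coeff (algebraMap ↥G F) hp (fun n => ?_) h0
    obtain ⟨h1, h2⟩ := hco n
    exact ⟨⟨⟨p.coeff n, h2⟩, h1 i₀⟩, rfl⟩
  have hspan := IsIntegralClosure.range_le_span_dualBasis (integralClosure ↥G F) b hb
  have hy' : y ∈ Submodule.span ↥G (Set.range
      ((Algebra.traceForm K⟮c⟯ F).dualBasis (traceForm_nondegenerate K⟮c⟯ F) b)) :=
    hspan ⟨⟨y, hint⟩, rfl⟩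
  have : Module.IsTorsionFree ↥G K⟮c⟯ := FaithfulSMul.to_isTorsionFree ↥G K⟮c⟯
  rw [Module.Basis.mem_span_iff_repr_mem ↥G] at hy'
  obtain ⟨g, hg⟩ := hy' l
  rw [← hg]
  exact g.2

/-- LEAF KUM-D4 (**boundedness**, assembly).  `h.exists_basis_coord i₀` : `s`, `d`.  For `l : s` let `λ_l : F →ₗ[K] F` be
`y ↦ algebraMap E F (d.repr y l)` (`(d.coord l).restrictScalars K` composed with `(Algebra.linearMap E F).restrictScalars K` /
`IsScalarTower.toAlgHom K E F`), `U_l = V.map λ_l` (finite dimensional, contained in `E`).  `(h.gauss i₀).bdd U_l` : `B_l`.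
`B = ⋃_l image (· * d l) B_l` (`Finset.biUnion` over `Finset.univ`; `classical`).  For `y ∈ V ∩ ⋂ W i` : `y = ∑_l λ_l y * d l`
(`d.sum_repr`, `Algebra.smul_def`), `λ_l y ∈ U_l ∩ W i₀ ⊆ span O B_l`, and `x ∈ span O B_l → x * d l ∈ span O B`
(`Submodule.span_induction`, or `Submodule.map` by the `O`-linear map `· * d l` and `Submodule.map_span`). -/
theorem VertFam.bdd [FiniteDimensional K⟮c⟯ F] [Algebra.IsSeparable K⟮c⟯ F] [Nonempty ι]
    (h : VertFam O ϖ c W e) (V : Submodule K F) [FiniteDimensional K V] :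
    ∃ B : Finset F, ∀ y ∈ V, (∀ i, y ∈ W i) → y ∈ Submodule.span ↥O (B : Set F) := by
  classical
  obtain ⟨i₀⟩ := ‹Nonempty ι›
  obtain ⟨s, d, hd⟩ := h.exists_basis_coord i₀
  let lam : s → F →ₗ[K] F := fun l =>
    ((IsScalarTower.toAlgHom K K⟮c⟯ F).toLinearMap).comp ((d.coord l).restrictScalars K)
  have hlam : ∀ l y, lam l y = algebraMap K⟮c⟯ F (d.repr y l) := fun l y => rfl
  have hB : ∀ l, ∃ B : Finset F, ∀ u ∈ V.map (lam l), u ∈ W i₀ →
      u ∈ Submodule.span ↥O (B : Set F) := by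
    intro l
    refine (h.gauss i₀).bdd (V.map (lam l)) ?_
    rintro u ⟨y, _, rfl⟩
    exact (d.repr y l).2
  choose B hB using hB
  refine ⟨Finset.univ.biUnion (fun l => (B l).image (· * d l)), fun y hyV hyW => ?_⟩
  have hy : y = ∑ l, lam l y * d l := by
    conv_lhs => rw [← d.sum_repr y]
    refine Finset.sum_congr rfl fun l _ => ?_
    rw [Algebra.smul_def, hlam]
  rw [hy]
  refine Submodule.sum_mem _ fun l _ => ?_
  have h1 := hB l (lam l y) ⟨y, hyV, rfl⟩ (by rw [hlam]; exact hd y hyW l)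
  refine Submodule.span_induction (p := fun x _ => x * d l ∈ Submodule.span ↥O
      ((Finset.univ.biUnion (fun l => (B l).image (· * d l)) : Finset F) : Set F))
    ?_ ?_ ?_ ?_ h1
  · intro x hx
    refine Submodule.subset_span ?_
    rw [Finset.mem_coe, Finset.mem_biUnion]
    exact ⟨l, Finset.mem_univ _, Finset.mem_image.mpr ⟨x, hx, rfl⟩⟩
  · rw [zero_mul]
    exact Submodule.zero_mem _
  · intro x z _ _ hx hz
    rw [add_mul]
    exact Submodule.add_mem _ hx hz
  · intro a x _ hx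
    rw [smul_mul_assoc]
    exact Submodule.smul_mem _ a hx

end Fermat.Agent.S36R.Val
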