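import Fermat.Agent.S36R.Bridge.Abs
import Fermat.Agent.S36R.K0.PlaceOfVal
import Fermat.Agent.DR.Gal.Defs

/-!
# S36/RC/Conc: dictionary "no poles off the poles of `x`" ⟹ "integral over `K[x]`", and its descent

* `mem_RR_of_mem_regOff` : over an algebraically closed field of characteristic `0`;
* `mem_RR_of_map_mem_RR` : descent of integrality along an algebraic extension of the constants.
-/

set_option autoImplicit false

noncomputable section

namespace Fermat.Agent.S36.RC

open AlgebraicCurve IntermediateField Fermat.Agent.S36R Fermat.Agent.S36R.Bridge Fermat.Agent.DR.Gal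

/-- LEAF RC-J1 (valuative criterion).  Mathlib `iInf_valuationSubring_superset` with `s = range (algebraMap O F) ∪ {x}`:
`Subring.closure s` is (the underlying subring of) `Algebra.adjoin O {x}`
(`Algebra.adjoin_eq_ring_closure`), so integrality over the two is the same thing. -/
theorem mem_RR_of_forall_valuationSubring {O F : Type*} [CommRing O] [Field F] [Algebra O F]
    {x u : F}
    (h : ∀ V : ValuationSubring F, (∀ a : O, algebraMap O F a ∈ V) → x ∈ V → u ∈ V) :
    u ∈ RR O x := by
  have h1 : u ∈ (⨅ V : {V : ValuationSubring F //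
      Set.range (algebraMap O F) ∪ {x} ⊆ V.toSubring}, V.1.toSubring) := by
    rw [Subring.mem_iInf]
    rintro ⟨V, hV⟩
    exact h V (fun a => hV (Or.inl ⟨a, rfl⟩)) (hV (Or.inr rfl))
  rw [iInf_valuationSubring_superset] at h1
  have h2 : IsIntegral (Subring.closure (Set.range (algebraMap O F) ∪ {x})) u := h1
  rw [mem_RR]
  obtain ⟨p, hp, hpe⟩ := h2
  have hle : Subring.closure (Set.range (algebraMap O F) ∪ {x}) ≤
      (Algebra.adjoin O {x}).toSubring := (Algebra.adjoin_eq_ring_closure (R := O) {x}).ge
  let inc : Subring.closure (Set.range (algebraMap O F) ∪ {x}) →+* Algebra.adjoin O {x} :=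
    Subring.inclusion hle
  exact ⟨p.map inc, hp.map _, by rw [Polynomial.eval₂_map]; exact hpe⟩

/-- LEAF RC-J2.  `mem_RR_of_forall_valuationSubring`; a valuation subring `V ∋ x` containing `k` is `⊤` or the valuation ring of a
place (`S36R.exists_place_of_valuationSubring`). -/
theorem mem_RR_of_mem_regOff {k F : Type*} [Field k] [IsAlgClosed k] [CharZero k] [Field F]
    [Algebra k F] {x : F} (hx : Transcendental k x) [FiniteDimensional k⟮x⟯ F] {u : F}
    (hu : u ∈ regOff k x) : u ∈ RR k x := by
  apply mem_RR_of_forall_valuationSubring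
  intro V hk hxV
  by_cases hV : V = ⊤
  · rw [hV]
    exact ValuationSubring.mem_top u
  · obtain ⟨P, hP⟩ := S36R.exists_place_of_valuationSubring x hx V hk hxV hV
    rw [← hP]
    exact hu P (hP ▸ hxV)

/-- LEAF RC-J3 (descent).  `mem_RR_of_forall_valuationSubring`: let `V` be a valuation subring of `F` containing `K` and `x`.
The image of `V` under `β` is a local subring of `F'`; it is dominated by a valuation subring `V'` of `F'`
(`LocalSubring.exists_le_valuationSubring`, or `IsLocalRing.exists_factor_valuationRing` applied to `β ∘ V.subtype`), and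
`V'.comap β = V` (`V ≤ V'.comap β`, and if `z ∉ V` then `z⁻¹` is a non unit of `V`, so `β z⁻¹` is a non unit of `V'` by
locality, so `β z ∉ V'`).  `V'` contains `K'` (integral over `β K ⊆ V'`, valuation rings are integrally closed:
`Algebra.IsAlgebraic K K'`, fields: algebraic = integral) and `β x`, hence `β u` (`RR_le_valuationSubring`). -/
theorem mem_RR_of_map_mem_RR {K K' F F' : Type*} [Field K] [Field K'] [Field F] [Field F']
    [Algebra K F] [Algebra K' F'] [Algebra K K'] [Algebra.IsAlgebraic K K'] (β : F →+* F')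
    (hβ : ∀ a : K, β (algebraMap K F a) = algebraMap K' F' (algebraMap K K' a)) {x u : F}
    (h : β u ∈ RR K' (β x)) : u ∈ RR K x := by
  apply mem_RR_of_forall_valuationSubring
  intro V hVK hVx
  obtain ⟨V', hle, hloc⟩ := IsLocalRing.exists_factor_valuationRing (β.comp V.subtype)
  have hK' : ∀ a : K', algebraMap K' F' a ∈ V' := by
    intro a
    obtain ⟨p, hp, hpa⟩ := (Algebra.IsAlgebraic.isAlgebraic (R := K) a).isIntegral
    have hint : IsIntegral V' (algebraMap K' F' a) := by
      let g : K →+* V' := (β.comp (algebraMap K F)).codRestrict V'.toSubring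
        (fun c => hle ⟨algebraMap K F c, hVK c⟩)
      refine ⟨p.map g, hp.map g, ?_⟩
      rw [Polynomial.eval₂_map]
      have hcomp : (algebraMap V' F').comp g = (algebraMap K' F').comp (algebraMap K K') :=
        RingHom.ext fun c => hβ c
      rw [hcomp, ← Polynomial.hom_eval₂, hpa, map_zero]
    obtain ⟨y, hy⟩ := (IsIntegrallyClosed.isIntegral_iff (R := V') (K := F')).mp hint
    rw [← hy]
    exact y.2
  have hx' : β x ∈ V' := hle ⟨x, hVx⟩
  have hu' : β u ∈ V' := RR_le_valuationSubring V' hK' hx' h
  by_contra hu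
  have hu0 : u ≠ 0 := fun h0 => hu (h0 ▸ V.zero_mem)
  have hinv : u⁻¹ ∈ V := (V.mem_or_inv_mem u).resolve_left hu
  have hunit : IsUnit ((β.comp V.subtype).codRestrict V'.toSubring hle ⟨u⁻¹, hinv⟩) := by
    refine isUnit_iff_exists_inv.mpr ⟨⟨β u, hu'⟩, Subtype.ext ?_⟩
    show β u⁻¹ * β u = 1
    rw [← map_mul, inv_mul_cancel₀ hu0, map_one]
  have h2 := hloc.map_nonunit _ hunit
  obtain ⟨t, ht⟩ := isUnit_iff_exists_inv.mp h2
  have ht' : u⁻¹ * (t : F) = 1 := congrArg Subtype.val ht
  apply hu
  rw [(inv_mul_eq_one₀ hu0).mp ht']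
  exact t.2

end Fermat.Agent.S36.RC
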