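import Fermat.Agent.S36.RC.Conc.Kum
import Fermat.Agent.S36.RC.Conc.Disj
import Fermat.Agent.S36R.AA.Lift
import Fermat.Agent.S36R.K0.RamOne

/-!
# S36/RC/Conc (block RC-KUM): the concrete base change `FF (K0 A) N ⟶ FN N`

`bcA A N : BC (K0 A) (FF (K0 A) N) Kbar (FN N)`, `β = bc0 A N`, `Γ =` the image of the inertia group `I_A`.
-/

set_option autoImplicit false
set_option linter.unusedSectionVars false

noncomputable section

namespace Fermat.Agent.S36.RC

open AlgebraicCurve ModularCurve Fermat.Agent.S24 Fermat.Agent.GAL Fermat.Agent.GAL.Desc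
  Fermat.Agent.S36R Fermat.Agent.Lib.RR Module

variable (A : ValuationSubring Kbar) (N : ℕ)

/-- The coefficient functionals on `FF (K0 A) N`. -/
def lam0 (e : ℤ) : FF (K0 A) N →ₗ[K0 A] K0 A where
  toFun f := (f : LaurentSeries (K0 A)).coeff e
  map_add' _ _ := rfl
  map_smul' c f := by
    show ((c • f : FF (K0 A) N) : LaurentSeries (K0 A)).coeff e
      = c • (f : LaurentSeries (K0 A)).coeff e
    rw [Algebra.smul_def, MulMemClass.coe_mul, IntermediateField.coe_algebraMap_apply,
      Gauss.algebraMap_eq_C, HahnSeries.C_mul_eq_smul]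
    simp

/-- linear disjointness. -/
theorem linearIndependent_bc0 (n : ℕ) (z : Fin n → FF (K0 A) N)
    (hz : LinearIndependent (K0 A) z) : LinearIndependent Kbar (fun i => bc0 A N (z i)) :=
  linearIndependent_of_coeff (lam0 A N) (AA.lamK N)
    (fun f hf => Subtype.ext (HahnSeries.ext (funext fun n => hf n))) (bc0 A N)
    (fun _ _ => rfl) z hz

theorem const_bc0 (z : FF (K0 A) N) (b : Kbar)
    (h : bc0 A N z = algebraMap Kbar (FF Kbar N) b) :
    ∃ a : K0 A, z = algebraMap (K0 A) (FF (K0 A) N) a := by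
  refine ⟨(z : LaurentSeries (K0 A)).coeff 0, ?_⟩
  apply bc0_injective A N
  rw [bc0_algebraMap, h]
  congr 1
  have h2 := congrArg (fun y : FF Kbar N => (y : LaurentSeries Kbar).coeff 0) h
  simp only [coe_bc0, coeffMap_coeff] at h2
  rw [show (((z : LaurentSeries (K0 A)).coeff 0 : K0 A) : Kbar)
    = algebraMap (K0 A) Kbar ((z : LaurentSeries (K0 A)).coeff 0) from rfl, h2]
  show b = (algebraMap Kbar (LaurentSeries Kbar) b).coeff 0
  rw [algebraMap_laurentSeries_eq_single]
  exact (HahnSeries.coeff_single_same 0 b).symm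

/-- **The concrete base change.** -/
def bcA [NeZero N] : BC (K0 A) (FF (K0 A) N) Kbar (FN N) where
  β := bc0 A N
  β_alg := fun a => bc0_algebraMap A N a
  Γ := {g | ∃ τ ∈ A.inertiaSubgroupIn ℚ, g = arithmeticGalois (modularFunctionFieldFull N) τ}
  Γ_β := by
    rintro g ⟨τ, hτ, rfl⟩ z
    exact RamOne_smul_bc0 A N τ hτ z
  const := const_bc0 A N
  desc := fun W hW hst => by
    obtain ⟨b, hb, hli⟩ := AA.exists_basis_bc0 (A := A) N W (fun τ hτ f hf => hst _ ⟨τ, hτ, rfl⟩ f hf)
    exact finrank_le_pull_of_basis _ _ W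
      (finite_pull_of_indep _ _ (linearIndependent_bc0 A N) W hW) b hb hli
  fin := fun W hW => finite_pull_of_indep _ _ (linearIndependent_bc0 A N) W hW

@[simp] theorem bcA_β [NeZero N] : (bcA A N).β = bc0 A N := rfl

end Fermat.Agent.S36.RC
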