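import Fermat.Agent.S36.RC.Conc.Link
import Fermat.Agent.S36R.AA.Deliver
import Fermat.Agent.S36R.NormC.IntAbs

/-!
# S36/RC/Conc: old functions (`Old P`)

`u ∈ E k M` regular off the cusps lifts to `v : FF (K0 A) M`, integral over `O0[j]` (`AA.exists_lift_K0`, helper3);
`oldA` : `U = p0 v` (`v(t)`), `oldB` : `U = p2 v` (`v(t^{q²})`).  `Φ u = u(t^{q²})`.
-/

set_option autoImplicit false
set_option linter.unusedSectionVars false

noncomputable section

namespace Fermat.Agent.S36.RC.Conc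

open AlgebraicCurve ModularCurve Fermat.Agent.S24 Fermat.Agent.GAL Fermat.Agent.GAL.Gauss
  Fermat.Agent.GAL.RED Fermat.Agent.S36.StepA Fermat.Agent.S36R Fermat.Agent.S36R.NormC
  Fermat.Agent.S36R.Val Fermat.Agent.DR.Conc Fermat.Agent.DR.Gal Fermat.Agent.Lib.RR

variable {A : ValuationSubring Kbar} {M q : ℕ} [NeZero M] [NeZero q] {S : Setup A M q}

/-- the contract (V3) in the form of block AA. -/
theorem resMem_of_resOK (h3 : AA.ResOK S) : ResMem S := by
  rintro i z r ⟨h1, rfl⟩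
  cases i
  · exact h3.r0 z h1
  · exact h3.r1 z h1
  · exact h3.r2 z h1

open Classical in
/-- `u(t) ↦ u(t^{q²})`. -/
def PhiF (A : ValuationSubring Kbar) (M q : ℕ) [NeZero q] (u : Fb A M) : Fb A M :=
  if h : qExpand (kk A) q (qExpand (kk A) q (u : LaurentSeries (kk A))) ∈
      modularFunctionFieldFullC (kk A) M then ⟨_, h⟩ else 0

theorem red_eq_PhiF (h : ResMem S) {i : Cp} {z : S.F} {u : Fb A M}
    (hr : Red A (ex S i z) (qExpand (kk A) q (qExpand (kk A) q (u : LaurentSeries (kk A))))) :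
    (redData h i).red z = PhiF A M q u := by
  apply Subtype.ext
  rw [coe_red h hr, PhiF, dif_pos (h i z _ hr)]

/-- the lift. -/
theorem exists_lift_reg (S : Setup A M q) (hM : ((M : ℕ) : kk A) ≠ 0) (hg : GoodRed A M)
    (u : Fb A M) (hu : u ∈ regOff (kk A) (Igusa.jb (kk A) M)) :
    ∃ v : FF (K0 A) M, v ∈ Bridge.RR (O0 A) (j0 A M) ∧
      Red A ((S36R.bc0 A M v : FN M) : LaurentSeries Kbar) (u : LaurentSeries (kk A)) := by
  obtain ⟨v, h1, h2, h3⟩ := AA.exists_lift_K0 A S.hq S.hA M hM hg u hu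
  refine ⟨v, h1, ?_⟩
  have := AA.red_of_mem_RM hM h2
  rwa [h3] at this

/-- from `O0` to `K0`. -/
theorem RR_O0_le (x : S.F) : Bridge.RR (O0 A) x ≤ Bridge.RR (K0 A) x := by
  intro z hz
  have := Bridge.map_mem_RR (O := O0 A) (O' := K0 A) (RingHom.id S.F) (c := x) (c' := x)
    (fun a => Subalgebra.algebraMap_mem _ (a : K0 A))
    (Algebra.subset_adjoin (Set.mem_singleton _)) hz
  exact this

theorem p0_mem_RR {v : FF (K0 A) M} (hv : v ∈ Bridge.RR (O0 A) (j0 A M)) :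
    S.p0 v ∈ Bridge.RR (K0 A) (AA.cc S) := by
  apply RR_O0_le
  have := Bridge.map_mem_RR (O := O0 A) (O' := O0 A) (S.p0 : FF (K0 A) M →+* S.F)
    (c := j0 A M) (c' := AA.cc S)
    (fun a => by
      have : (S.p0 : FF (K0 A) M →+* S.F) (algebraMap (O0 A) (FF (K0 A) M) a)
          = algebraMap (O0 A) S.F a := S.p0.commutes (a : K0 A)
      rw [this]; exact Subalgebra.algebraMap_mem _ a)
    (by rw [RingHom.coe_coe, S.p0_j0]; exact Algebra.subset_adjoin (Set.mem_singleton _)) hv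
  exact this

theorem p2_mem_RR {v : FF (K0 A) M} (hv : v ∈ Bridge.RR (O0 A) (j0 A M)) :
    S.p2 v ∈ Bridge.RR (K0 A) (AA.cc S) := by
  apply RR_O0_le
  apply RR_le_of_mem (AA.p2_j0_mem (S := S))
  have := Bridge.map_mem_RR (O := O0 A) (O' := O0 A) (S.p2 : FF (K0 A) M →+* S.F)
    (c := j0 A M) (c' := S.p2 (j0 A M))
    (fun a => by
      have : (S.p2 : FF (K0 A) M →+* S.F) (algebraMap (O0 A) (FF (K0 A) M) a)
          = algebraMap (O0 A) S.F a := S.p2.commutes (a : K0 A)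
      rw [this]; exact Subalgebra.algebraMap_mem _ a)
    (Algebra.subset_adjoin (Set.mem_singleton _)) hv
  exact this

section Table

variable {v : FF (K0 A) M} {r : LaurentSeries (kk A)}
  (hr : Red A ((S36R.bc0 A M v : FN M) : LaurentSeries Kbar) r)

include hr

theorem red_oo_p0 : Red A (ex S Cp.oo (S.p0 v)) r := by
  show Red A (S.e0 _) _
  rwa [S.e0_p0]

theorem red_mid_p0 : Red A (ex S Cp.mid (S.p0 v)) r := by
  show Red A (S.e1 _) _
  rwa [S.e1_p0]

theorem red_zr_p0 : Red A (ex S Cp.zr (S.p0 v)) (qExpand (kk A) q (qExpand (kk A) q r)) := by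
  show Red A (S.e2 _) _
  rw [S.e2_p0]
  exact (Unit.GR.qExpand (Unit.GR.qExpand hr q) q)

theorem red_oo_p2 : Red A (ex S Cp.oo (S.p2 v)) (qExpand (kk A) q (qExpand (kk A) q r)) := by
  show Red A (S.e0 _) _
  rw [S.e0_p2]
  exact (Unit.GR.qExpand (Unit.GR.qExpand hr q) q)

theorem red_mid_p2 : Red A (ex S Cp.mid (S.p2 v)) r := by
  show Red A (S.e1 _) _
  rw [S.e1_p2]
  exact red_twist_zeta S hr

theorem red_zr_p2 : Red A (ex S Cp.zr (S.p2 v)) r := by
  show Red A (S.e2 _) _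
  rwa [S.e2_p2]

end Table

/-- **Old functions.** -/
def old (h : ResMem S) (hG : S.lvl.Good (O0 A) q) (P : Poles (tri h hG))
    (hM : ((M : ℕ) : kk A) ≠ 0) (hg : GoodRed A M)
    (hX : ∀ (a : ℕ) (u : Fb A M), u ∈ riemannRochSpace ((a : ℤ) • P.X Cp.oo) →
      u ∈ regOff (kk A) (Igusa.jb (kk A) M))
    (hL : ∀ z : S.F, z ∈ Bridge.RR (K0 A) (AA.cc S) → ∃ a, z ∈ P.L a 0) : Old P where
  Φ := PhiF A M q
  oldA := fun a u hu => by
    obtain ⟨v, hv, hr⟩ := exists_lift_reg S hM hg u (hX a u hu)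
    obtain ⟨a', ha'⟩ := hL _ (p0_mem_RR (S := S) hv)
    refine ⟨a', S.p0 v, ha', ?_, red_eq h (red_oo_p0 hr), red_eq h (red_mid_p0 hr),
      red_eq_PhiF h (red_zr_p0 hr)⟩
    intro i
    cases i
    · exact mem_W_of_red S (red_oo_p0 hr)
    · exact mem_W_of_red S (red_mid_p0 hr)
    · exact mem_W_of_red S (red_zr_p0 hr)
  oldB := fun a u hu => by
    obtain ⟨v, hv, hr⟩ := exists_lift_reg S hM hg u (hX a u hu)
    obtain ⟨a', ha'⟩ := hL _ (p2_mem_RR (S := S) hv)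
    refine ⟨a', S.p2 v, ha', ?_, red_eq_PhiF h (red_oo_p2 hr), red_eq h (red_mid_p2 hr)⟩
    intro i
    cases i
    · exact mem_W_of_red S (red_oo_p2 hr)
    · exact mem_W_of_red S (red_mid_p2 hr)
    · exact mem_W_of_red S (red_zr_p2 hr)

end Fermat.Agent.S36.RC.Conc
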