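import Fermat.Agent.S36.RC.Conc.BC

/-!
# S36/RC/Conc (block RC-KUM): the spaces `L a c = L(a (x)_∞ + c (x - c₁)_0)` over `K0`

`B : BC K0 F0 Kb F`, `w = x - c₁ : F0`.  `B.L w a c = β⁻¹ L_Kb (a (β w)_∞ + c (β w)_0)`.
All the fields `L_*` of `PreP` / `Poles`, the fields `int₀`, `int₁` of `PreP`, and the converse `exists_mem_L_of_mem_RR`.
-/

set_option autoImplicit false

noncomputable section

namespace Fermat.Agent.S36.RC

open AlgebraicCurve Fermat.Agent.Lib.RR Fermat.Agent.GAL.RED Fermat.Agent.DR.Abs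
  Fermat.Agent.S36R.Bridge IntermediateField

variable {K0 F0 Kb F : Type*} [Field K0] [Field F0] [Algebra K0 F0] [Field Kb] [Field F]
  [Algebra Kb F] [Algebra K0 Kb]

namespace BC

variable (B : BC K0 F0 Kb F) [IsFF Kb F] [IsAlgClosed Kb]

/-- `L(a (w)_∞ + c (w)_0)`. -/
def L (w : F0) (a c : ℕ) : Submodule K0 F0 := B.pl (riemannRochSpace (bipole Kb (B.β w) a c))

variable {B} {w : F0}

theorem mem_L {a c : ℕ} {z : F0} :
    z ∈ B.L w a c ↔ B.β z ∈ riemannRochSpace (bipole Kb (B.β w) a c) := Iff.rfl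

theorem L_mono {a a' c c' : ℕ} (ha : a ≤ a') (hc : c ≤ c') : B.L w a c ≤ B.L w a' c' :=
  fun _ hz => DR.Abs.L_mono (bipole_mono _ ha hc) hz

theorem one_mem_L00 : (1 : F0) ∈ B.L w 0 0 := by
  rw [mem_L, map_one]
  exact one_mem_L (bipole_nonneg _ _ _)

theorem L_mul {a a' c c' : ℕ} {y z : F0} (hy : y ∈ B.L w a c) (hz : z ∈ B.L w a' c') :
    y * z ∈ B.L w (a + a') (c + c') := by
  rw [mem_L, map_mul, bipole_add]
  exact mul_mem_L hy hz

theorem L_inf (a a' c c' : ℕ) : B.L w a c ⊓ B.L w a' c' = B.L w (min a a') (min c c') := by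
  apply le_antisymm
  · rintro z ⟨h1, h2⟩
    have h1' : B.β z ∈ riemannRochSpace (bipole Kb (B.β w) a c + 0) := by rw [add_zero]; exact h1
    have h2' : B.β z ∈ riemannRochSpace (bipole Kb (B.β w) a' c' + 0) := by
      rw [add_zero]; exact h2
    have h := mem_L_bipole_inf (B.β w) 0 h1' h2'
    rw [add_zero] at h
    exact h
  · exact le_inf (L_mono (min_le_left _ _) (min_le_left _ _))
      (L_mono (min_le_right _ _) (min_le_right _ _))

theorem L_zero (z : F0) (hz : z ∈ B.L w 0 0) : ∃ a : K0, z = algebraMap K0 F0 a := by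
  have h1 : ∀ P : Place Kb F, 0 ≤ P.ord (B.β z) := by
    intro P
    have h := mem_riemannRochSpace_iff.1 (mem_L.1 hz) P
    rcases h with h | h
    · rw [h, Place.ord_zero]
    · rw [bipole_apply] at h
      simpa using h
  obtain ⟨b, hb⟩ := mem_range_of_ord_nonneg h1
  exact B.const z b hb.symm

theorem L_root (n a c : ℕ) (z : F0) (hn : 0 < n) (h : z ^ n ∈ B.L w (n * a) (n * c)) :
    z ∈ B.L w a c := by
  rw [mem_L, map_pow, bipole_smul] at h
  exact mem_L_of_pow_mem hn h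

/-- the pointwise form. -/
theorem mem_L_iff {a c : ℕ} {z : F0} (hz : z ≠ 0) : z ∈ B.L w a c ↔ ∀ P : Place Kb F,
    -((a : ℤ) * max (-(P.ord (B.β w))) 0 + (c : ℤ) * max (P.ord (B.β w)) 0) ≤ P.ord (B.β z) := by
  rw [mem_L, mem_riemannRochSpace_iff]
  refine forall_congr' fun P => ?_
  rw [bipole_apply]
  constructor
  · rintro (h | h)
    · exact absurd h (B.β_ne_zero hz)
    · exact h
  · exact Or.inr

section Int

variable [Algebra.IsAlgebraic K0 Kb] [CharZero Kb] {x : F0} {c₁ : K0}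

omit [IsFF Kb F] [IsAlgClosed Kb] [Algebra.IsAlgebraic K0 Kb] [CharZero Kb] in
theorem sub_const_ne_zero (hx : Transcendental Kb (B.β x)) : x - algebraMap K0 F0 c₁ ≠ 0 := by
  intro h0
  apply hx
  rw [sub_eq_zero.1 h0, B.β_alg]
  exact isAlgebraic_algebraMap _

omit [IsFF Kb F] [IsAlgClosed Kb] [Algebra.IsAlgebraic K0 Kb] [CharZero Kb] in
theorem ord_sub_const_nonneg (P : Place Kb F) (hP : 0 ≤ P.ord (B.β x)) :
    0 ≤ P.ord (B.β (x - algebraMap K0 F0 c₁)) := by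
  apply S24.ord_nonneg_of_mem
  rw [map_sub, B.β_alg]
  refine sub_mem ?_ (P.algebraMap_mem' _)
  by_cases h0 : B.β x = 0
  · rw [h0]; exact zero_mem _
  · exact S24.mem_of_ord_nonneg P h0 hP

omit [IsFF Kb F] [IsAlgClosed Kb] [Algebra.IsAlgebraic K0 Kb] [CharZero Kb] in
theorem ord_nonneg_of_sub_const (P : Place Kb F)
    (hP : 0 ≤ P.ord (B.β (x - algebraMap K0 F0 c₁))) : 0 ≤ P.ord (B.β x) := by
  apply S24.ord_nonneg_of_mem
  have e : B.β x = B.β (x - algebraMap K0 F0 c₁) + algebraMap Kb F (algebraMap K0 Kb c₁) := by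
    rw [map_sub, B.β_alg, sub_add_cancel]
  rw [e]
  refine add_mem ?_ (P.algebraMap_mem' _)
  by_cases h0 : B.β (x - algebraMap K0 F0 c₁) = 0
  · rw [h0]; exact zero_mem _
  · exact S24.mem_of_ord_nonneg P h0 hP

omit [IsFF Kb F] [IsAlgClosed Kb] [Algebra.IsAlgebraic K0 Kb] [CharZero Kb] in
theorem ord_sub_const_of_neg (P : Place Kb F) (hP : P.ord (B.β x) < 0) :
    P.ord (B.β (x - algebraMap K0 F0 c₁)) = P.ord (B.β x) := by
  have hx0 : B.β x ≠ 0 := by
    intro h0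
    rw [h0, Place.ord_zero] at hP
    exact lt_irrefl _ hP
  rw [map_sub, B.β_alg]
  by_cases hc : algebraMap Kb F (algebraMap K0 Kb c₁) = 0
  · rw [hc, sub_zero]
  · rw [sub_eq_add_neg]
    apply ord_add_eq_of_lt P hx0 (neg_ne_zero.2 hc)
    rw [ord_neg, ord_algebraMap]
    exact hP

/-- LEAF KUM-L1 (`PreP.int₀`).  `z = 0` trivial.  `B.mem_RR_of_ord hx`: let `P` with `0 ≤ ord_P (β x)`.  Then `0 ≤ ord_P (β w)`, `w = x - c₁`
(`map_sub`, `B.β_alg`, `S24.ord_add_ge`-type lemma / `PlaceEval.mem_iff` and `sub_mem`, `P.algebraMap_mem'`); by `mem_L_iff`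
`- c ord_P (β w) ≤ ord_P (β z)`; `ord_P (β (z w ^ c)) = ord_P (β z) + c ord_P (β w)` (`Place.ord_mul`, `S24.ord_pow`; `w ≠ 0` since `β x` is
transcendental). -/
theorem int₀ (hx : Transcendental Kb (B.β x)) [FiniteDimensional Kb⟮B.β x⟯ F] (a c : ℕ) (z : F0)
    (hz : z ∈ B.L (x - algebraMap K0 F0 c₁) a c) :
    z * (x - algebraMap K0 F0 c₁) ^ c ∈ RR K0 x := by
  by_cases hz0 : z = 0
  · rw [hz0, zero_mul]; exact zero_mem _
  have hw0 : x - algebraMap K0 F0 c₁ ≠ 0 := sub_const_ne_zero hx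
  apply B.mem_RR_of_ord hx
  intro P hP
  have hw : 0 ≤ P.ord (B.β (x - algebraMap K0 F0 c₁)) := ord_sub_const_nonneg P hP
  have h := (mem_L_iff hz0).1 hz P
  rw [map_mul, map_pow, P.ord_mul (B.β_ne_zero hz0) (pow_ne_zero _ (B.β_ne_zero hw0)), ord_pow]
  rw [max_eq_right (by omega : -(P.ord (B.β (x - algebraMap K0 F0 c₁))) ≤ 0), max_eq_left hw,
    mul_zero, zero_add] at h
  linarith

/-- LEAF KUM-L2 (`PreP.int₁`).  `B.mem_RR_of_ord` for `y = x⁻¹` (`β x⁻¹ = (β x)⁻¹` is transcendental: `S24.transcendental_inv`; the instance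
`FiniteDimensional Kb⟮(β x)⁻¹⟯ F` : `GAL.FF.finiteDimensional_adjoin_inv`, rewrite `map_inv₀`).  Let `P` with `0 ≤ ord_P (β x⁻¹)`, i.e.
`ord_P (β x) ≤ 0`.
* `ord_P (β x) < 0` : `ord_P (β w) = ord_P (β x)` (constants have order `0`), `a ord_P (β x) ≤ ord_P (β z)`, total order `≥ 0`.
* `ord_P (β x) = 0` : `0 ≤ ord_P (β w)`, `- c ord_P (β w) ≤ ord_P (β z)`, total order `≥ 0`. -/
theorem int₁ (hx : Transcendental Kb (B.β x)) [FiniteDimensional Kb⟮B.β x⟯ F] (a c : ℕ) (z : F0)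
    (hz : z ∈ B.L (x - algebraMap K0 F0 c₁) a c) :
    z * (x - algebraMap K0 F0 c₁) ^ c / x ^ (a + c) ∈ RR K0 x⁻¹ := by
  by_cases hz0 : z = 0
  · rw [hz0, zero_mul, zero_div]; exact zero_mem _
  have hw0 : x - algebraMap K0 F0 c₁ ≠ 0 := sub_const_ne_zero hx
  have hx0 : x ≠ 0 := by
    rintro rfl
    apply hx
    rw [map_zero]
    exact isAlgebraic_zero
  have hx' : Transcendental Kb (B.β x⁻¹) := by
    rw [map_inv₀]; exact S24.transcendental_inv hx
  have : FiniteDimensional Kb⟮B.β x⁻¹⟯ F := by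
    rw [map_inv₀]; exact GAL.FF.finiteDimensional_adjoin_inv _
  apply B.mem_RR_of_ord hx'
  intro P hP
  rw [map_inv₀, P.ord_inv] at hP
  have h := (mem_L_iff hz0).1 hz P
  rw [map_div₀, map_mul, map_pow, map_pow,
    ord_div P (mul_ne_zero (B.β_ne_zero hz0) (pow_ne_zero _ (B.β_ne_zero hw0)))
      (pow_ne_zero _ (B.β_ne_zero hx0)),
    P.ord_mul (B.β_ne_zero hz0) (pow_ne_zero _ (B.β_ne_zero hw0)), ord_pow, ord_pow]
  rcases lt_or_eq_of_le (by omega : P.ord (B.β x) ≤ 0) with hlt | heq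
  · have e := ord_sub_const_of_neg (c₁ := c₁) P hlt
    rw [e] at h ⊢
    rw [max_eq_left (by omega : (0 : ℤ) ≤ -(P.ord (B.β x))),
      max_eq_right (by omega : P.ord (B.β x) ≤ 0), mul_zero, add_zero] at h
    push_cast
    nlinarith
  · have hw : 0 ≤ P.ord (B.β (x - algebraMap K0 F0 c₁)) := ord_sub_const_nonneg P heq.ge
    rw [max_eq_right (by omega : -(P.ord (B.β (x - algebraMap K0 F0 c₁))) ≤ 0), max_eq_left hw,
      mul_zero, zero_add] at h
    rw [heq, mul_zero, sub_zero]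
    linarith

omit [Algebra.IsAlgebraic K0 Kb] [CharZero Kb] in
/-- LEAF KUM-L3 (converse, poles at the cusps only).  `B.ord_nonneg_of_mem_RR` : `β v` is regular wherever `β x` is, i.e. wherever `β w` is
(`w = x - c₁`); `DR.Abs.exists_mem_L_poleDiv_iff (β w) (β v)` gives `a`; `bipole_zero_right`. -/
theorem exists_mem_L_of_mem_RR {v : F0} (hv : v ∈ RR K0 x) :
    ∃ a : ℕ, v ∈ B.L (x - algebraMap K0 F0 c₁) a 0 := by
  obtain ⟨a, ha⟩ := (DR.Abs.exists_mem_L_poleDiv_iff (k := Kb) (B.β (x - algebraMap K0 F0 c₁))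
    (B.β v)).2 fun P hP => B.ord_nonneg_of_mem_RR hv P (ord_nonneg_of_sub_const P hP)
  refine ⟨a, ?_⟩
  rw [mem_L, bipole_zero_right]
  exact ha

/-- poles at the cusps only ⟹ integral over `K0[x]`. -/
theorem mem_RR_of_mem_L (hx : Transcendental Kb (B.β x)) [FiniteDimensional Kb⟮B.β x⟯ F] {a : ℕ}
    {z : F0} (hz : z ∈ B.L (x - algebraMap K0 F0 c₁) a 0) : z ∈ RR K0 x := by
  have h := int₀ hx a 0 z hz
  rwa [pow_zero, mul_one] at h

/-- **`stabA`, `stabB`** (abstract form): a multiplicative map which preserves the integral closure of `K0[x]` preserves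
"poles at the cusps only". -/
theorem stab (hx : Transcendental Kb (B.β x)) [FiniteDimensional Kb⟮B.β x⟯ F] (Nm : F0 → F0)
    (hN : ∀ s ∈ RR K0 x, Nm s ∈ RR K0 x) (a : ℕ) (z : F0)
    (hz : z ∈ B.L (x - algebraMap K0 F0 c₁) a 0) :
    ∃ a', Nm z ∈ B.L (x - algebraMap K0 F0 c₁) a' 0 :=
  exists_mem_L_of_mem_RR (hN z (mem_RR_of_mem_L hx hz))

end Int

end BC

end Fermat.Agent.S36.RC
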