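import Fermat.Agent.S36.RC.Chain
import Fermat.Agent.S36R.Bridge.Abs
import Fermat.Agent.DR.Abs.Bipole

/-!
# S36/RC/Conc: construction of `Poles T` (abstract form of RC-INT and RC-VAN)

Input (`PreP T O`): a coordinate `x` (`= j`), a constant `c₁`, the spaces `L a c`, saturation of the two charts
`RR O x`, `RR O x⁻¹` (contract `Inj.Chart.sat` of route R), two units `Ψoo`, `Ψzr` with valuations `(M, 0, 0)`,
`(0, 0, M)` whose reductions on the other components are one and the same function `hb` (`= Δ̄ ^ ((1 - q) m)`).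

Output: `PreP.poles : Poles T`, with `X i = (red_i x)_∞`, `Y i = (red_i x - c̄₁)_0`, `m = (hb)_0`.
-/

set_option autoImplicit false

noncomputable section

namespace Fermat.Agent.S36.RC

open AlgebraicCurve Fermat.Agent.Lib.RR Fermat.Agent.GAL.RED Fermat.Agent.S36R.Bridge

variable {K F k Fb : Type*} [Field K] [Field F] [Algebra K F] [Field k] [Field Fb] [Algebra k Fb]

section Int

variable (T : Tri K F k Fb) {O : Type*} [CommRing O] [Algebra O F]

/-- `O` is a ring of integral constants. -/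
def ConstRing (O : Type*) [CommRing O] [Algebra O F] : Prop :=
  (∀ (a : O) (i : Cp), algebraMap O F a ∈ (T.R i).O ∧
    ∃ b : k, T.red i (algebraMap O F a) = algebraMap k Fb b) ∧
  ∀ a : K, ∃ (N : ℕ) (b : O), (T.q : F) ^ N * algebraMap K F a = algebraMap O F b

variable {T}

/-- membership in the valuation ring of a place (no hypothesis on the function field). -/
theorem PreP_mem_iff (P : Place k Fb) {f : Fb} : f ∈ P.toValuationSubring ↔ 0 ≤ P.ord f := by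
  rcases eq_or_ne f 0 with rfl | hf
  · simp
  · exact Fermat.Agent.S24.mem_iff_ord_nonneg P hf

/-- LEAF RC-I1 (reduction of integral elements).  `exists_monic_of_mem_RR hu` : `P` monic, coefficients in `O[x]`,
`P(u) = 0`.  `u ∈ O_i` by `RR_le_valuationSubring`.  All coefficients `p_l` lie in `O_i` and
`red_i p_l ∈ V := P.toValuationSubring` (induction on `Algebra.adjoin`: `hO.1`, `red_add`, `red_mul`,
`PlaceEval.mem_iff`, `Place.algebraMap_mem'`).  Apply `red_i` to `Σ p_l u ^ l = 0` (`Polynomial.eval_eq_sum_range`,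
`red` of a finite sum of elements of `O_i`): `red_i u` is a root of a monic polynomial with coefficients in `V`, so it
is in `V` (valuation rings are integrally closed; e.g. `isIntegralElem_of_coeff V.subtype` +
`IsIntegrallyClosed.isIntegral_iff`, as in `RR_le_valuationSubring`). -/
theorem ord_red_nonneg_of_mem_RR (hO : ConstRing T O) {x u : F} (i : Cp) (hx : x ∈ (T.R i).O)
    (hu : u ∈ RR O x) (P : Place k Fb) (hP : 0 ≤ P.ord (T.red i x)) :
    0 ≤ P.ord (T.red i u) := by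
  classical
  obtain ⟨P0, hP0, hcoe, hP0u⟩ := exists_monic_of_mem_RR hu
  have huO : u ∈ (T.R i).O := RR_le_valuationSubring (T.R i).O (fun a => (hO.1 a i).1) hx hu
  -- elements of `O[x]` are integral with reduction regular at `P`
  have hle : ∀ y ∈ Algebra.adjoin O {x}, ∃ hy : y ∈ (T.R i).O,
      (T.R i).res ⟨y, hy⟩ ∈ P.toValuationSubring := by
    intro y hy
    induction hy using Algebra.adjoin_induction with
    | mem y hy =>
      rw [Set.mem_singleton_iff] at hy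
      subst hy
      refine ⟨hx, ?_⟩
      rw [← (T.R i).red_of_mem hx]
      exact (PreP_mem_iff P).2 hP
    | algebraMap a =>
      obtain ⟨h1, b, hb⟩ := hO.1 a i
      refine ⟨h1, ?_⟩
      rw [← (T.R i).red_of_mem h1]
      have hb' : (T.R i).red (algebraMap O F a) = algebraMap k Fb b := hb
      rw [hb']
      exact P.algebraMap_mem' b
    | add y z _ _ hy hz =>
      obtain ⟨h1, h2⟩ := hy
      obtain ⟨h3, h4⟩ := hz
      refine ⟨add_mem h1 h3, ?_⟩
      have : (⟨y + z, add_mem h1 h3⟩ : (T.R i).O) = ⟨y, h1⟩ + ⟨z, h3⟩ := rfl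
      rw [this, map_add]
      exact add_mem h2 h4
    | mul y z _ _ hy hz =>
      obtain ⟨h1, h2⟩ := hy
      obtain ⟨h3, h4⟩ := hz
      refine ⟨mul_mem h1 h3, ?_⟩
      have : (⟨y * z, mul_mem h1 h3⟩ : (T.R i).O) = ⟨y, h1⟩ * ⟨z, h3⟩ := rfl
      rw [this, map_mul]
      exact mul_mem h2 h4
  -- lift the polynomial to `O_i`
  obtain ⟨p, hp, -, hpm⟩ := Polynomial.lifts_and_natDegree_eq_and_monic
    (f := (T.R i).O.subtype) (p := P0)
    ((Polynomial.lifts_iff_coeff_lifts _).mpr fun l => ⟨⟨_, (hle _ (hcoe l)).1⟩, rfl⟩) hP0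
  have hpu : p.eval (⟨u, huO⟩ : (T.R i).O) = 0 := by
    apply Subtype.val_injective
    have h1 : (T.R i).O.subtype (p.eval (⟨u, huO⟩ : (T.R i).O))
        = (p.map (T.R i).O.subtype).eval u := by
      rw [Polynomial.eval_map]
      exact (Polynomial.eval₂_hom (T.R i).O.subtype (⟨u, huO⟩ : (T.R i).O)).symm
    have h2 : ((p.eval (⟨u, huO⟩ : (T.R i).O) : (T.R i).O) : F)
        = (T.R i).O.subtype (p.eval (⟨u, huO⟩ : (T.R i).O)) := rfl
    rw [h2, h1, hp, hP0u]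
    rfl
  have hroot : (p.map (T.R i).res).eval ((T.R i).res ⟨u, huO⟩) = 0 := by
    rw [Polynomial.eval_map, Polynomial.eval₂_hom, hpu, map_zero]
  have hcoe2 : ∀ l, (p.map (T.R i).res).coeff l ∈
      Set.range (algebraMap P.toValuationSubring Fb) := by
    intro l
    rw [Polynomial.coeff_map]
    have h1 : ((p.coeff l : (T.R i).O) : F) = P0.coeff l := by
      rw [← hp, Polynomial.coeff_map]
      rfl
    obtain ⟨h2, h3⟩ := hle _ (hcoe l)
    have h4 : p.coeff l = ⟨P0.coeff l, h2⟩ := Subtype.ext h1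
    rw [h4]
    exact ⟨⟨_, h3⟩, rfl⟩
  have hint : IsIntegral P.toValuationSubring ((T.R i).res ⟨u, huO⟩) :=
    isIntegralElem_of_coeff (algebraMap P.toValuationSubring Fb) (hpm.map _) hcoe2 hroot
  obtain ⟨y, hy⟩ := (IsIntegrallyClosed.isIntegral_iff (R := P.toValuationSubring) (K := Fb)).mp hint
  apply (PreP_mem_iff P).1
  show (T.R i).red u ∈ _
  rw [(T.R i).red_of_mem huO, ← hy]
  exact y.2

/-- LEAF RC-I2. Induction on `N`: `q ^ (N + 1) u = q (q ^ N u)`, `q ^ N u` is integral. -/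
theorem mem_RR_of_sat {x : F}
    (sat : ∀ z : F, (T.q : F) * z ∈ RR O x → T.Int z → z ∈ RR O x) {u : F} (hu : T.Int u) {N : ℕ}
    (h : (T.q : F) ^ N * u ∈ RR O x) : u ∈ RR O x := by
  induction N with
  | zero => simpa using h
  | succ N ih =>
    apply ih
    apply sat
    · rw [← mul_assoc, ← pow_succ']
      exact h
    · intro i
      exact (T.R i).O.mul_mem _ _ ((T.R i).O.pow_mem (T.q_mem i) N) (hu i)

/-- every element of `K[x]` is multiplied into `O[x]` by the large powers of `q`. -/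
theorem PreP_exists_clear_adjoin (hO : ConstRing T O) {x y : F} (hy : y ∈ Algebra.adjoin K {x}) :
    ∃ k : ℕ, ∀ N, k ≤ N → (T.q : F) ^ N * y ∈ Algebra.adjoin O {x} := by
  have hq : (T.q : F) ∈ Algebra.adjoin O {x} := by
    rw [← map_natCast (algebraMap O F)]
    exact Subalgebra.algebraMap_mem _ _
  induction hy using Algebra.adjoin_induction with
  | mem y hy =>
    rw [Set.mem_singleton_iff] at hy
    subst hy
    exact ⟨0, fun N _ => mul_mem (pow_mem hq _) (Algebra.subset_adjoin (Set.mem_singleton _))⟩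
  | algebraMap a =>
    obtain ⟨N₀, b, hb⟩ := hO.2 a
    refine ⟨N₀, fun N hN => ?_⟩
    obtain ⟨N', rfl⟩ := Nat.exists_eq_add_of_le hN
    rw [add_comm, pow_add, mul_assoc, hb]
    exact mul_mem (pow_mem hq _) (Subalgebra.algebraMap_mem _ b)
  | add y z _ _ hy hz =>
    obtain ⟨k, hk⟩ := hy
    obtain ⟨l, hl⟩ := hz
    refine ⟨max k l, fun N hN => ?_⟩
    rw [mul_add]
    exact add_mem (hk N (le_trans (le_max_left _ _) hN)) (hl N (le_trans (le_max_right _ _) hN))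
  | mul y z _ _ hy hz =>
    obtain ⟨k, hk⟩ := hy
    obtain ⟨l, hl⟩ := hz
    refine ⟨k + l, fun N hN => ?_⟩
    obtain ⟨N', rfl⟩ := Nat.exists_eq_add_of_le hN
    have h1 := mul_mem (hk (k + N') (Nat.le_add_right _ _)) (hl l le_rfl)
    have h2 : (T.q : F) ^ (k + l + N') * (y * z) =
        (T.q : F) ^ (k + N') * y * ((T.q : F) ^ l * z) := by
      rw [show k + l + N' = (k + N') + l by ring, pow_add]; ring
    rw [h2]; exact h1

/-- LEAF RC-I3 (clearing denominators).  `P` monic of degree `n` with coefficients in `K[x]`, `P(u) = 0`.  Every element of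
`K[x]` is multiplied into `O[x]` by a power of `q` (induction on `Algebra.adjoin`, `hO.2`; powers of `q` are in `O[x]`:
`(q : F) = algebraMap O F q`); take `N` for all the coefficients (`Finset.sup`/induction over `range n`).  Then
`Q = Σ q ^ (N (n - l)) p_l X ^ l` (`Polynomial.scaleRoots P (q ^ N)`) is monic, has coefficients in `O[x]`, and
`Q (q ^ N u) = 0` (`Polynomial.scaleRoots_eval₂_mul`/`scaleRoots_aeval_eq_zero`); `mem_RR_of_monic`. -/
theorem exists_pow_mul_mem_RR (hO : ConstRing T O) {x u : F} (hu : u ∈ RR K x) :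
    ∃ N : ℕ, (T.q : F) ^ N * u ∈ RR O x := by
  classical
  obtain ⟨P, hP, hcoe, hPz⟩ := exists_monic_of_mem_RR hu
  choose κ hκ using fun i => PreP_exists_clear_adjoin hO (hcoe i)
  set k := (Finset.range (P.natDegree + 1)).sup κ with hk
  refine ⟨k, mem_RR_of_monic (P := P.scaleRoots ((T.q : F) ^ k))
    ((Polynomial.monic_scaleRoots_iff _).mpr hP) ?_ ?_⟩
  · intro i
    rw [Polynomial.coeff_scaleRoots]
    rcases lt_trichotomy i P.natDegree with hi | hi | hi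
    · rw [← pow_mul, mul_comm]
      apply hκ i
      have h1 : κ i ≤ k := Finset.le_sup (f := κ) (Finset.mem_range.mpr (by omega))
      calc κ i ≤ k := h1
        _ = k * 1 := (mul_one k).symm
        _ ≤ k * (P.natDegree - i) := Nat.mul_le_mul_left _ (by omega)
    · subst hi
      rw [Nat.sub_self, pow_zero, mul_one, hP.coeff_natDegree]
      exact one_mem _
    · rw [Polynomial.coeff_eq_zero_of_natDegree_lt hi, zero_mul]
      exact zero_mem _
  · have h1 : Polynomial.aeval u P = 0 := by rw [Polynomial.coe_aeval_eq_eval]; exact hPz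
    have h2 := Polynomial.scaleRoots_aeval_eq_zero (r := (T.q : F) ^ k) h1
    rw [Polynomial.coe_aeval_eq_eval] at h2
    exact h2

theorem mem_RR_of_int (hO : ConstRing T O) {x : F}
    (sat : ∀ z : F, (T.q : F) * z ∈ RR O x → T.Int z → z ∈ RR O x) {u : F} (hu : T.Int u)
    (h : u ∈ RR K x) : u ∈ RR O x := by
  obtain ⟨N, hN⟩ := exists_pow_mul_mem_RR hO h
  exact mem_RR_of_sat sat hu hN

end Int

/-- The input of the construction. -/
structure PreP (T : Tri K F k Fb) (O : Type*) [CommRing O] [Algebra O F]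
    [HasPrincipalDivisors k Fb] where
  L : ℕ → ℕ → Submodule K F
  L_mono : ∀ {a a' c c' : ℕ}, a ≤ a' → c ≤ c' → L a c ≤ L a' c'
  one_mem : (1 : F) ∈ L 0 0
  L_mul : ∀ {a a' c c' : ℕ} {y z : F}, y ∈ L a c → z ∈ L a' c' → y * z ∈ L (a + a') (c + c')
  L_inf : ∀ a a' c c' : ℕ, L a c ⊓ L a' c' = L (min a a') (min c c')
  L_zero : ∀ z ∈ L 0 0, ∃ a : K, z = algebraMap K F a
  L_root : ∀ (n a c : ℕ) (z : F), 0 < n → z ^ n ∈ L (n * a) (n * c) → z ∈ L a c
  hO : ConstRing T O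
  /-- the coordinate `j` -/
  x : F
  /-- the auxiliary value -/
  c₁ : K
  c₁_mem : c₁ ∈ T.A
  x_int : T.Int x
  x_nc : ∀ i, T.red i x ∉ Set.range (algebraMap k Fb)
  x_mid : T.red Cp.mid x = T.red Cp.oo x
  sat₀ : ∀ z : F, (T.q : F) * z ∈ RR O x → T.Int z → z ∈ RR O x
  sat₁ : ∀ z : F, (T.q : F) * z ∈ RR O x⁻¹ → T.Int z → z ∈ RR O x⁻¹
  /-- `z ∈ L(a (x)_∞ + c (x - c₁)_0)` in terms of integrality -/
  int₀ : ∀ (a c : ℕ) (z : F), z ∈ L a c → z * (x - algebraMap K F c₁) ^ c ∈ RR K x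
  int₁ : ∀ (a c : ℕ) (z : F), z ∈ L a c →
    z * (x - algebraMap K F c₁) ^ c / x ^ (a + c) ∈ RR K x⁻¹
  /-- the units -/
  M : ℕ
  M_pos : 0 < M
  Ψoo : F
  Ψzr : F
  aΨ : ℕ
  Ψoo_inv : Ψoo⁻¹ ∈ L aΨ 0
  Ψzr_inv : Ψzr⁻¹ ∈ L aΨ 0
  hb : Fb
  hb_ne : hb ≠ 0
  Ψoo_oo : T.red Cp.oo (Ψoo / (T.q : F) ^ M) ≠ 0
  Ψoo_mid : T.red Cp.mid Ψoo = hb
  Ψoo_zr : T.red Cp.zr Ψoo = hb
  Ψzr_oo : T.red Cp.oo Ψzr ≠ 0
  Ψzr_mid : T.red Cp.mid Ψzr = hb
  Ψzr_zr : T.red Cp.zr (Ψzr / (T.q : F) ^ M) ≠ 0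
  /-- `hb` is regular off the cusps, has no zero at the cusps nor on `x = c₁` -/
  hb_reg : ∀ (i : Cp) (P : Place k Fb), 0 ≤ P.ord (T.red i x) → 0 ≤ P.ord hb
  hb_cusp : ∀ (i : Cp) (P : Place k Fb), P.ord (T.red i x) < 0 → P.ord hb ≤ 0
  hb_c₁ : ∀ (i : Cp) (P : Place k Fb), 0 < P.ord hb →
    P.ord (T.red i x - algebraMap k Fb ((T.R Cp.oo).redA c₁)) ≤ 0
  g : ℤ
  genus_le : (M : ℤ) * (g - 1) ≤ ((T.e : ℤ) + 2) *
    ((M : ℤ) * ((genusFF k Fb : ℤ) - 1) + Divisor.degree (poleDiv (K := k) hb⁻¹))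

namespace PreP

variable {T : Tri K F k Fb} {O : Type*} [CommRing O] [Algebra O F]

section

variable [HasPrincipalDivisors k Fb] (p : PreP T O)

/-- `(red_i x)_∞`. -/
def X (i : Cp) : Divisor k Fb := poleDiv (K := k) (T.red i p.x)

/-- `(red_i x - c̄₁)_0`. -/
def Y (i : Cp) : Divisor k Fb :=
  poleDiv (K := k) (T.red i p.x - algebraMap k Fb ((T.R Cp.oo).redA p.c₁))⁻¹

/-- the supersingular divisor (times `M`). -/
def m : Divisor k Fb := poleDiv (K := k) p.hb⁻¹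

theorem X_apply (i : Cp) (P : Place k Fb) : p.X i P = max (-(P.ord (T.red i p.x))) 0 :=
  poleDiv_apply _ _

theorem Y_apply (i : Cp) (P : Place k Fb) :
    p.Y i P = max (P.ord (T.red i p.x - algebraMap k Fb ((T.R Cp.oo).redA p.c₁))) 0 := by
  rw [Y, poleDiv_apply, P.ord_inv, neg_neg]

theorem m_apply (P : Place k Fb) : p.m P = max (P.ord p.hb) 0 := by
  rw [m, poleDiv_apply, P.ord_inv, neg_neg]

omit [HasPrincipalDivisors k Fb] in
/-- (aux) subtracting a constant does not change a negative order. -/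
theorem PreP_ord_sub_const (P : Place k Fb) (ξ : Fb) (b : k) (h : P.ord ξ < 0) :
    P.ord (ξ - algebraMap k Fb b) = P.ord ξ := by
  rcases eq_or_ne b 0 with rfl | hb
  · rw [map_zero, sub_zero]
  · have hξ : ξ ≠ 0 := by
      rintro rfl
      rw [P.ord_zero] at h
      exact lt_irrefl _ h
    have hb' : -algebraMap k Fb b ≠ 0 := neg_ne_zero.2 (by simpa using hb)
    rw [sub_eq_add_neg]
    apply ord_add_eq_of_lt P hξ hb'
    rw [ord_neg, ord_algebraMap]
    exact h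

theorem PreP_red_x_ne (i : Cp) : T.red i p.x ≠ 0 := by
  intro h
  exact p.x_nc i ⟨0, by rw [map_zero, h]⟩

theorem PreP_c₁_mem (i : Cp) : algebraMap K F p.c₁ ∈ (T.R i).O :=
  T.algebraMap_mem i ⟨p.c₁, p.c₁_mem⟩

theorem PreP_red_sub (i : Cp) : T.red i (p.x - algebraMap K F p.c₁) =
    T.red i p.x - algebraMap k Fb ((T.R Cp.oo).redA p.c₁) := by
  have h1 : T.red i (algebraMap K F p.c₁) = algebraMap k Fb ((T.R Cp.oo).redA p.c₁) :=
    T.red_algebraMap i ⟨p.c₁, p.c₁_mem⟩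
  rw [← h1]
  exact (T.R i).red_sub (p.x_int i) (p.PreP_c₁_mem i)

theorem PreP_red_sub_ne (i : Cp) :
    T.red i p.x - algebraMap k Fb ((T.R Cp.oo).redA p.c₁) ≠ 0 := by
  intro h
  exact p.x_nc i ⟨_, (sub_eq_zero.1 h).symm⟩

/-- LEAF RC-I4 (**INT**).  Put `u = z (x - c₁) ^ c`, `w = u / x ^ (a + c)`; both are integral (`x` and `x - c₁` are units of the
three valuation rings: their reductions are not constant, in particular `≠ 0`).  `mem_RR_of_int` (with `sat₀`, `int₀`, resp.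
`sat₁`, `int₁`) : `u ∈ RR O x`, `w ∈ RR O x⁻¹`.  Let `P` be a place, `ξ = red_i x`, `η = ξ - c̄₁ = red_i (x - c₁)`.
* If `0 ≤ ord_P ξ` : `0 ≤ ord_P (red_i u) = ord_P (red_i z) + c ord_P η` (`ord_red_nonneg_of_mem_RR`), `X i P = 0`,
  `Y i P = ord_P η ≥ 0`.
* If `ord_P ξ < 0` : `0 ≤ ord_P (red_i x⁻¹)`, so `0 ≤ ord_P (red_i w) = ord_P (red_i z) + c ord_P η - (a + c) ord_P ξ`, and
  `ord_P η = ord_P ξ`, `Y i P = 0`, `X i P = - ord_P ξ`.
(`red_i z = 0` is trivial.) -/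
theorem int (a c : ℕ) (z : F) (hz : z ∈ p.L a c) (hI : T.Int z) (i : Cp) :
    T.red i z ∈ riemannRochSpace ((a : ℤ) • p.X i + (c : ℤ) • p.Y i) := by
  have hxc : T.Int (p.x - algebraMap K F p.c₁) := p.x_int.sub (fun j => p.PreP_c₁_mem j)
  have huI : T.Int (z * (p.x - algebraMap K F p.c₁) ^ c) := hI.mul (hxc.pow c)
  have hxinv : T.Int p.x⁻¹ := fun j => T.inv_mem_of_red_ne_zero (p.PreP_red_x_ne j)
  have hwI : T.Int (z * (p.x - algebraMap K F p.c₁) ^ c / p.x ^ (a + c)) := by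
    rw [div_eq_mul_inv, ← inv_pow]
    exact huI.mul (hxinv.pow _)
  have hu : z * (p.x - algebraMap K F p.c₁) ^ c ∈ RR O p.x :=
    mem_RR_of_int p.hO p.sat₀ huI (p.int₀ a c z hz)
  have hw : z * (p.x - algebraMap K F p.c₁) ^ c / p.x ^ (a + c) ∈ RR O p.x⁻¹ :=
    mem_RR_of_int p.hO p.sat₁ hwI (p.int₁ a c z hz)
  have hξ := p.PreP_red_x_ne i
  have hη := p.PreP_red_sub_ne i
  have hredu : T.red i (z * (p.x - algebraMap K F p.c₁) ^ c) =
      T.red i z * (T.red i p.x - algebraMap k Fb ((T.R Cp.oo).redA p.c₁)) ^ c := by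
    rw [← p.PreP_red_sub i, ← T.red_pow (hxc i) c]
    exact (T.R i).red_mul (hI i) ((hxc.pow c) i)
  rw [mem_riemannRochSpace_iff]
  intro P
  by_cases h0 : T.red i z = 0
  · exact Or.inl h0
  right
  rw [Finsupp.add_apply, Finsupp.smul_apply, Finsupp.smul_apply, smul_eq_mul, smul_eq_mul,
    X_apply, Y_apply]
  have ha : (0 : ℤ) ≤ a := Int.natCast_nonneg a
  have hc : (0 : ℤ) ≤ c := Int.natCast_nonneg c
  by_cases hP : 0 ≤ P.ord (T.red i p.x)
  · have h1 := ord_red_nonneg_of_mem_RR p.hO i (p.x_int i) hu P hP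
    rw [hredu, P.ord_mul h0 (pow_ne_zero _ hη), ord_pow] at h1
    rw [max_eq_right (by omega : -(P.ord (T.red i p.x)) ≤ 0), mul_zero, zero_add]
    have h2 : (c : ℤ) * P.ord (T.red i p.x - algebraMap k Fb ((T.R Cp.oo).redA p.c₁)) ≤
        (c : ℤ) * max (P.ord (T.red i p.x - algebraMap k Fb ((T.R Cp.oo).redA p.c₁))) 0 :=
      mul_le_mul_of_nonneg_left (le_max_left _ _) hc
    linarith
  · push Not at hP
    have hri : T.red i p.x⁻¹ = (T.red i p.x)⁻¹ := T.red_inv hξ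
    have hP' : 0 ≤ P.ord (T.red i p.x⁻¹) := by
      rw [hri, P.ord_inv]
      omega
    have h1 := ord_red_nonneg_of_mem_RR p.hO i (hxinv i) hw P hP'
    have hpow : T.red i (p.x ^ (a + c)) = T.red i p.x ^ (a + c) := T.red_pow (p.x_int i) _
    have hredw : T.red i (z * (p.x - algebraMap K F p.c₁) ^ c / p.x ^ (a + c)) =
        T.red i z * (T.red i p.x - algebraMap k Fb ((T.R Cp.oo).redA p.c₁)) ^ c /
          T.red i p.x ^ (a + c) := by
      rw [← hredu, ← hpow]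
      exact (T.R i).red_div (huI i) (by
        have : T.red i (p.x ^ (a + c)) ≠ 0 := by rw [hpow]; exact pow_ne_zero _ hξ
        exact this)
    have hηξ := PreP_ord_sub_const P (T.red i p.x) ((T.R Cp.oo).redA p.c₁) hP
    rw [hredw, ord_div P (mul_ne_zero h0 (pow_ne_zero _ hη)) (pow_ne_zero _ hξ),
      P.ord_mul h0 (pow_ne_zero _ hη), ord_pow, ord_pow, hηξ] at h1
    rw [hηξ, max_eq_left (by omega : (0 : ℤ) ≤ -(P.ord (T.red i p.x))),
      max_eq_right hP.le, mul_zero, add_zero]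
    push_cast at h1
    linarith

theorem PreP_pow_mem_L {a c : ℕ} {z : F} (hz : z ∈ p.L a c) (n : ℕ) :
    z ^ n ∈ p.L (n * a) (n * c) := by
  induction n with
  | zero => simpa using p.one_mem
  | succ n ih =>
    rw [pow_succ, Nat.succ_mul, Nat.succ_mul]
    exact p.L_mul ih hz

/-- LEAF RC-I5 (the key of (V)).  `U` a unit off the cusps (`U⁻¹ ∈ L aU 0`), unit of `O_i`, `z ∈ L a c`, `z ^ M / U` integral.
Then, off the cusps, `M ord_P (red_i z) ≥ ord_P (red_i U) - M c Y i P`:  `z ^ M U⁻¹ ∈ L (M a + aU) (M c + 0)` (`L_mul`, induction),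
`p.int`, `red_i (z ^ M U⁻¹) = (red_i z) ^ M (red_i U)⁻¹`. -/
theorem ord_red_ge {a c aU : ℕ} {z U : F} (hz : z ∈ p.L a c) (hzI : T.Int z) (hU : U⁻¹ ∈ p.L aU 0)
    (hI : T.Int (z ^ p.M * U⁻¹)) (i : Cp) (hUi : T.red i U ≠ 0) (hzi : T.red i z ≠ 0)
    (P : Place k Fb) (hP : 0 ≤ P.ord (T.red i p.x)) :
    P.ord (T.red i U) - (p.M : ℤ) * ((c : ℤ) * p.Y i P) ≤ (p.M : ℤ) * P.ord (T.red i z) := by
  have h1 : z ^ p.M * U⁻¹ ∈ p.L (p.M * a + aU) (p.M * c + 0) :=
    p.L_mul (p.PreP_pow_mem_L hz p.M) hU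
  have h2 := p.int _ _ _ h1 hI i
  have h3 : T.red i (z ^ p.M * U⁻¹) = T.red i z ^ p.M * (T.red i U)⁻¹ := by
    have e1 : T.red i (z ^ p.M * U⁻¹) = T.red i (z ^ p.M) * T.red i U⁻¹ :=
      (T.R i).red_mul ((T.R i).O.pow_mem (hzI i) _) (T.inv_mem_of_red_ne_zero hUi)
    rw [e1, T.red_pow (hzI i), T.red_inv hUi]
  rw [h3, mem_riemannRochSpace_iff] at h2
  have h4 := (h2 P).resolve_left (mul_ne_zero (pow_ne_zero _ hzi) (inv_ne_zero hUi))
  have hX : p.X i P = 0 := by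
    rw [X_apply]; exact max_eq_right (by omega)
  rw [P.ord_mul (pow_ne_zero _ hzi) (inv_ne_zero hUi), P.ord_inv, ← zpow_natCast, P.ord_zpow,
    Finsupp.add_apply, Finsupp.smul_apply, Finsupp.smul_apply, hX] at h4
  simp only [smul_eq_mul, mul_zero, zero_add, add_zero] at h4
  push_cast at h4
  linarith [h4, mul_assoc (p.M : ℤ) (c : ℤ) (p.Y i P)]

/-- (aux) the common part of `van_zr`, `van_mid`. -/
theorem PreP_van {a c aU : ℕ} {z U : F} (s : ℕ) (i : Cp) (hz : z ∈ p.L a c) (hI : T.Int z)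
    (hU : U⁻¹ ∈ p.L aU 0) (hIU : T.Int (z ^ p.M * U⁻¹)) (hUi : T.red i U = p.hb ^ s) :
    T.red i z ^ p.M ∈ riemannRochSpace
      ((p.M : ℤ) • ((a : ℤ) • p.X i + (c : ℤ) • p.Y i) - (s : ℤ) • p.m) := by
  by_cases h0 : T.red i z = 0
  · rw [h0, zero_pow p.M_pos.ne']
    exact Submodule.zero_mem _
  have hint := p.int a c z hz hI i
  rw [mem_riemannRochSpace_iff] at hint ⊢
  intro P
  right
  have h1 := (hint P).resolve_left h0
  rw [Finsupp.add_apply, Finsupp.smul_apply, Finsupp.smul_apply, smul_eq_mul, smul_eq_mul] at h1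
  rw [Finsupp.sub_apply, Finsupp.smul_apply, Finsupp.smul_apply, Finsupp.add_apply,
    Finsupp.smul_apply, Finsupp.smul_apply, smul_eq_mul, smul_eq_mul, smul_eq_mul, smul_eq_mul,
    ord_pow, m_apply]
  have hM : (0 : ℤ) ≤ p.M := Int.natCast_nonneg _
  by_cases hP : 0 ≤ P.ord (T.red i p.x)
  · have hUne : T.red i U ≠ 0 := by rw [hUi]; exact pow_ne_zero _ p.hb_ne
    have h2 := p.ord_red_ge hz hI hU hIU i hUne h0 P hP
    rw [hUi, ord_pow] at h2
    have hX : p.X i P = 0 := by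
      rw [X_apply]
      exact max_eq_right (by omega)
    rw [hX, max_eq_left (p.hb_reg i P hP)]
    linarith
  · push Not at hP
    rw [max_eq_right (p.hb_cusp i P hP), mul_zero, sub_zero]
    have h3 := mul_le_mul_of_nonneg_left h1 hM
    linarith

theorem PreP_Ψoo_ne : p.Ψoo ≠ 0 := by
  intro h
  apply p.Ψoo_oo
  rw [h, zero_div]
  exact (T.R Cp.oo).red_zero

theorem PreP_Ψzr_ne : p.Ψzr ≠ 0 := by
  intro h
  apply p.Ψzr_zr
  rw [h, zero_div]
  exact (T.R Cp.zr).red_zero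

omit [HasPrincipalDivisors k Fb] in
/-- (aux) `z ^ M / Ψ ^ α` is integral along a component where `Ψ / q ^ M` is a unit and `z / q ^ α` is integral. -/
theorem PreP_mem_of_div {i : Cp} {Ψ z : F} {M α : ℕ} (hΨ : T.red i (Ψ / (T.q : F) ^ M) ≠ 0)
    (h : z / (T.q : F) ^ α ∈ (T.R i).O) : z ^ M * (Ψ⁻¹) ^ α ∈ (T.R i).O := by
  have hq : (T.q : F) ≠ 0 := T.q_ne'
  have hΨ0 : Ψ ≠ 0 := by
    intro h0
    apply hΨ
    rw [h0, zero_div]
    exact (T.R i).red_zero
  have e : z ^ M * (Ψ⁻¹) ^ α = (z / (T.q : F) ^ α) ^ M * ((Ψ / (T.q : F) ^ M)⁻¹) ^ α := by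
    rw [inv_div, div_pow, div_pow, ← pow_mul, ← pow_mul, mul_comm M α, inv_pow]
    have hq' : (T.q : F) ^ (α * M) ≠ 0 := pow_ne_zero _ hq
    field_simp
  rw [e]
  exact (T.R i).O.mul_mem _ _ ((T.R i).O.pow_mem h _)
    ((T.R i).O.pow_mem (T.inv_mem_of_red_ne_zero hΨ) _)

/-- LEAF RC-I6 (`van_zr`).  `red_zr z = 0` trivial.  At a cusp (`ord_P (red_zr x) < 0`): `m P = 0` (`hb_cusp`), use `p.int`.
Off the cusps: `ord_red_ge` with `U = Ψoo ^ α` (`U⁻¹ ∈ L (α aΨ) 0`); integrality of `z ^ M / Ψoo ^ α`: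
at `oo` it is `(z / q ^ α) ^ M * (q ^ M / Ψoo) ^ α`; at `mid`, `zr` `Ψoo` is a unit.  `red_zr U = hb ^ α`, `m P = ord_P hb` (`hb_reg`). -/
theorem van_zr (a c α : ℕ) (z : F) (hz : z ∈ p.L a c) (hI : T.Int z)
    (h : z / (T.q : F) ^ α ∈ (T.R Cp.oo).O) :
    T.red Cp.zr z ^ p.M ∈ riemannRochSpace
      ((p.M : ℤ) • ((a : ℤ) • p.X Cp.zr + (c : ℤ) • p.Y Cp.zr) - (α : ℤ) • p.m) := by
  have hU : (p.Ψoo ^ α)⁻¹ ∈ p.L (α * p.aΨ) 0 := by
    have h1 := p.PreP_pow_mem_L p.Ψoo_inv α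
    rwa [Nat.mul_zero, inv_pow] at h1
  have hmid : T.red Cp.mid p.Ψoo ≠ 0 := by rw [p.Ψoo_mid]; exact p.hb_ne
  have hzr : T.red Cp.zr p.Ψoo ≠ 0 := by rw [p.Ψoo_zr]; exact p.hb_ne
  have hIU : T.Int (z ^ p.M * (p.Ψoo ^ α)⁻¹) := by
    intro i
    rw [← inv_pow]
    cases i with
    | oo => exact PreP_mem_of_div p.Ψoo_oo h
    | mid =>
      exact (T.R Cp.mid).O.mul_mem _ _ ((T.R Cp.mid).O.pow_mem (hI Cp.mid) _)
        ((T.R Cp.mid).O.pow_mem (T.inv_mem_of_red_ne_zero hmid) _)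
    | zr =>
      exact (T.R Cp.zr).O.mul_mem _ _ ((T.R Cp.zr).O.pow_mem (hI Cp.zr) _)
        ((T.R Cp.zr).O.pow_mem (T.inv_mem_of_red_ne_zero hzr) _)
  have hUi : T.red Cp.zr (p.Ψoo ^ α) = p.hb ^ α := by
    rw [← p.Ψoo_zr]
    exact (T.R Cp.zr).red_pow _ _
  exact p.PreP_van α Cp.zr hz hI hU hIU hUi

/-- LEAF RC-I6 (`van_mid`).  The same with `U = Ψoo ^ α * Ψzr ^ γ`, `red_mid U = hb ^ (α + γ)`. -/
theorem van_mid (a c α γ : ℕ) (z : F) (hz : z ∈ p.L a c) (hI : T.Int z)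
    (h : z / (T.q : F) ^ α ∈ (T.R Cp.oo).O) (h' : z / (T.q : F) ^ γ ∈ (T.R Cp.zr).O) :
    T.red Cp.mid z ^ p.M ∈ riemannRochSpace
      ((p.M : ℤ) • ((a : ℤ) • p.X Cp.mid + (c : ℤ) • p.Y Cp.mid) - ((α : ℤ) + γ) • p.m) := by
  have einv : (p.Ψoo ^ α * p.Ψzr ^ γ)⁻¹ = (p.Ψoo⁻¹) ^ α * (p.Ψzr⁻¹) ^ γ := by
    rw [mul_inv, inv_pow, inv_pow]
  have hU : (p.Ψoo ^ α * p.Ψzr ^ γ)⁻¹ ∈ p.L (α * p.aΨ + γ * p.aΨ) 0 := by
    have h1 := p.L_mul (p.PreP_pow_mem_L p.Ψoo_inv α) (p.PreP_pow_mem_L p.Ψzr_inv γ)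
    rw [Nat.mul_zero, Nat.mul_zero, Nat.add_zero] at h1
    rw [einv]
    exact h1
  have hoomid : T.red Cp.mid p.Ψoo ≠ 0 := by rw [p.Ψoo_mid]; exact p.hb_ne
  have hoozr : T.red Cp.zr p.Ψoo ≠ 0 := by rw [p.Ψoo_zr]; exact p.hb_ne
  have hzrmid : T.red Cp.mid p.Ψzr ≠ 0 := by rw [p.Ψzr_mid]; exact p.hb_ne
  have hIU : T.Int (z ^ p.M * (p.Ψoo ^ α * p.Ψzr ^ γ)⁻¹) := by
    intro i
    rw [einv]
    cases i with
    | oo =>
      rw [← mul_assoc]
      exact (T.R Cp.oo).O.mul_mem _ _ (PreP_mem_of_div p.Ψoo_oo h)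
        ((T.R Cp.oo).O.pow_mem (T.inv_mem_of_red_ne_zero p.Ψzr_oo) _)
    | mid =>
      exact (T.R Cp.mid).O.mul_mem _ _ ((T.R Cp.mid).O.pow_mem (hI Cp.mid) _)
        ((T.R Cp.mid).O.mul_mem _ _
          ((T.R Cp.mid).O.pow_mem (T.inv_mem_of_red_ne_zero hoomid) _)
          ((T.R Cp.mid).O.pow_mem (T.inv_mem_of_red_ne_zero hzrmid) _))
    | zr =>
      rw [mul_comm ((p.Ψoo⁻¹) ^ α), ← mul_assoc]
      exact (T.R Cp.zr).O.mul_mem _ _ (PreP_mem_of_div p.Ψzr_zr h')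
        ((T.R Cp.zr).O.pow_mem (T.inv_mem_of_red_ne_zero hoozr) _)
  have hUi : T.red Cp.mid (p.Ψoo ^ α * p.Ψzr ^ γ) = p.hb ^ (α + γ) := by
    have h1 : T.red Cp.mid (p.Ψoo ^ α) = p.hb ^ α := by
      rw [← p.Ψoo_mid]
      exact (T.R Cp.mid).red_pow _ _
    have h2 : T.red Cp.mid (p.Ψzr ^ γ) = p.hb ^ γ := by
      rw [← p.Ψzr_mid]
      exact (T.R Cp.mid).red_pow _ _
    rw [pow_add, ← h1, ← h2]
    exact (T.R Cp.mid).red_mul
      ((T.R Cp.mid).O.pow_mem ((T.R Cp.mid).mem_of_red_ne_zero hoomid) _)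
      ((T.R Cp.mid).O.pow_mem ((T.R Cp.mid).mem_of_red_ne_zero hzrmid) _)
  have := p.PreP_van (α + γ) Cp.mid hz hI hU hIU hUi
  rwa [Nat.cast_add] at this

theorem PreP_ord_sub_constI (P : Place k Fb) {ξ : Fb} (c : k) (h : P.ord ξ < 0) :
    P.ord (ξ - algebraMap k Fb c) = P.ord ξ := by
  have hc : P.ord (algebraMap k Fb c) = 0 := Basic_ord_algebraMap P c
  have hc' : P.ord (-algebraMap k Fb c) = 0 := by
    rw [← map_neg]; exact Basic_ord_algebraMap P _
  apply le_antisymm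
  · by_contra hlt
    push Not at hlt
    have h1 : P.ord ξ + 1 ≤ P.ord ((ξ - algebraMap k Fb c) + algebraMap k Fb c) :=
      Basic_ord_add_ge P (by omega) (by omega) (by omega)
    rw [sub_add_cancel] at h1
    omega
  · rw [sub_eq_add_neg]
    exact Basic_ord_add_ge P (by omega) le_rfl (by omega)

theorem PreP_ord_sub_const_nonneg (P : Place k Fb) {ξ : Fb} (c : k) (h : 0 ≤ P.ord ξ) :
    0 ≤ P.ord (ξ - algebraMap k Fb c) := by
  have hc' : P.ord (-algebraMap k Fb c) = 0 := by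
    rw [← map_neg]; exact Basic_ord_algebraMap P _
  rw [sub_eq_add_neg]
  exact Basic_ord_add_ge P le_rfl h (by omega)

/-- LEAF RC-I7. At a pole of `ξ = red_i x`, `ord_P (ξ - c̄₁) = ord_P ξ < 0`. -/
theorem XY_disj (i : Cp) (P : Place k Fb) : p.X i P = 0 ∨ p.Y i P = 0 := by
  by_cases h : P.ord (T.red i p.x) < 0
  · right
    rw [Y_apply, PreP_ord_sub_constI P _ h]
    exact max_eq_right (by omega)
  · left
    rw [X_apply]
    exact max_eq_right (by omega)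

/-- LEAF RC-I7. `hb_cusp`. -/
theorem m_X (i : Cp) (P : Place k Fb) : p.m P = 0 ∨ p.X i P = 0 := by
  by_cases h : P.ord (T.red i p.x) < 0
  · left
    rw [m_apply]
    exact max_eq_right (p.hb_cusp i P h)
  · right
    rw [X_apply]
    exact max_eq_right (by omega)

/-- LEAF RC-I7. `hb_c₁`. -/
theorem m_Y (i : Cp) (P : Place k Fb) : p.m P = 0 ∨ p.Y i P = 0 := by
  by_cases h : 0 < P.ord p.hb
  · right
    rw [Y_apply]
    exact max_eq_right (p.hb_c₁ i P h)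
  · left
    rw [m_apply]
    exact max_eq_right (by omega)

end

variable [IsFF k Fb] [IsAlgClosed k] (p : PreP T O)

/-- LEAF RC-I7. `DR.Abs.degree_poleDiv_pos`. -/
theorem deg_X_pos (i : Cp) : 0 < Divisor.degree (p.X i) := by
  exact DR.Abs.degree_poleDiv_pos (p.x_nc i)

/-- LEAF RC-I7. `deg (η⁻¹)_∞ = deg (η)_∞` (`DR.Abs.degree_poleDiv_inv`) and `(ξ - c̄₁)_∞ = (ξ)_∞` (pointwise). -/
theorem deg_Y (i : Cp) : Divisor.degree (p.Y i) = Divisor.degree (p.X i) := by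
  have hη : T.red i p.x - algebraMap k Fb ((T.R Cp.oo).redA p.c₁) ≠ 0 := by
    intro h
    exact p.x_nc i ⟨_, (sub_eq_zero.1 h).symm⟩
  rw [Y, DR.Abs.degree_poleDiv_inv hη, X]
  congr 1
  ext P
  rw [poleDiv_apply, poleDiv_apply]
  by_cases h : P.ord (T.red i p.x) < 0
  · rw [PreP_ord_sub_constI P _ h]
  · have h1 := PreP_ord_sub_const_nonneg P ((T.R Cp.oo).redA p.c₁) (not_lt.1 h)
    rw [max_eq_right (by omega), max_eq_right (by omega)]

/-- **The structure `Poles T`.** -/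
def poles : Poles T where
  L := p.L
  L_mono := p.L_mono
  one_mem := p.one_mem
  L_mul := p.L_mul
  L_inf := p.L_inf
  L_zero := p.L_zero
  L_root := p.L_root
  X := p.X
  Y := p.Y
  X_nonneg := fun i P => by rw [X_apply]; exact le_max_right _ _
  Y_nonneg := fun i P => by rw [Y_apply]; exact le_max_right _ _
  XY_disj := p.XY_disj
  X_mid := by rw [X, X, p.x_mid]
  d := fun i => Divisor.degree (p.X i)
  d_pos := p.deg_X_pos
  deg_X := fun _ => rfl
  deg_Y := p.deg_Y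
  int := p.int
  m := p.m
  M := p.M
  M_pos := p.M_pos
  m_nonneg := fun P => by rw [m_apply]; exact le_max_right _ _
  m_X := p.m_X
  m_Y := p.m_Y
  van_zr := p.van_zr
  van_mid := p.van_mid
  g := p.g
  genus_le := p.genus_le

end PreP

end Fermat.Agent.S36.RC
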