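import Fermat.Agent.S36.RC.Conc.Tri
import Fermat.Agent.S36.RC.Conc.PreP
import Fermat.Agent.S36.RC.Conc.PolesL
import Fermat.Agent.S36.RC.Conc.Hasse
import Fermat.Agent.S36.RC.Conc.Dict
import Fermat.Agent.S36.RC.Numerics
import Fermat.Agent.S36R.Unit.AffInt
import Fermat.Agent.S36R.Val.Abs.Sat
import Fermat.Agent.DR.Conc.Level

/-!
# S36/RC/Conc: the concrete `Poles (tri h hG)` (blocks RC-INT and RC-VAN, concrete form)

`S : NormC.Setup A M q`, `T = tri h hG` (helper36), `B : BC K0 S.F Kbar (FN (M q q))` the Galois base change (helper18),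
`hV : VertFam (O0 A) q j S.W e` (block VAL).  Output: `exists_poles`.

* `x = jj S = j`, reductions `j̄, j̄, j̄^{q²}`;
* `Ψoo = psiA`, `Ψzr = psiC` of the frame `frame S` (helper78's table), `M = 12 m`;
* `hb = R(j̄)`, `R` the `m`-th power of the Hasse polynomial (`exists_hasse_poly`), with expansion `Hs k q m = Δ̄^{(1-q) m}`;
* `c₁ ∈ O0 A` a lift of `s₀^{q²}`, `R(s₀) ≠ 0 ≠ R(s₀^{q²})`.
-/

set_option autoImplicit false
set_option linter.unusedSectionVars false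

noncomputable section

namespace Fermat.Agent.S36.RC.Conc

open AlgebraicCurve ModularCurve Polynomial Fermat.Agent.S24 Fermat.Agent.S28 Fermat.Agent.GAL
  Fermat.Agent.GAL.Gauss Fermat.Agent.GAL.RED Fermat.Agent.S36.StepA Fermat.Agent.S36R
  Fermat.Agent.S36R.NormC Fermat.Agent.S36R.Val Fermat.Agent.Lib.RR Fermat.Agent.S36R.Bridge

variable {A : ValuationSubring Kbar} {M q : ℕ} [NeZero M] [NeZero q] (S : Setup A M q)

/-! ### the frame -/

/-- the frame of `S` (three expansions, `j(t), j(t^q), j(t^{q²})`). -/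
def frame : Unit.Frame A q S.ζ (S.hζ.ne_zero S.hq.ne_zero) S.F where
  φ := ![S.e0, S.e1, S.e2]
  W := S.W
  mem_W := fun i x => by fin_cases i <;> exact Iff.rfl
  j0 := pi0 A M q (j0 A M)
  j1 := pi1 A M q (j0 A M)
  j2 := pi2 A M q (j0 A M)
  h00 := by show S.e0 _ = _; rw [e0_pi0, hat_j0]
  h01 := by show S.e0 _ = _; rw [e0_pi1, hat_j0]
  h02 := by show S.e0 _ = _; rw [e0_pi2, hat_j0]
  h10 := by show S.e1 _ = _; rw [e1_pi0, hat_j0]
  h11 := by show S.e1 _ = _; rw [e1_pi1, hat_j0]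
  h12 := by show S.e1 _ = _; rw [e1_pi2, hat_j0]
  h20 := by show S.e2 _ = _; rw [e2_pi0, hat_j0]
  h21 := by show S.e2 _ = _; rw [e2_pi1, hat_j0]
  h22 := by show S.e2 _ = _; rw [e2_pi2, hat_j0]

theorem res_iff (i : Cp) (x : S.F) (r : LaurentSeries (kk A)) :
    (frame S).Res i.idx x r ↔ Red A (ex S i x) r := by
  cases i <;> exact Iff.rfl

variable {S}

theorem tri_red_eq (h : ResMem S) (hG : S.lvl.Good (O0 A) q) {i : Cp} {z : S.F} {u : Fb A M}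
    (hr : Red A (ex S i z) (u : LaurentSeries (kk A))) : (tri h hG).red i z = u :=
  red_eq h hr

theorem tri_mem (h : ResMem S) (hG : S.lvl.Good (O0 A) q) {i : Cp} {z : S.F}
    {r : LaurentSeries (kk A)} (hr : Red A (ex S i z) r) : z ∈ ((tri h hG).R i).O :=
  mem_W_of_red S hr

theorem tri_int_iff (h : ResMem S) (hG : S.lvl.Good (O0 A) q) (z : S.F) :
    (tri h hG).Int z ↔ ∀ i : Fin 3, z ∈ S.W i := by
  constructor
  · intro hz i
    fin_cases i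
    · exact hz Cp.oo
    · exact hz Cp.mid
    · exact hz Cp.zr
  · intro hz i
    exact hz i.idx

/-! ### the coordinate `j` -/

variable (S)

theorem red_jj_oo : Red A (ex S Cp.oo (jj S))
    ((Igusa.jb (kk A) M : Fb A M) : LaurentSeries (kk A)) := by
  show Red A (S.e0 (jj S)) (jqModC (kk A))
  rw [jj, e0_pi0, hat_j0]
  exact Unit.GR_j

theorem red_jj_mid : Red A (ex S Cp.mid (jj S))
    ((Igusa.jb (kk A) M : Fb A M) : LaurentSeries (kk A)) := by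
  show Red A (S.e1 (jj S)) (jqModC (kk A))
  rw [jj, e1_pi0, hat_j0]
  exact Unit.GR_j

theorem red_jj_zr : Red A (ex S Cp.zr (jj S))
    ((Igusa.jb (kk A) M ^ (q * q) : Fb A M) : LaurentSeries (kk A)) := by
  have : Fact q.Prime := ⟨S.hq⟩
  have := charP_kk S
  show Red A (S.e2 (jj S)) (jqModC (kk A) ^ (q * q))
  rw [jj, e2_pi0, hat_j0]
  have h := ((Unit.GR_j (A := A)).qExpand q).qExpand q
  rwa [Unit.qExpand_j (kk A), map_pow, Unit.qExpand_j (kk A), ← pow_mul] at h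

variable {S}
variable (h : ResMem S) (hG : S.lvl.Good (O0 A) q)

theorem red_oo_jj : (tri h hG).red Cp.oo (jj S) = Igusa.jb (kk A) M :=
  tri_red_eq h hG (red_jj_oo S)

theorem red_mid_jj : (tri h hG).red Cp.mid (jj S) = Igusa.jb (kk A) M :=
  tri_red_eq h hG (red_jj_mid S)

theorem red_zr_jj : (tri h hG).red Cp.zr (jj S) = Igusa.jb (kk A) M ^ (q * q) :=
  tri_red_eq h hG (red_jj_zr S)

theorem jj_int : (tri h hG).Int (jj S) := by
  intro i
  cases i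
  · exact tri_mem h hG (red_jj_oo S)
  · exact tri_mem h hG (red_jj_mid S)
  · exact tri_mem h hG (red_jj_zr S)

/-- LEAF PI-1.  `j̄` is transcendental over `k` (`Igusa.transcendental_jb`), so are its powers (`Transcendental.pow`, `0 < q * q`);
an element of the range of `algebraMap` is algebraic (`isAlgebraic_algebraMap`).  Cases on `i`, `red_oo_jj`, `red_mid_jj`, `red_zr_jj`. -/
theorem jj_nc (i : Cp) :
    (tri h hG).red i (jj S) ∉ Set.range (algebraMap (kk A) (Fb A M)) := by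
  have htr : Transcendental (kk A) (Igusa.jb (kk A) M) := Igusa.transcendental_jb (kk A) M
  rintro ⟨a, ha⟩
  cases i
  · rw [red_oo_jj] at ha
    exact htr (ha ▸ isAlgebraic_algebraMap a)
  · rw [red_mid_jj] at ha
    exact htr (ha ▸ isAlgebraic_algebraMap a)
  · rw [red_zr_jj] at ha
    have hqq : 0 < q * q := Nat.mul_pos S.hq.pos S.hq.pos
    exact (htr.pow hqq) (ha ▸ isAlgebraic_algebraMap a)

/-- LEAF PI-2 (`O0 A` is a ring of integral constants).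
(1) `algebraMap (O0 A) S.F a = algebraMap (K0 A) S.F (a : K0 A)` is `rfl` (`algebraMap_O0_FF0`); `((tri h hG).R i).algebraMap_mem _ a.2`
(the field `A` of `redData h i` is `O0 A` by `rfl`), `((tri h hG).R i).red_algebraMap a.2`.
(2) `a : K0 A`.  `(tri h hG).scale Cp.oo (algebraMap _ _ a)` : `N` with `q ^ N * a ∈ S.W 0`, i.e. (`mem_W S Cp.oo`, `map_mul`, `map_pow`, `map_natCast`,
`ex_algebraMap`) `C (q ^ N * a) ∈ gRing A`, so `q ^ N * a ∈ A` (`Gauss.C_mem_gRing_iff`), i.e. `(q : K0 A) ^ N * a ∈ O0 A` (membership in `O0 A`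
is membership of the coercion in `A`, by `Iff.rfl`); `b := ⟨(q : K0 A) ^ N * a, _⟩`. -/
theorem constRing : ConstRing (tri h hG) (O0 A) := by
  refine ⟨fun a i => ⟨((tri h hG).R i).algebraMap_mem _ a.2, _,
    ((tri h hG).R i).red_algebraMap a.2⟩, fun a => ?_⟩
  obtain ⟨N, hN⟩ := (tri h hG).scale Cp.oo (algebraMap (K0 A) S.F a)
  have h1 : ((q : ℕ) : S.F) ^ N * algebraMap (K0 A) S.F a ∈ S.W Cp.oo.idx := hN
  have h2 : ((q : ℕ) : S.F) ^ N * algebraMap (K0 A) S.F a =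
      algebraMap (K0 A) S.F (((q : ℕ) : K0 A) ^ N * a) := by
    rw [map_mul, map_pow, map_natCast]
  rw [h2, mem_W S Cp.oo, ex_algebraMap, Gauss.C_mem_gRing_iff] at h1
  exact ⟨N, ⟨((q : ℕ) : K0 A) ^ N * a, h1⟩, h2⟩

/-! ### saturation -/

section Sat

variable {e : Fin 3 → ℕ} (hV : VertFam (O0 A) ((q : ℕ) : K0 A) (jj S) S.W e)
include hV

theorem sat₀ (z : S.F) (hz : ((tri h hG).q : S.F) * z ∈ RR (O0 A) (jj S))
    (hI : (tri h hG).Int z) : z ∈ RR (O0 A) (jj S) := by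
  refine hV.sat z ?_ ((tri_int_iff h hG z).1 hI)
  rw [map_natCast]
  exact hz

theorem sat₁ (z : S.F) (hz : ((tri h hG).q : S.F) * z ∈ RR (O0 A) (jj S)⁻¹)
    (hI : (tri h hG).Int z) : z ∈ RR (O0 A) (jj S)⁻¹ := by
  refine hV.inv.sat z ?_ ((tri_int_iff h hG z).1 hI)
  rw [map_natCast]
  exact hz

end Sat

/-! ### the Hasse data -/

variable (A M q) in
/-- the block B data at `q`, the Hasse polynomial and the auxiliary value. -/
structure HData where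
  Φ : ℤ[X][X]
  U : ℤ[X][X]
  G : ℤ[X][X]
  m : ℕ
  c : ℤ
  hB : BData q Φ U G m c
  R : (kk A)[X]
  R_monic : R.Monic
  R_deg : R.natDegree = m * (q - 1)
  R_coe : ((aeval (Igusa.jb (kk A) M) R : Fb A M) : LaurentSeries (kk A)) = Unit.Hs (kk A) q m
  s₀ : kk A
  hs₀ : R.eval s₀ ≠ 0
  hs₁ : R.eval (s₀ ^ (q * q)) ≠ 0
  c₁ : K0 A
  c₁_mem : c₁ ∈ O0 A
  hc₁ : resA0 A ⟨c₁, c₁_mem⟩ = s₀ ^ (q * q)

/-- LEAF PI-3.  `GAL.Igusa.hB q S.hq` : `Φ U G m c`, `hB`.  `exists_hasse_poly hB S.hq (kk A)` (instance `charP_kk S`) : `R₀` monic of degree `q - 1`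
with `aeval (jqModC k) R₀ = Δ̄ Δ̄⁻¹^q`.  `R := R₀ ^ m` (`Monic.pow`, `Monic.natDegree_pow`).  `R_coe` : the coercion `Fb A M → k((t))` is the
`k`-algebra map `(modularFunctionFieldFullC k M).val`, so `↑(aeval j̄ R) = aeval ↑j̄ R` (`Polynomial.aeval_algHom_apply`, or `map_aeval`-type lemma), `↑j̄ = jqModC k` by `rfl`;
`map_pow`, `Unit.Hs`.  `exists_good_value R hR.ne_zero (q * q) _` (needs `IsAlgClosed (kk A)`: `Igusa.isAlgClosed_residueField A`; apply it with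
`Fb := Fb A M`... the statement only uses `k`) : `s₀`.  `resA0_surjective S (s₀ ^ (q * q))` : `c₁`. -/
theorem nonempty_hData (S : Setup A M q) : Nonempty (HData A M q) := by
  have := charP_kk S
  have := Igusa.isAlgClosed_residueField A
  obtain ⟨Φ, U, G, m, c, hB⟩ := GAL.Igusa.hB q S.hq
  obtain ⟨R₀, hmon, hdeg, hR₀⟩ := exists_hasse_poly (q := q) hB S.hq (kk A)
  have hR : (R₀ ^ m).Monic := hmon.pow m
  obtain ⟨s₀, hs₀, hs₁⟩ := exists_good_value (R₀ ^ m) hR.ne_zero (q * q)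
    (Nat.mul_pos S.hq.pos S.hq.pos)
  obtain ⟨⟨c₁, hc₁m⟩, hc₁⟩ := resA0_surjective S (s₀ ^ (q * q))
  refine ⟨⟨Φ, U, G, m, c, hB, R₀ ^ m, hR, ?_, ?_, s₀, hs₀, hs₁, c₁, hc₁m, hc₁⟩⟩
  · rw [hmon.natDegree_pow, hdeg]
  · have e : ((aeval (Igusa.jb (kk A) M) (R₀ ^ m) : Fb A M) : LaurentSeries (kk A)) =
        aeval (jqModC (kk A)) (R₀ ^ m) :=
      (Polynomial.aeval_algHom_apply (modularFunctionFieldFullC (kk A) M).val
        (Igusa.jb (kk A) M) (R₀ ^ m)).symm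
    rw [e, map_pow, hR₀, Unit.Hs]

variable (D : HData A M q)

/-- `R(j̄) = Δ̄^{(1-q) m}`. -/
def HData.hb : Fb A M := aeval (Igusa.jb (kk A) M) D.R

theorem HData.coe_hb : ((D.hb : Fb A M) : LaurentSeries (kk A)) = Unit.Hs (kk A) q D.m := D.R_coe

theorem HData.hb_ne : D.hb ≠ 0 := by
  intro h0
  have h1 := D.coe_hb
  rw [h0] at h1
  exact Unit.Hs_ne_zero (kk A) q D.m h1.symm

theorem HData.m_pos : 0 < D.m := D.hB.1

variable (S) in
/-- `Ψ_∞ = (q¹² Δ(q²τ)/Δ(qτ))^m`. -/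
def Ψoo : S.F := (frame S).psiA D.Φ D.G

variable (S) in
/-- `Ψ_0 = (Δ(τ)/Δ(qτ))^m`. -/
def Ψzr : S.F := (frame S).psiC D.Φ D.G D.m

/-! ### the table -/

section Table

/-- LEAF PI-4 (the six entries of the table).  Instances `Fact q.Prime := ⟨S.hq⟩`, `charP_kk S`.  `(frame S).res0_psiA D.hB S.hζ` etc. (`S36R/Unit/Units.lean`), `res_iff`,
`tri_red_eq` with `u = (D.hb ^ q)⁻¹` resp. `D.hb` (the coercion `Fb A M → k((t))` commutes with `⁻¹`, `^` by `rfl`/`map_inv₀`, `map_pow`; `D.coe_hb`);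
`(tri h hG).q = q` by `rfl`. -/
theorem Ψoo_oo : (tri h hG).red Cp.oo (Ψoo S D / ((tri h hG).q : S.F) ^ (12 * D.m)) ≠ 0 := by
  have : Fact q.Prime := ⟨S.hq⟩
  have := charP_kk S
  exact red_ne_zero_of_red h ((res_iff S Cp.oo _ _).1 ((frame S).res0_psiA D.hB S.hζ))
    (inv_ne_zero (pow_ne_zero _ (Unit.Hs_ne_zero _ q D.m)))

theorem Ψoo_mid : (tri h hG).red Cp.mid (Ψoo S D) = D.hb := by
  have : Fact q.Prime := ⟨S.hq⟩
  have := charP_kk S
  refine tri_red_eq h hG (u := D.hb) ?_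
  rw [D.coe_hb]
  exact (res_iff S Cp.mid _ _).1 ((frame S).res1_psiA D.hB S.hζ)

theorem Ψoo_zr : (tri h hG).red Cp.zr (Ψoo S D) = D.hb := by
  have : Fact q.Prime := ⟨S.hq⟩
  have := charP_kk S
  refine tri_red_eq h hG (u := D.hb) ?_
  rw [D.coe_hb]
  exact (res_iff S Cp.zr _ _).1 ((frame S).res2_psiA D.hB S.hζ)

theorem Ψzr_oo : (tri h hG).red Cp.oo (Ψzr S D) ≠ 0 := by
  have : Fact q.Prime := ⟨S.hq⟩
  have := charP_kk S
  exact red_ne_zero_of_red h ((res_iff S Cp.oo _ _).1 ((frame S).res0_psiC D.hB S.hζ))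
    (Unit.Hs_ne_zero _ q D.m)

theorem Ψzr_mid : (tri h hG).red Cp.mid (Ψzr S D) = D.hb := by
  have : Fact q.Prime := ⟨S.hq⟩
  have := charP_kk S
  refine tri_red_eq h hG (u := D.hb) ?_
  rw [D.coe_hb]
  exact (res_iff S Cp.mid _ _).1 ((frame S).res1_psiC D.hB S.hζ)

theorem Ψzr_zr : (tri h hG).red Cp.zr (Ψzr S D / ((tri h hG).q : S.F) ^ (12 * D.m)) ≠ 0 := by
  have : Fact q.Prime := ⟨S.hq⟩
  have := charP_kk S
  exact red_ne_zero_of_red h ((res_iff S Cp.zr _ _).1 ((frame S).res2_psiC D.hB S.hζ))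
    (inv_ne_zero (pow_ne_zero _ (Unit.Hs_ne_zero _ q D.m)))

end Table

/-! ### the units have their poles at the cusps -/

/-- LEAF PI-5.  `mem_RR_of_map_mem_RR S.e0` (`S36/RC/Conc/Dict.lean`; `K = K0 A`, `K' = Kbar`, `F' = Kbar((t))`; instance
`Algebra.IsAlgebraic (K0 A) Kbar := Algebra.IsAlgebraic.tower_top (K := ℚ) (K0 A)`; `hβ` : `ex_algebraMap S Cp.oo`, `Gauss.algebraMap_eq_C`).  `S.e0 (jj S) = jqModC Kbar`
(`(frame S).h00`), `RR Kbar (jqModC Kbar)` is the integral closure of `S28.AA Kbar = Algebra.adjoin Kbar {jqModC Kbar}` (`mem_RR`, `Iff.rfl`). -/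
theorem mem_RR_of_isIntegral {v : S.F} (hv : IsIntegral ↥(S28.AA Kbar) (S.e0 v)) :
    v ∈ RR (K0 A) (jj S) := by
  have : Algebra.IsAlgebraic (K0 A) Kbar := Algebra.IsAlgebraic.tower_top (K := ℚ) (K0 A)
  refine mem_RR_of_map_mem_RR (K := K0 A) (K' := Kbar) (F' := LaurentSeries Kbar) S.e0
    (fun a => ?_) ?_
  · rw [Gauss.algebraMap_eq_C]
    exact ex_algebraMap S Cp.oo a
  · have h00 : S.e0 (jj S) = jqModC Kbar := (frame S).h00
    rw [h00]
    exact hv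

/-- LEAF PI-6.  `Ψoo = U2`; `((frame S).isIntegral_U2 D.hB S.hq S.hζ).2`, `map_inv₀`, `mem_RR_of_isIntegral` (`(frame S).φ 0 = S.e0` by `rfl`). -/
theorem Ψoo_inv_mem : (Ψoo S D)⁻¹ ∈ RR (K0 A) (jj S) := by
  apply mem_RR_of_isIntegral
  rw [map_inv₀]
  exact ((frame S).isIntegral_U2 D.hB S.hq S.hζ).2

/-- LEAF PI-6.  `Ψzr⁻¹ = U1 / q ^ (12 m)`; `((frame S).isIntegral_U1 D.hB S.hq S.hζ).1`, `mem_RR_of_isIntegral`; the constant `(q ^ (12 m))⁻¹` is in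
`RR (K0 A) _` (`algebraMap_mem_RR`, `map_inv₀`, `map_pow`, `map_natCast`), `mul_mem`. -/
theorem Ψzr_inv_mem : (Ψzr S D)⁻¹ ∈ RR (K0 A) (jj S) := by
  have h1 : (frame S).U1 D.Φ D.G ∈ RR (K0 A) (jj S) :=
    mem_RR_of_isIntegral ((frame S).isIntegral_U1 D.hB S.hq S.hζ).1
  have h2 : ((q : S.F) ^ (12 * D.m))⁻¹ ∈ RR (K0 A) (jj S) := by
    have h4 := algebraMap_mem_RR (O := K0 A) (jj S) ((q : K0 A) ^ (12 * D.m))⁻¹
    rwa [map_inv₀, map_pow, map_natCast] at h4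
  have h3 : (Ψzr S D)⁻¹ = (frame S).U1 D.Φ D.G * ((q : S.F) ^ (12 * D.m))⁻¹ := by
    rw [Ψzr, Unit.Frame.psiC, inv_div, div_eq_mul_inv]
  rw [h3]
  exact mul_mem h1 h2

/-! ### zeros and poles of `hb` -/

section Hb

variable [IsAlgClosed (kk A)] [Lib.RR.IsFF (kk A) (Fb A M)]

/-- LEAF PI-7.  `ord_P (j̄ ^ n) = n ord_P j̄` (`ord_pow`). -/
theorem ord_jb_nonneg_of (i : Cp) (P : Place (kk A) (Fb A M))
    (hP : 0 ≤ P.ord ((tri h hG).red i (jj S))) : 0 ≤ P.ord (Igusa.jb (kk A) M) := by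
  cases i
  · rwa [red_oo_jj] at hP
  · rwa [red_mid_jj] at hP
  · rw [red_zr_jj, ord_pow] at hP
    have hq : 0 < ((q * q : ℕ) : ℤ) := by exact_mod_cast Nat.mul_pos S.hq.pos S.hq.pos
    by_contra hcon
    have := mul_neg_of_pos_of_neg hq (not_le.1 hcon)
    omega

/-- LEAF PI-7. -/
theorem ord_jb_neg_of (i : Cp) (P : Place (kk A) (Fb A M))
    (hP : P.ord ((tri h hG).red i (jj S)) < 0) : P.ord (Igusa.jb (kk A) M) < 0 := by
  cases i
  · rwa [red_oo_jj] at hP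
  · rwa [red_mid_jj] at hP
  · rw [red_zr_jj, ord_pow] at hP
    have hq : 0 < ((q * q : ℕ) : ℤ) := by exact_mod_cast Nat.mul_pos S.hq.pos S.hq.pos
    by_contra hcon
    have := mul_nonneg hq.le (not_lt.1 hcon)
    omega

theorem hb_reg (i : Cp) (P : Place (kk A) (Fb A M))
    (hP : 0 ≤ P.ord ((tri h hG).red i (jj S))) : 0 ≤ P.ord D.hb :=
  ord_aeval_nonneg _ _ P (ord_jb_nonneg_of h hG i P hP)

theorem hb_cusp (i : Cp) (P : Place (kk A) (Fb A M))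
    (hP : P.ord ((tri h hG).red i (jj S)) < 0) : P.ord D.hb ≤ 0 :=
  ord_aeval_nonpos _ _ D.R_monic P (ord_jb_neg_of h hG i P hP)

/-- LEAF PI-8.  `c̄₁ = ((tri h hG).R Cp.oo).redA D.c₁ = resA0 A ⟨c₁, _⟩ = s₀ ^ (q q)` (`RedData.redA_of_mem D.c₁_mem`, `rfl`, `D.hc₁`).  By contradiction let
`0 < ord_P (red_i j - c̄₁)`.
* `i = oo, mid` : `ord_aeval_le_zero_of_eval_ne j̄ D.R (s₀ ^ (q q)) D.hs₁ P _`.
* `i = zr` : `j̄ ^ (q q) - s₀ ^ (q q) = (j̄ - s₀) ^ (q q)` (`map_pow`, `sub_pow_char_pow`/`sub_pow_expChar_pow` with `q * q = q ^ 2`, `CharP (Fb A M) q` from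
  `charP_kk S` by `charP_of_injective_algebraMap`), so `0 < ord_P (j̄ - s₀)` (`ord_pow`), `ord_aeval_le_zero_of_eval_ne j̄ D.R s₀ D.hs₀ P _`. -/
theorem hb_c₁ (i : Cp) (P : Place (kk A) (Fb A M)) (hP : 0 < P.ord D.hb) :
    P.ord ((tri h hG).red i (jj S) -
      algebraMap (kk A) (Fb A M) (((tri h hG).R Cp.oo).redA D.c₁)) ≤ 0 := by
  have hc : ((tri h hG).R Cp.oo).redA D.c₁ = D.s₀ ^ (q * q) := by
    rw [((tri h hG).R Cp.oo).redA_of_mem D.c₁_mem]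
    exact D.hc₁
  rw [hc]
  by_contra hcon
  rw [not_le] at hcon
  have hle : P.ord D.hb ≤ 0 := by
    cases i
    · rw [red_oo_jj] at hcon
      exact ord_aeval_le_zero_of_eval_ne _ D.R _ D.hs₁ P hcon
    · rw [red_mid_jj] at hcon
      exact ord_aeval_le_zero_of_eval_ne _ D.R _ D.hs₁ P hcon
    · rw [red_zr_jj] at hcon
      have : Fact q.Prime := ⟨S.hq⟩
      have := charP_kk S
      have : CharP (Fb A M) q :=
        charP_of_injective_algebraMap (algebraMap (kk A) (Fb A M)).injective q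
      have e : Igusa.jb (kk A) M ^ (q * q) - algebraMap (kk A) (Fb A M) (D.s₀ ^ (q * q)) =
          (Igusa.jb (kk A) M - algebraMap (kk A) (Fb A M) D.s₀) ^ (q * q) := by
        rw [map_pow, ← sq, sub_pow_char_pow]
      rw [e, ord_pow] at hcon
      have hq : 0 < ((q * q : ℕ) : ℤ) := by exact_mod_cast Nat.mul_pos S.hq.pos S.hq.pos
      have hpos : 0 < P.ord (Igusa.jb (kk A) M - algebraMap (kk A) (Fb A M) D.s₀) := by
        by_contra hcon'
        have := mul_nonpos_of_nonneg_of_nonpos hq.le (not_lt.1 hcon')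
        omega
      exact ord_aeval_le_zero_of_eval_ne _ D.R _ D.hs₀ P hpos
  omega

/-- LEAF PI-9 (numerics).  `degree_zeros_aeval j̄ D.R D.R_monic`, `D.R_deg`, `DR.Conc.Level_degree_poleDiv_jb` (`hM`) : `deg (hb)_0 = m (q - 1) ψ(M)`.
`genusFF_sq A M q S.hq S.hqM S.hA hneat` : in `ℚ`, `g - 1 = (q + 1) (g' - 1 + (q - 1) ψ(M) / 12)`.  `(tri h hG).e = q - 1` (`rfl`), `((q - 1 : ℕ) : ℤ) = q - 1` (`S.hq.one_le`).
The inequality is an equality; cast to `ℚ` (`exact_mod_cast`/`Int.cast_injective`) and `field_simp; ring`/`linarith`. -/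
theorem genus_le (hM : ((M : ℕ) : kk A) ≠ 0) (hneat : 4 ∣ M ∨ 9 ∣ M) :
    ((12 * D.m : ℕ) : ℤ) * ((genusFF Kbar (FN (M * q * q)) : ℤ) - 1) ≤
      (((tri h hG).e : ℤ) + 2) * (((12 * D.m : ℕ) : ℤ) * ((genusFF (kk A) (Fb A M) : ℤ) - 1) +
        Divisor.degree (poleDiv (K := kk A) D.hb⁻¹)) := by
  have hdeg : Divisor.degree (poleDiv (K := kk A) D.hb⁻¹) =
      ((D.m * (q - 1) : ℕ) : ℤ) * (dedekindPsi M : ℤ) := by
    rw [HData.hb, degree_zeros_aeval _ _ D.R_monic, D.R_deg,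
      DR.Conc.Level_degree_poleDiv_jb A M hM]
  have hg := Fermat.Agent.S36.RC.genusFF_sq A M q S.hq S.hqM S.hA hneat
  have he : ((tri h hG).e : ℤ) = (q : ℤ) - 1 := by
    show ((q - 1 : ℕ) : ℤ) = _
    rw [Nat.cast_sub S.hq.one_le, Nat.cast_one]
  rw [hdeg, he]
  apply le_of_eq
  apply Int.cast_injective (α := ℚ)
  push_cast [Nat.cast_sub S.hq.one_le]
  linear_combination (12 * (D.m : ℚ)) * hg

/-- LEAF PI-10 (degrees).  `poleDiv (j̄ ^ n) = n • poleDiv j̄` (pointwise, `poleDiv_apply`, `ord_pow`; or `DR.Conc.poleDiv_aeval_monic j̄ (X ^ n)`), `Level_degree_poleDiv_jb`,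
`dedekindPsi_sq S.hq S.hqM` : `ψ(M) + (q - 1) ψ(M) + q q ψ(M) = q (q + 1) ψ(M)`. -/
theorem sum_degrees (hM : ((M : ℕ) : kk A) ≠ 0) :
    Divisor.degree (poleDiv (K := kk A) ((tri h hG).red Cp.oo (jj S))) +
      ((tri h hG).e : ℤ) * Divisor.degree (poleDiv (K := kk A) ((tri h hG).red Cp.mid (jj S))) +
      Divisor.degree (poleDiv (K := kk A) ((tri h hG).red Cp.zr (jj S))) =
    (dedekindPsi (M * q * q) : ℤ) := by
  have he : ((tri h hG).e : ℤ) = (q : ℤ) - 1 := by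
    show ((q - 1 : ℕ) : ℤ) = _
    rw [Nat.cast_sub S.hq.one_le, Nat.cast_one]
  have h1 : poleDiv (K := kk A) (Igusa.jb (kk A) M ^ (q * q)) =
      (q * q) • poleDiv (K := kk A) (Igusa.jb (kk A) M) := by
    have h2 := DR.Conc.poleDiv_aeval_monic (K := kk A) (Igusa.jb (kk A) M) (X ^ (q * q))
      (monic_X_pow _)
    rwa [map_pow, aeval_X, natDegree_X_pow] at h2
  rw [red_oo_jj, red_mid_jj, red_zr_jj, h1, map_nsmul, DR.Conc.Level_degree_poleDiv_jb A M hM,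
    Fermat.Agent.S36.RC.dedekindPsi_sq S.hq S.hqM, he]
  push_cast
  rw [nsmul_eq_mul]
  push_cast
  ring

end Hb

/-! ### assembly -/

section Main

variable [IsAlgClosed (kk A)] [Lib.RR.IsFF (kk A) (Fb A M)] [Lib.RR.IsFF Kbar (FN (M * q * q))]
  (B : BC (K0 A) S.F Kbar (FN (M * q * q))) (hβ : ∀ z, B.β z = S36R.bc0 A (M * q * q) z)

include hβ in
/-- LEAF PI-11. `jj S = j0 A (M q q)` (`Val.pi0_jN`, or `Subtype.ext` + `coe_pi0`), `bc0_j0`. -/
theorem β_jj : B.β (jj S) = (jF (M * q * q) : FN (M * q * q)) := by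
  have h1 : jj S = j0 A (M * q * q) := by
    apply Subtype.ext
    rw [jj, coe_pi0]
    rfl
  rw [hβ, h1, bc0_j0]

include hβ in
theorem transcendental_β_jj : Transcendental Kbar (B.β (jj S)) := by
  rw [β_jj B hβ]
  exact S24.transcendental_jF _

include hβ in
theorem finiteDimensional_β_jj :
    FiniteDimensional (IntermediateField.adjoin Kbar {B.β (jj S)}) (FN (M * q * q)) := by
  rw [β_jj B hβ]
  exact S24.finiteDimensional_jF _

include hβ in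
theorem int₀ (c₁ : K0 A) (a c : ℕ) (z : S.F)
    (hz : z ∈ B.L (jj S - algebraMap (K0 A) S.F c₁) a c) :
    z * (jj S - algebraMap (K0 A) S.F c₁) ^ c ∈ RR (K0 A) (jj S) := by
  have : Algebra.IsAlgebraic (K0 A) Kbar := Algebra.IsAlgebraic.tower_top (K := ℚ) (K0 A)
  have := finiteDimensional_β_jj B hβ
  exact BC.int₀ (transcendental_β_jj B hβ) a c z hz

include hβ in
theorem int₁ (c₁ : K0 A) (a c : ℕ) (z : S.F)
    (hz : z ∈ B.L (jj S - algebraMap (K0 A) S.F c₁) a c) :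
    z * (jj S - algebraMap (K0 A) S.F c₁) ^ c / jj S ^ (a + c) ∈ RR (K0 A) (jj S)⁻¹ := by
  have : Algebra.IsAlgebraic (K0 A) Kbar := Algebra.IsAlgebraic.tower_top (K := ℚ) (K0 A)
  have := finiteDimensional_β_jj B hβ
  exact BC.int₁ (transcendental_β_jj B hβ) a c z hz

include hβ in
theorem jj_sub_ne_zero (c₁ : K0 A) : jj S - algebraMap (K0 A) S.F c₁ ≠ 0 :=
  BC.sub_const_ne_zero (transcendental_β_jj B hβ)

include hβ in
/-- LEAF PI-12.  `(x - c)_∞ = (x)_∞` pointwise (`Finsupp.ext`, `poleDiv_apply`; `BC.ord_sub_const_of_neg`, `BC.ord_sub_const_nonneg`),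
`β_jj`, `DR.Conc.Level_degree_poleDiv_jF`. -/
theorem degree_poleDiv_β (c₁ : K0 A) :
    Divisor.degree (poleDiv (K := Kbar) (B.β (jj S - algebraMap (K0 A) S.F c₁))) =
      (dedekindPsi (M * q * q) : ℤ) := by
  have h1 : poleDiv (K := Kbar) (B.β (jj S - algebraMap (K0 A) S.F c₁)) =
      poleDiv (K := Kbar) (B.β (jj S)) := by
    refine Finsupp.ext fun P => ?_
    rw [poleDiv_apply, poleDiv_apply]
    rcases lt_or_ge (P.ord (B.β (jj S))) 0 with hlt | hge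
    · rw [BC.ord_sub_const_of_neg P hlt]
    · have h2 := BC.ord_sub_const_nonneg (c₁ := c₁) P hge
      rw [max_eq_right (by omega), max_eq_right (by omega)]
  rw [h1, β_jj B hβ]
  exact DR.Conc.Level_degree_poleDiv_jF (M * q * q)

/-- **The input of `PreP.poles`.** -/
def preP {e : Fin 3 → ℕ} (hV : VertFam (O0 A) ((q : ℕ) : K0 A) (jj S) S.W e)
    (hM : ((M : ℕ) : kk A) ≠ 0) (hneat : 4 ∣ M ∨ 9 ∣ M) (aΨ : ℕ)
    (h1 : (Ψoo S D)⁻¹ ∈ B.L (jj S - algebraMap (K0 A) S.F D.c₁) aΨ 0)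
    (h2 : (Ψzr S D)⁻¹ ∈ B.L (jj S - algebraMap (K0 A) S.F D.c₁) aΨ 0) :
    PreP (tri h hG) (O0 A) where
  L := B.L (jj S - algebraMap (K0 A) S.F D.c₁)
  L_mono := BC.L_mono
  one_mem := BC.one_mem_L00
  L_mul := BC.L_mul
  L_inf := BC.L_inf
  L_zero := BC.L_zero
  L_root := BC.L_root
  hO := constRing h hG
  x := jj S
  c₁ := D.c₁
  c₁_mem := D.c₁_mem
  x_int := jj_int h hG
  x_nc := jj_nc h hG
  x_mid := (red_mid_jj h hG).trans (red_oo_jj h hG).symm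
  sat₀ := sat₀ h hG hV
  sat₁ := sat₁ h hG hV
  int₀ := int₀ B hβ D.c₁
  int₁ := int₁ B hβ D.c₁
  M := 12 * D.m
  M_pos := Nat.mul_pos (by norm_num) D.m_pos
  Ψoo := Ψoo S D
  Ψzr := Ψzr S D
  aΨ := aΨ
  Ψoo_inv := h1
  Ψzr_inv := h2
  hb := D.hb
  hb_ne := D.hb_ne
  Ψoo_oo := Ψoo_oo h hG D
  Ψoo_mid := Ψoo_mid h hG D
  Ψoo_zr := Ψoo_zr h hG D
  Ψzr_oo := Ψzr_oo h hG D
  Ψzr_mid := Ψzr_mid h hG D
  Ψzr_zr := Ψzr_zr h hG D
  hb_reg := hb_reg h hG D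
  hb_cusp := hb_cusp h hG D
  hb_c₁ := hb_c₁ h hG D
  g := genusFF Kbar (FN (M * q * q))
  genus_le := genus_le h hG D hM hneat

include hβ in
/-- **The concrete `Poles`.** -/
theorem exists_poles {e : Fin 3 → ℕ} (hV : VertFam (O0 A) ((q : ℕ) : K0 A) (jj S) S.W e)
    (hM : ((M : ℕ) : kk A) ≠ 0) (hneat : 4 ∣ M ∨ 9 ∣ M) :
    ∃ (P : Poles (tri h hG)) (c₁ : K0 A),
      (∀ a c, P.L a c = B.L (jj S - algebraMap (K0 A) S.F c₁) a c) ∧
      P.X Cp.oo = poleDiv (K := kk A) (Igusa.jb (kk A) M) ∧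
      P.nF = (dedekindPsi (M * q * q) : ℤ) ∧
      P.g = (genusFF Kbar (FN (M * q * q)) : ℤ) := by
  obtain ⟨D⟩ := nonempty_hData S
  obtain ⟨a1, h1⟩ := BC.exists_mem_L_of_mem_RR (B := B) (c₁ := D.c₁) (Ψoo_inv_mem D)
  obtain ⟨a2, h2⟩ := BC.exists_mem_L_of_mem_RR (B := B) (c₁ := D.c₁) (Ψzr_inv_mem D)
  refine ⟨(preP h hG D B hβ hV hM hneat (max a1 a2)
    (BC.L_mono (le_max_left _ _) le_rfl h1) (BC.L_mono (le_max_right _ _) le_rfl h2)).poles,
    D.c₁, fun _ _ => rfl, ?_, sum_degrees h hG hM, rfl⟩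
  show poleDiv (K := kk A) ((tri h hG).red Cp.oo (jj S)) = _
  rw [red_oo_jj]

end Main

end Fermat.Agent.S36.RC.Conc
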