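import Fermat.Agent.S36R.AA.Final
import Fermat.Agent.S36R.End.Roots

/-!
# S36, route RC: `ResF S.lvl`, directly

The residue fields of `W20`, `W11` are covered by `α FA`, those of `W11`, `W02` by `β FA`.  Direct proof (no chart, no closed point):
the residue of `z ∈ W` is `v ∈ E k M`; `v = v₁ / v₂` with `v₁, v₂` integral over `k[j̄]`; lift `v₁, v₂` to `FF (K0 A) M`
(`AA.exists_lift_K0`) and use an old embedding.
-/

set_option autoImplicit false
set_option linter.unusedSectionVars false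

noncomputable section

namespace Fermat.Agent.S36.RC.Conc

open ModularCurve AlgebraicCurve Fermat.Agent.S24 Fermat.Agent.GAL Fermat.Agent.GAL.Gauss
  Fermat.Agent.GAL.RED Fermat.Agent.DR.Gal Fermat.Agent.DR.Conc Fermat.Agent.Lib.RR
  IntermediateField Fermat.Agent.S36R Fermat.Agent.S36R.AA

section General

variable {A : ValuationSubring Kbar} {M : ℕ} [NeZero M]
  {F0 : Type*} [Field F0] {φ : F0 →+* LaurentSeries Kbar} {W : ValuationSubring F0}
  (hM : ((M : ℕ) : IsLocalRing.ResidueField ↥A) ≠ 0)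
  [Algebra (O0 A) F0] {h : IsGaussOf A M φ W} {π : FF (K0 A) M →+* F0}
  {q : ℕ} (hq : q.Prime) (hA : A.LiesOverPrime q)

include hM in
open scoped IntermediateField.algebraAdjoinAdjoin in
/-- every element of `E k M` is a quotient of elements which are integral over `k[j̄]`. -/
theorem exists_integral_frac (v : Igusa.E (IsLocalRing.ResidueField ↥A) M) :
    ∃ v₁ v₂ : Igusa.E (IsLocalRing.ResidueField ↥A) M, v₂ ≠ 0 ∧ v₁ = v₂ * v ∧
      IsIntegral (Algebra.adjoin (IsLocalRing.ResidueField ↥A)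
        {Igusa.jb (IsLocalRing.ResidueField ↥A) M}) v₁ ∧
      IsIntegral (Algebra.adjoin (IsLocalRing.ResidueField ↥A)
        {Igusa.jb (IsLocalRing.ResidueField ↥A) M}) v₂ := by
  have := Igusa.finiteDimensional_jb (IsLocalRing.ResidueField ↥A) M hM
  have hz : IsAlgebraic (Algebra.adjoin (IsLocalRing.ResidueField ↥A)
      {Igusa.jb (IsLocalRing.ResidueField ↥A) M}) v :=
    (IsFractionRing.isAlgebraic_iff (Algebra.adjoin (IsLocalRing.ResidueField ↥A)
      {Igusa.jb (IsLocalRing.ResidueField ↥A) M})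
      (IsLocalRing.ResidueField ↥A)⟮Igusa.jb (IsLocalRing.ResidueField ↥A) M⟯
      (Igusa.E (IsLocalRing.ResidueField ↥A) M)).mpr
      (IsIntegral.of_finite (IsLocalRing.ResidueField ↥A)⟮Igusa.jb (IsLocalRing.ResidueField ↥A) M⟯
        v).isAlgebraic
  obtain ⟨y, hy, hint⟩ := hz.exists_integral_multiple
  exact ⟨y • v, (y : Igusa.E (IsLocalRing.ResidueField ↥A) M), fun h0 => hy (Subtype.ext h0), rfl,
    hint, isIntegral_algebraMap⟩

include hq hA in
/-- every element of `W` is congruent along `W` to an old function. -/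
theorem exists_old_cong_all (hg : GoodRed A M) (hO : OldData hM h π) (z : F0) (hz : z ∈ W) :
    ∃ u : FF (K0 A) M, Cg W z (π u) := by
  obtain ⟨v₁, v₂, hv₂, e, h₁, h₂⟩ := exists_integral_frac hM (rho h ⟨z, hz⟩)
  obtain ⟨u₁, -, hu₁O, hu₁⟩ := exists_lift_K0 A hq hA M hM hg v₁
    (fun P hP => Igusa.mem_place_of_isIntegral P hP h₁)
  obtain ⟨u₂, -, hu₂O, hu₂⟩ := exists_lift_K0 A hq hA M hM hg v₂
    (fun P hP => Igusa.mem_place_of_isIntegral P hP h₂)
  obtain ⟨hw₁, hρ₁⟩ := hO.red u₁ hu₁O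
  obtain ⟨hw₂, hρ₂⟩ := hO.red u₂ hu₂O
  rw [hu₁] at hρ₁
  rw [hu₂] at hρ₂
  -- `π u₂` is a unit of `W`
  have hU : IsU W (π u₂) := by
    refine isU_of_mem_of_not_lt hw₂ fun hlt => hv₂ ?_
    rw [← hρ₂]
    exact (rho_eq_zero_iff h ⟨π u₂, hw₂⟩).2 hlt
  refine ⟨u₁ / u₂, ?_⟩
  -- `z * π u₂ ≡ π u₁`
  have h0 : rho h (⟨z, hz⟩ * ⟨π u₂, hw₂⟩ - ⟨π u₁, hw₁⟩) = 0 := by
    rw [map_sub, map_mul, hρ₁, hρ₂, e, mul_comm, sub_self]
  have h1 : Cg W (z * π u₂) (π u₁) := (rho_eq_zero_iff h _).1 h0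
  have h2 := h1.mul_right (z := (π u₂)⁻¹) hU.inv.mem
  rwa [mul_assoc, mul_inv_cancel₀ hU.ne_zero, mul_one, ← div_eq_mul_inv, ← map_div₀] at h2

end General

variable {A : ValuationSubring Kbar} {M q : ℕ} [NeZero M] [NeZero q] {S : NormC.Setup A M q}

/-- **`ResF S.lvl`.** -/
theorem resF (hM : ((M : ℕ) : IsLocalRing.ResidueField ↥A) ≠ 0) (hg : GoodRed A M)
    (h3 : ResOK S) : ResF S.lvl where
  al0 z hz := by
    obtain ⟨u, hu⟩ := exists_old_cong_all hM S.hq S.hA hg (old00 hM h3) z hz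
    exact ⟨S.al1' u, hu⟩
  al1 z hz := by
    obtain ⟨u, hu⟩ := exists_old_cong_all hM S.hq S.hA hg (old10 hM h3) z hz
    exact ⟨S.al1' u, hu⟩
  be1 z hz := by
    obtain ⟨u, hu⟩ := exists_old_cong_all hM S.hq S.hA hg (old12 hM h3) z hz
    exact ⟨S.be1' u, hu⟩
  be2 z hz := by
    obtain ⟨u, hu⟩ := exists_old_cong_all hM S.hq S.hA hg (old22 hM h3) z hz
    exact ⟨S.be1' u, hu⟩

end Fermat.Agent.S36.RC.Conc
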