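import Fermat.Agent.S36.RC.Top
import Fermat.Agent.S36.RC.Conc.PolesInst
import Fermat.Agent.S36.RC.Conc.Old
import Fermat.Agent.S36.RC.Conc.ResF
import Fermat.Agent.S36.RC.Conc.Inst
import Fermat.Agent.S36.RC.Conc.Bdd
import Fermat.Agent.S36R.Deliver
import Fermat.Agent.S36R.NormC.Int
import Fermat.Agent.GAL.Tors.Desc.PlacesRestrict

/-!
# S36/RC/Conc: the final term `RCConc S`, and Theorem X by route RC
-/

set_option autoImplicit false
set_option linter.unusedSectionVars false

noncomputable section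

namespace Fermat.Agent.S36.RC.Conc

open AlgebraicCurve ModularCurve Fermat.Agent.S24 Fermat.Agent.GAL Fermat.Agent.GAL.Gauss
  Fermat.Agent.GAL.RED Fermat.Agent.S36.StepA Fermat.Agent.S36R Fermat.Agent.S36R.NormC
  Fermat.Agent.S36R.Val Fermat.Agent.DR.Conc Fermat.Agent.DR.Gal Fermat.Agent.Lib.RR
  Fermat.Agent.S36R.Bridge IntermediateField

variable {A : ValuationSubring Kbar} {M q : ℕ} [NeZero M] [NeZero q] (S : Setup A M q)

theorem jj_eq : jj S = S.j := by
  apply Subtype.ext
  rw [jj, coe_pi0]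
  rfl

/-- Kummer over `K0` implies Kummer over `Kbar`. -/
theorem dvd_ord_bc0 (N : ℕ) {n : ℕ} {f : FF (K0 A) N}
    (hf : ∀ Q : Place (K0 A) (FF (K0 A) N), (n : ℤ) ∣ Q.ord f) (P' : Place Kbar (FN N)) :
    (n : ℤ) ∣ P'.ord (S36R.bc0 A N f) := by
  rcases Desc.exists_place_comap (algebraMap (K0 A) Kbar) (modularFunctionFieldFull N) P' with
    h | ⟨P, e, -, h⟩
  · have := h f
    exact this ▸ dvd_zero _
  · have := h f
    exact this ▸ Dvd.dvd.mul_left (hf P) e

/-! ### norms of functions with poles at the cusps only -/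

variable {S}

/-- abstract form: clear the denominator, use integrality over `O0[j]`. -/
theorem stab_RR (h : ResMem S) (hG : S.lvl.Good (O0 A) q) (φ : S.FA →ₐ[K0 A] S.F) (N : S.F →* S.FA)
    (hc : ∀ a : K0 A, N (algebraMap (K0 A) S.F a) = algebraMap (K0 A) S.FA (a ^ q))
    (hint : ∀ s ∈ RR (O0 A) S.j, φ (N s) ∈ RR (O0 A) S.j) {z : S.F} (hz : z ∈ RR (K0 A) S.j) :
    φ (N z) ∈ RR (K0 A) S.j := by
  obtain ⟨n, hn⟩ := exists_pow_mul_mem_RR (constRing h hG) hz
  have h1 := RR_O0_le _ (hint _ hn)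
  have hq0 : (q : K0 A) ≠ 0 := Nat.cast_ne_zero.2 S.hq.ne_zero
  have e1 : (((tri h hG).q : S.F)) ^ n = algebraMap (K0 A) S.F ((q : K0 A) ^ n) := by
    rw [map_pow, map_natCast]
    rfl
  rw [e1, map_mul, hc, map_mul, AlgHom.commutes] at h1
  have h2 : φ (N z) = algebraMap (K0 A) S.F ((((q : K0 A) ^ n) ^ q)⁻¹) *
      (algebraMap (K0 A) S.F (((q : K0 A) ^ n) ^ q) * φ (N z)) := by
    rw [← mul_assoc, ← map_mul, inv_mul_cancel₀ (pow_ne_zero _ (pow_ne_zero _ hq0)), map_one,
      one_mul]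
  rw [h2]
  exact mul_mem (algebraMap_mem_RR _ _) h1

variable (S)

/-- **The concrete contract of route RC holds at neat levels.** -/
theorem nonempty_rcConc (hneat : 4 ∣ M ∨ 9 ∣ M) : Nonempty (RCConc S) := by
  have hM := S.hM
  have := Igusa.isAlgClosed_residueField A
  have := Igusa.isFF_E (kk A) M hM
  have : Lib.RR.IsFF Kbar (FN (M * q * q)) := GAL.Desc.isFF_FF_Kbar (M * q * q)
  have h : ResMem S := resMem_of_resOK (AA.resOK S)
  have hG : S.lvl.Good (O0 A) q := S.good
  have hV : VertFam (O0 A) ((q : ℕ) : K0 A) (jj S) S.W (ee q) := by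
    rw [jj_eq]; exact Val.vertFam S
  have hβ : ∀ z, (bcA A (M * q * q)).β z = S36R.bc0 A (M * q * q) z := fun _ => rfl
  obtain ⟨P, c₁, hL, hX, hnF, hg⟩ := exists_poles h hG (bcA A (M * q * q)) hβ hV hM hneat
  have htr := transcendental_β_jj (S := S) (bcA A (M * q * q)) hβ
  have := finiteDimensional_β_jj (S := S) (bcA A (M * q * q)) hβ
  have hLRR : ∀ z : S.F, z ∈ RR (K0 A) (jj S) → ∃ a, z ∈ P.L a 0 := by
    intro z hz
    obtain ⟨a, ha⟩ := BC.exists_mem_L_of_mem_RR (B := bcA A (M * q * q)) (c₁ := c₁) hz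
    exact ⟨a, by rw [hL]; exact ha⟩
  have hRRL : ∀ (a : ℕ) (z : S.F), z ∈ P.L a 0 → z ∈ RR (K0 A) (jj S) := by
    intro a z hz
    rw [hL] at hz
    exact BC.mem_RR_of_mem_L htr hz
  have hjj := jj_eq S
  have hfd : FiniteDimensional (K0 A)⟮jj S⟯ S.F := by
    rw [hjj]; exact S36R.finiteDimensional_j0 A (M * q * q)
  have hsep : Algebra.IsSeparable (K0 A)⟮jj S⟯ S.F := by
    rw [hjj]; exact S36R.isSeparable_j0 A (M * q * q)
  have hchar := charP_kk S
  refine ⟨{ k := kk A
            Fb := Fb A M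
            T := tri h hG
            T_q := rfl
            link := link h hG
            good := hG
            resF := resF hM (S.goodRed hneat) (AA.resOK S)
            P := P
            old := old h hG P hM (S.goodRed hneat)
              (fun a u hu => AA.mem_regOff_of_mem_L (by rwa [hX] at hu))
              (fun z hz => hLRR z (by rw [hjj]; exact hz))
            stabA := fun a z hz => hLRR _ (by
              have h1 := hRRL a z hz
              rw [hjj] at h1 ⊢
              exact stab_RR h hG S.lvl.al S.lvl.NA hG.NA_const S.intA h1)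
            stabB := fun a z hz => hLRR _ (by
              have h1 := hRRL a z hz
              rw [hjj] at h1 ⊢
              exact stab_RR h hG S.lvl.be S.lvl.NB hG.NB_const S.intB h1)
            kum := fun n hn hnq f hf hdiv hred => ?_ }⟩
  refine BC.exists_kum (bcA A (M * q * q)) P (jj_sub_ne_zero (bcA A (M * q * q)) hβ c₁) hL
    (by rw [hnF, degree_poleDiv_β (bcA A (M * q * q)) hβ c₁]) (by rw [hg]) ?_ hn ?_ hf
    (fun P' => dvd_ord_bc0 (M * q * q) hdiv P') hred
  · intro V hVf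
    obtain ⟨Bf, hBf⟩ := hV.bdd V
    exact ⟨Bf, fun y hy hI => hBf y hy ((tri_int_iff h hG y).1 hI)⟩
  · intro h0
    have h1 := (CharP.cast_eq_zero_iff (kk A) q n).1 h0
    have h2 : q ∣ 1 := by
      have := Nat.dvd_gcd h1 (dvd_refl q)
      rwa [hnq] at this
    exact S.hq.one_lt.ne' (Nat.dvd_one.1 h2)

/-- **Theorem X (Carayol), by route RC.** -/
theorem theoremX_RC : Fermat.Agent.S36.Glue.TheoremX :=
  theoremX_of_rcConc (fun M q _ _ hq hqM hneat A hA => by
    obtain ⟨S⟩ := Top.nonempty_setup (A := A) (M := M) (q := q) hq hqM hA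
    exact ⟨S, nonempty_rcConc S hneat⟩)

end Fermat.Agent.S36.RC.Conc
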