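import Fermat.Agent.S36.RC.Conc.Inst
import Fermat.Agent.S36.RC.Conc.Bdd
import Fermat.Agent.S36.RC.FromLvl
import Fermat.Agent.S36R.NormC.Int
import Fermat.Agent.S36R.K0.Above
import Fermat.Agent.S36.Abs.Genus

/-!
# S36/RC/Conc (block RC-KUM): final statements for `S : NormC.Setup A M q`

* `BS S = bcA A (M q q)` the base change, `LS S c₁ a c = L(a (j)_∞ + c (j - c₁)_0)` (a `K0`-subspace of `S.F`);
  its properties: `BC.L_mono, one_mem_L00, L_mul, L_inf, L_zero, L_root` (`Conc/PolesL.lean`), `LS_int₀`, `LS_int₁`,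
  `exists_mem_LS_of_mem_RR`;
* `LS_stabA`, `LS_stabB` : fields `stabA`, `stabB` of `RCConc`;
* `LS_kum` : field `kum` of `RCConc`, from `VertFam (O0 A) q S.j S.W e` (block VAL), `P.nF ≤ ψ(M q²)`, `g(X₀(M q²)) ≤ P.g`.
-/

set_option autoImplicit false
set_option linter.unusedSectionVars false

noncomputable section

namespace Fermat.Agent.S36.RC.Conc

open AlgebraicCurve ModularCurve Fermat.Agent.S24 Fermat.Agent.GAL Fermat.Agent.GAL.Desc
  Fermat.Agent.S36R Fermat.Agent.S36R.NormC Fermat.Agent.S36R.Bridge Fermat.Agent.S36R.Val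
  Fermat.Agent.Lib.RR Fermat.Agent.GAL.RED IntermediateField Fermat.Agent.S36.StepA
  Fermat.Agent.DR.Conc

variable {A : ValuationSubring Kbar} {M q : ℕ} [NeZero M] [NeZero q] (S : Setup A M q)

instance instIsFF_FN (N : ℕ) [NeZero N] : Lib.RR.IsFF Kbar (FN N) := isFF_FF_Kbar N

/-- the base change at level `M q²`. -/
abbrev BS (_ : Setup A M q) : BC (K0 A) (FF (K0 A) (M * q * q)) Kbar (FN (M * q * q)) :=
  bcA A (M * q * q)

/-- `L(a (j)_∞ + c (j - c₁)_0)`. -/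
def LS (c₁ : K0 A) (a c : ℕ) : Submodule (K0 A) S.F :=
  (BS S).L (S.j - algebraMap (K0 A) S.F c₁) a c

theorem BS_j : (BS S).β S.j = jF (M * q * q) := bc0_jF A (M * q * q)

theorem transcendental_BS_j : Transcendental Kbar ((BS S).β S.j) := by
  rw [BS_j]; exact transcendental_jF _

theorem finiteDimensional_BS_j : FiniteDimensional Kbar⟮(BS S).β S.j⟯ (FN (M * q * q)) := by
  rw [BS_j]; exact finiteDimensional_jF _

instance instIsAlgebraicK0 : Algebra.IsAlgebraic (K0 A) Kbar :=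
  Algebra.IsAlgebraic.tower_top (K := ℚ) (K0 A)

theorem LS_int₀ (c₁ : K0 A) (a c : ℕ) (z : S.F) (hz : z ∈ LS S c₁ a c) :
    z * (S.j - algebraMap (K0 A) S.F c₁) ^ c ∈ RR (K0 A) S.j := by
  have := finiteDimensional_BS_j S
  exact BC.int₀ (transcendental_BS_j S) a c z hz

theorem LS_int₁ (c₁ : K0 A) (a c : ℕ) (z : S.F) (hz : z ∈ LS S c₁ a c) :
    z * (S.j - algebraMap (K0 A) S.F c₁) ^ c / S.j ^ (a + c) ∈ RR (K0 A) S.j⁻¹ := by
  have := finiteDimensional_BS_j S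
  exact BC.int₁ (transcendental_BS_j S) a c z hz

theorem exists_mem_LS_of_mem_RR (c₁ : K0 A) {v : S.F} (hv : v ∈ RR (K0 A) S.j) :
    ∃ a : ℕ, v ∈ LS S c₁ a 0 :=
  BC.exists_mem_L_of_mem_RR hv

/-! ### norms -/

theorem intA_K0 (s : S.F) (hs : s ∈ RR (K0 A) S.j) : S.lvl.al (S.lvl.NA s) ∈ RR (K0 A) S.j := by
  have h := int_abs (O := K0 A) (a2 M q) (Hecke.finiteAlong_alpha (M * q) q)
    (S.al : S.FA →+* S.F) S.al.commutes (bc0 A (M * q)) (bc0 A (M * q * q)) S.bc0_al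
    S.NA S.bc0_NA S.jA (s := s)
  rw [RingHom.coe_coe, Setup.al_jA] at h
  exact h hs

theorem RR_j_eq_K0 : RR (K0 A) S.j = RR (K0 A) (S.be S.jA) := by
  obtain ⟨Φ, hΦ, h1, h2⟩ := S.exists_Phi
  apply le_antisymm
  · exact RR_le_of_mem (mem_RR.2 (S28.isIntegral_of_evY Φ hΦ _ _ (mem_RR.1 (self_mem_RR _)) h2))
  · exact RR_le_of_mem (mem_RR.2 (S28.isIntegral_of_evY Φ hΦ _ _ (mem_RR.1 (self_mem_RR _)) h1))

theorem intB_K0 (s : S.F) (hs : s ∈ RR (K0 A) S.j) : S.lvl.be (S.lvl.NB s) ∈ RR (K0 A) S.j := by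
  have h := int_abs (O := K0 A) (b2 M q) (Hecke.finiteAlong_beta (M * q) q)
    (S.be : S.FA →+* S.F) S.be.commutes (bc0 A (M * q)) (bc0 A (M * q * q)) S.bc0_be
    S.NB S.bc0_NB S.jA (s := s)
  rw [RingHom.coe_coe, ← RR_j_eq_K0] at h
  exact h hs

/-- **`RCConc.stabA`.** -/
theorem LS_stabA (c₁ : K0 A) (a : ℕ) (z : S.F) (hz : z ∈ LS S c₁ a 0) :
    ∃ a', S.lvl.al (S.lvl.NA z) ∈ LS S c₁ a' 0 := by
  have := finiteDimensional_BS_j S
  exact BC.stab (transcendental_BS_j S) (fun z => S.lvl.al (S.lvl.NA z)) (intA_K0 S) a z hz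

/-- **`RCConc.stabB`.** -/
theorem LS_stabB (c₁ : K0 A) (a : ℕ) (z : S.F) (hz : z ∈ LS S c₁ a 0) :
    ∃ a', S.lvl.be (S.lvl.NB z) ∈ LS S c₁ a' 0 := by
  have := finiteDimensional_BS_j S
  exact BC.stab (transcendental_BS_j S) (fun z => S.lvl.be (S.lvl.NB z)) (intB_K0 S) a z hz

/-! ### Kummer data -/

theorem degree_poleDiv_BS (c₁ : K0 A) :
    Divisor.degree (poleDiv (K := Kbar) ((BS S).β (S.j - algebraMap (K0 A) S.F c₁)))
      = dedekindPsi (M * q * q) := by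
  rw [map_sub, (BS S).β_alg, S36.Abs.genus_poleDiv_sub_const, BS_j]
  exact DR.Conc.Level_degree_poleDiv_jF (M * q * q)

theorem span_congr {K F : Type*} [Field K] [Field F] [Algebra K F] {O O' : ValuationSubring K}
    (h : O = O') {B : Set F} {y : F} (hy : y ∈ Submodule.span ↥O B) :
    y ∈ Submodule.span ↥O' B := by
  subst h; exact hy

variable {k Fb : Type*} [Field k] [Field Fb] [Algebra k Fb]

/-- **`RCConc.kum`.** -/
theorem LS_kum {T : Tri (K0 A) S.F k Fb} (P : Poles T) (hq : T.q = q) (Lk : Link S.lvl T)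
    (hA : T.A = O0 A) (c₁ : K0 A) (hL : ∀ a c, P.L a c = LS S c₁ a c)
    (hnF : P.nF ≤ dedekindPsi (M * q * q)) (hg : (genusFF Kbar (FN (M * q * q)) : ℤ) ≤ P.g)
    {e : Fin 3 → ℕ} (hV : VertFam (O0 A) (q : K0 A) S.j S.W e)
    (n : ℕ) (hn : 0 < n) (hnq : n.Coprime q) (f : S.F) (hf : f ≠ 0)
    (hdiv : ∀ Q : Place (K0 A) S.F, (n : ℤ) ∣ Q.ord f) (hred : ∀ i, T.red i f = 1) :
    ∃ κ : Kum P n, κ.f = f := by
  have hFD : FiniteDimensional (K0 A)⟮S.j⟯ S.F := Bridge.finiteDimensional_jF (K0 A) (M * q * q)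
  have hw : S.j - algebraMap (K0 A) S.F c₁ ≠ 0 := by
    intro h0
    apply transcendental_BS_j S
    rw [sub_eq_zero.1 h0, (BS S).β_alg]
    exact isAlgebraic_algebraMap _
  have hnk : (n : k) ≠ 0 := by
    intro h0
    have hqk : (q : k) = 0 := by
      rw [← hq, ← (T.R Cp.oo).redA_natCast]; exact T.redA_q
    have h1 : ((n.gcd q : ℕ) : k) = 0 := by
      have h2 := Nat.gcd_eq_gcd_ab n q
      have h3 : (((n.gcd q : ℕ) : ℤ) : k) = 0 := by
        rw [h2]; push_cast; rw [h0, hqk]; ring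
      exact_mod_cast h3
    rw [hnq] at h1
    simp at h1
  refine (BS S).exists_kum P hw hL (by rw [degree_poleDiv_BS]; exact hnF) hg ?_ hn hnk hf ?_ hred
  · intro V hV'
    obtain ⟨B, hB⟩ := hV.bdd V
    refine ⟨B, fun y hy hI => span_congr hA.symm (hB y hy fun i => ?_)⟩
    have h1 := (Lk.int_iff y).1 hI
    fin_cases i
    · exact h1 Cp.oo
    · exact h1 Cp.mid
    · exact h1 Cp.zr
  · intro Pl
    exact Tors.Dict.dvd_ord_map (bc0 A (M * q * q)) (fun a => ⟨_, bc0_algebraMap A _ a⟩) n f hf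
      hdiv Pl

end Fermat.Agent.S36.RC.Conc
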