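import Fermat.Agent.S36.RC.Conc.Tri

/-!
# S36/RC/Conc: the link between the concrete `Tri` and `S.lvl`
-/

set_option autoImplicit false
set_option linter.unusedSectionVars false

noncomputable section

namespace Fermat.Agent.S36.RC.Conc

open AlgebraicCurve ModularCurve Fermat.Agent.S24 Fermat.Agent.GAL Fermat.Agent.GAL.Gauss
  Fermat.Agent.GAL.RED Fermat.Agent.S36.StepA Fermat.Agent.S36R Fermat.Agent.S36R.NormC
  Fermat.Agent.S36R.Val

variable {A : ValuationSubring Kbar} {M q : ℕ} [NeZero M] [NeZero q] (S : Setup A M q)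


theorem e0_al (w : S.FA) : S.e0 (S.al w) = S.d0 w := by
  rw [S.e0_apply, S.bc0_al, S.d0_apply, a2, coe_heckeAlphaBar]

theorem e1_al (w : S.FA) : S.e1 (S.al w) = S.d0 w := by
  rw [S.e1_apply, S.bc0_al, S.d0_apply, S.hι.alpha]

theorem e2_be (w : S.FA) : S.e2 (S.be w) = S.d1 w := by
  rw [S.e2_apply, S.bc0_be, S.d1_apply, S.hW2.beta, a2, coe_heckeAlphaBar]

theorem e1_be (w : S.FA) :
    S.e1 (S.be w) = Fermat.Agent.S24.twist S.ζ (S.hζ.ne_zero S.hq.ne_zero) (S.d1 w) := by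
  rw [S.e1_apply, S.bc0_be, S.d1_apply, S.hι.beta]

/-- twisting by `ζ ≡ 1` does not change the residue. -/
theorem red_twist_zeta {s : LaurentSeries Kbar} {r : LaurentSeries (kk A)} (h : Red A s r) :
    Red A (Fermat.Agent.S24.twist S.ζ (S.hζ.ne_zero S.hq.ne_zero) s) r := by
  have : Fact q.Prime := ⟨S.hq⟩
  have := charP_kk S
  obtain ⟨h1, h2⟩ := KS.zeta_mem A q S.hζ.pow_eq_one
  exact Unit.GR.twist h _ h1 h2 (KS.residue_zeta A q S.hζ.pow_eq_one h1)

variable {S}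

theorem tri_R (h : ResMem S) (hG : S.lvl.Good (O0 A) q) : (tri h hG).R = redData h := rfl

theorem redData_O (h : ResMem S) (i : Cp) : (redData h i).O = S.W i.idx := rfl

theorem tri_O (h : ResMem S) (hG : S.lvl.Good (O0 A) q) (i : Cp) :
    ((tri h hG).R i).O = S.W i.idx := rfl

theorem tri_red (h : ResMem S) (hG : S.lvl.Good (O0 A) q) (i : Cp) (z : S.F) :
    (tri h hG).red i z = (redData h i).red z := rfl

theorem red_oo_al (w : S.FA) (hw : w ∈ S.V10) :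
    Red A (ex S Cp.oo (S.al w)) (gRes A ⟨S.d0 w, hw⟩) := by
  have hr : Red A (S.d0 w) (gRes A ⟨S.d0 w, hw⟩) := ⟨hw, rfl⟩
  show Red A (S.e0 _) _
  rwa [e0_al]

theorem red_mid_al (w : S.FA) (hw : w ∈ S.V10) :
    Red A (ex S Cp.mid (S.al w)) (gRes A ⟨S.d0 w, hw⟩) := by
  have hr : Red A (S.d0 w) (gRes A ⟨S.d0 w, hw⟩) := ⟨hw, rfl⟩
  show Red A (S.e1 _) _
  rwa [e1_al]

theorem red_zr_be (w : S.FA) (hw : w ∈ S.V01) :
    Red A (ex S Cp.zr (S.be w)) (gRes A ⟨S.d1 w, hw⟩) := by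
  have hr : Red A (S.d1 w) (gRes A ⟨S.d1 w, hw⟩) := ⟨hw, rfl⟩
  show Red A (S.e2 _) _
  rwa [e2_be]

theorem red_mid_be (w : S.FA) (hw : w ∈ S.V01) :
    Red A (ex S Cp.mid (S.be w)) (gRes A ⟨S.d1 w, hw⟩) := by
  have hr : Red A (S.d1 w) (gRes A ⟨S.d1 w, hw⟩) := ⟨hw, rfl⟩
  show Red A (S.e1 _) _
  rw [e1_be]
  exact red_twist_zeta S hr

theorem al_compat (h : ResMem S) (w : S.FA) (hw : w ∈ S.V10) :
    (redData h Cp.oo).red (S.al w) = (redData h Cp.mid).red (S.al w) :=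
  Subtype.ext ((coe_red h (red_oo_al w hw)).trans (coe_red h (red_mid_al w hw)).symm)

theorem be_compat (h : ResMem S) (w : S.FA) (hw : w ∈ S.V01) :
    (redData h Cp.zr).red (S.be w) = (redData h Cp.mid).red (S.be w) :=
  Subtype.ext ((coe_red h (red_zr_be w hw)).trans (coe_red h (red_mid_be w hw)).symm)

theorem link (h : ResMem S) (hG : S.lvl.Good (O0 A) q) : Link S.lvl (tri h hG) where
  O_oo := tri_O h hG Cp.oo
  O_mid := tri_O h hG Cp.mid
  O_zr := tri_O h hG Cp.zr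
  al_compat := fun w hw => al_compat h w hw
  be_compat := fun w hw => be_compat h w hw

end Fermat.Agent.S36.RC.Conc
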