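import Fermat.Agent.S36R.End.Cong

/-!
# S36/RC/Conc: elementary lemmas on value groups
-/

set_option autoImplicit false

namespace Fermat.Agent.S36.RC.Conc

open Fermat.Agent.S36R

variable {F : Type*} [Field F] {V : ValuationSubring F}

theorem valAbs_zpow_le_one {Γ : Type*} [LinearOrderedCommGroupWithZero Γ] {a : Γ} (h0 : a ≠ 0)
    (h1 : a < 1) {x : ℤ} (hx : 0 ≤ x) : a ^ x ≤ 1 := by
  obtain ⟨n, rfl⟩ := Int.eq_ofNat_of_zero_le hx
  rw [zpow_natCast]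
  exact pow_le_one' h1.le n

theorem valAbs_pos_of_zpow_lt_one {Γ : Type*} [LinearOrderedCommGroupWithZero Γ] {a : Γ}
    (h0 : a ≠ 0) (h1 : a < 1) {x : ℤ} (hx : a ^ x < 1) : 0 < x := by
  by_contra h
  have h2 : a ^ (-x) ≤ 1 := valAbs_zpow_le_one h0 h1 (by omega)
  rw [zpow_neg, inv_le_one₀ (zero_lt_iff.2 (zpow_ne_zero _ h0))] at h2
  exact absurd hx (not_lt.2 h2)

theorem valAbs_eq {π z : F} (hπ0 : π ≠ 0) {x : ℤ} (hx : IsU V (z / π ^ x)) :
    V.valuation z = V.valuation π ^ x := by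
  have h : V.valuation (z / π ^ x) = 1 := hx
  rw [map_div₀, map_zpow₀,
    div_eq_one_iff_eq (zpow_ne_zero _ ((Valuation.ne_zero_iff _).2 hπ0))] at h
  exact h

theorem div_mem_of_value {π : F} (hπ : V.valuation π < 1) (hπ0 : π ≠ 0) {z : F}
    (hz : V.valuation z < 1) {x : ℤ} (hx : IsU V (z / π ^ x)) : z / π ∈ V := by
  have h0 : V.valuation π ≠ 0 := (Valuation.ne_zero_iff _).2 hπ0
  have h := valAbs_eq hπ0 hx
  rw [h] at hz
  have hx0 := valAbs_pos_of_zpow_lt_one h0 hπ hz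
  rw [← V.valuation_le_one_iff, map_div₀, h, div_eq_mul_inv, ← zpow_sub_one₀ h0]
  exact valAbs_zpow_le_one h0 hπ (by omega)

theorem exists_pow_mul_mem {π : F} (hπ : V.valuation π < 1) (hπ0 : π ≠ 0) {z : F} {x : ℤ}
    (hx : IsU V (z / π ^ x)) : ∃ N : ℕ, π ^ N * z ∈ V := by
  have h0 : V.valuation π ≠ 0 := (Valuation.ne_zero_iff _).2 hπ0
  refine ⟨(-x).toNat, ?_⟩
  rw [← V.valuation_le_one_iff, map_mul, map_pow, valAbs_eq hπ0 hx, ← zpow_natCast,
    ← zpow_add₀ h0]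
  exact valAbs_zpow_le_one h0 hπ (by omega)

theorem mem_of_pow_mem {e : ℕ} (he : 0 < e) {z : F} (h : z ^ e ∈ V) : z ∈ V := by
  rw [← V.valuation_le_one_iff] at h ⊢
  rw [map_pow] at h
  exact (pow_le_one_iff he.ne').1 h

theorem div_mem_of_value_pow {π b : F} {e : ℕ} (he : 0 < e) (hπ : V.valuation π < 1) (hπ0 : π ≠ 0)
    (hb : IsU V (b ^ e / π)) {z : F} (hz : V.valuation z < 1) {x : ℤ}
    (hx : IsU V (z ^ e / π ^ x)) : z / b ∈ V := by
  apply mem_of_pow_mem he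
  have h1 : V.valuation (z ^ e) < 1 := by
    rw [map_pow]; exact pow_lt_one' hz he.ne'
  have h2 := div_mem_of_value hπ hπ0 h1 hx
  have h3 : (z / b) ^ e = z ^ e / π * (b ^ e / π)⁻¹ := by
    have hb0 : b ^ e ≠ 0 := by
      intro h
      have := hb.ne_zero
      rw [h, zero_div] at this
      exact this rfl
    rw [div_pow]
    field_simp
  rw [h3]
  exact V.mul_mem _ _ h2 hb.inv.mem

theorem exists_pow_mul_mem_pow {π : F} {e : ℕ} (he : 0 < e) (hπ : V.valuation π < 1) (hπ0 : π ≠ 0)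
    {z : F} {x : ℤ} (hx : IsU V (z ^ e / π ^ x)) : ∃ N : ℕ, π ^ N * z ∈ V := by
  obtain ⟨N, hN⟩ := exists_pow_mul_mem hπ hπ0 hx
  refine ⟨N, mem_of_pow_mem he ?_⟩
  have hπV : π ∈ V := (V.valuation_le_one_iff _).1 hπ.le
  have : (π ^ N * z) ^ e = π ^ (N * (e - 1)) * (π ^ N * z ^ e) := by
    rw [mul_pow, ← mul_assoc, ← pow_add, ← pow_mul]
    congr 2
    obtain ⟨e', rfl⟩ : ∃ e', e = e' + 1 := ⟨e - 1, by omega⟩
    simp; ring
  rw [this]
  exact V.mul_mem _ _ (V.pow_mem hπV _) hN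

end Fermat.Agent.S36.RC.Conc
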