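import Fermat.Agent.S36.RC.FromLvl
import Fermat.Agent.S36R.NormC.Lvl
import Fermat.Agent.S36R.Val.Bridge
import Fermat.Agent.S36R.Unit.Gauss
import Fermat.Agent.S36R.AA.Inst
import Fermat.Agent.S36.RC.Conc.ValAbs
import Fermat.Agent.S36R.KS.ThetaGauss
import Fermat.Agent.S36R.KS.Zeta

/-!
# S36/RC/Conc: the concrete `Tri` (three residue maps onto `E k M`)

`S : NormC.Setup A M q` the official data of level `M q²` over `K0 = K0 A`; `D = S.lvl`.
`k = kk A` the residue field of `A`, `Fb A M = Igusa.E k M`.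

* `ex S i : S.F →+* Kbar((t))` the three expansions (`S.e0, S.e1, S.e2`), `S.W i.idx = {z | ex S i z ∈ gRing A}`;
* `resS S i : S.W i.idx →+* k((t))` the residue maps;
* `ResMem S` : CONTRACT with block VAL (V3): the residues lie in `E k M`;
* `redData S h i : RedData K0 S.F k (Fb A M)`;
* `bb S = j(t) - j(t^{q²})` the uniformiser of the middle component;
* `tri S h hG : Tri K0 S.F k (Fb A M)`, `link S h hG : Link S.lvl (tri S h hG)`.
-/

set_option autoImplicit false
set_option linter.unusedSectionVars false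

noncomputable section

namespace Fermat.Agent.S36.RC.Conc

open AlgebraicCurve ModularCurve Fermat.Agent.S24 Fermat.Agent.GAL Fermat.Agent.GAL.Gauss
  Fermat.Agent.GAL.RED Fermat.Agent.S36.StepA Fermat.Agent.S36R Fermat.Agent.S36R.NormC
  Fermat.Agent.S36R.Val

/-- the residue field. -/
abbrev kk (A : ValuationSubring Kbar) : Type := IsLocalRing.ResidueField ↥A

/-- the function field of the components. -/
abbrev Fb (A : ValuationSubring Kbar) (M : ℕ) : Type := Igusa.E (kk A) M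

variable {A : ValuationSubring Kbar} {M q : ℕ} [NeZero M] [NeZero q] (S : Setup A M q)

/-- the three expansions. -/
def ex : Cp → (S.F →+* LaurentSeries Kbar)
  | Cp.oo => S.e0
  | Cp.mid => S.e1
  | Cp.zr => S.e2

theorem mem_W (i : Cp) (z : S.F) : z ∈ S.W i.idx ↔ ex S i z ∈ gRing A := by
  cases i <;> exact Iff.rfl

/-- the residue maps, with values in `k((t))`. -/
def resS (i : Cp) : ↥(S.W i.idx) →+* LaurentSeries (kk A) :=
  (gRes A).comp ((ex S i).restrict (S.W i.idx) (gRing A) (fun z hz => (mem_W S i z).1 hz))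

theorem red_resS (i : Cp) (z : ↥(S.W i.idx)) : Red A (ex S i z) (resS S i z) :=
  ⟨(mem_W S i z).1 z.2, rfl⟩

theorem resS_eq_of_red (i : Cp) (z : ↥(S.W i.idx)) {r : LaurentSeries (kk A)}
    (h : Red A (ex S i z) r) : resS S i z = r :=
  (red_resS S i z).unique h

theorem mem_W_of_red {i : Cp} {z : S.F} {r : LaurentSeries (kk A)} (h : Red A (ex S i z) r) :
    z ∈ S.W i.idx := (mem_W S i z).2 h.1

/-- **CONTRACT with block VAL (V3)**: the residue fields of the three valuation rings are contained in `E k M`. -/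
def ResMem : Prop :=
  ∀ (i : Cp) (z : S.F) (r : LaurentSeries (kk A)), Red A (ex S i z) r →
    r ∈ modularFunctionFieldFullC (kk A) M

/-- the residue map of `O0 A`. -/
def resA0 (A : ValuationSubring Kbar) : ↥(O0 A) →+* kk A :=
  (IsLocalRing.residue ↥A).comp (K0L.incl A)

/-! ### constants -/

theorem ex_algebraMap (i : Cp) (c : K0 A) :
    ex S i (algebraMap (K0 A) S.F c) = HahnSeries.C (c : Kbar) := by
  cases i
  · exact (ofSetup_phi0 S _).symm.trans ((Data.ofSetup S).phi_algebraMap 0 c)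
  · exact (ofSetup_phi1 S _).symm.trans ((Data.ofSetup S).phi_algebraMap 1 c)
  · exact (ofSetup_phi2 S _).symm.trans ((Data.ofSetup S).phi_algebraMap 2 c)

theorem red_algebraMap (i : Cp) (c : K0 A) (hc : c ∈ O0 A) :
    Red A (ex S i (algebraMap (K0 A) S.F c)) (HahnSeries.C (resA0 A ⟨c, hc⟩)) := by
  rw [ex_algebraMap]
  exact Unit.GR.C (A := A) ⟨(c : Kbar), hc⟩

include S in
theorem resA0_surjective : Function.Surjective (resA0 A) := by
  intro c
  obtain ⟨⟨a, ha⟩, rfl⟩ := IsLocalRing.residue_surjective c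
  obtain ⟨b, hb, hbA, hab⟩ := K0L.exists_rep' A S.hq S.hA ha
  refine ⟨⟨⟨b, hb⟩, hbA⟩, ?_⟩
  obtain ⟨h1, h2⟩ := ValuationSubring.mem_nonunits_iff_exists_mem_maximalIdeal.1 hab
  have h3 : IsLocalRing.residue ↥A (⟨a, ha⟩ - ⟨b, hbA⟩) = 0 :=
    (IsLocalRing.residue_eq_zero_iff _).2 h2
  rw [map_sub, sub_eq_zero] at h3
  exact h3.symm

/-! ### lifting from level `M` -/

/-- `FF K M = K(j(q^d) : d ∣ M)`. -/
theorem Tri_FF_eq_fullC (K : Type) [Field K] [Algebra ℚ K] (M : ℕ) :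
    FF K M = modularFunctionFieldFullC K M := by
  have hj : coeffEmb K jq = jqModC K := by
    rw [← jqModC_rat, coeffEmb, coeffMap_jqModC]
  have hg : Tors.Dict.gens K M = divisorExpansionsC K M := by
    ext s
    constructor
    · rintro ⟨d, hd, hdM, rfl⟩
      exact ⟨d, hd, hdM, by rw [Tors.Dict.coeffEmb_qExpand, hj]⟩
    · rintro ⟨d, hd, hdM, rfl⟩
      exact ⟨d, hd, hdM, by rw [Tors.Dict.coeffEmb_qExpand, hj]⟩
  rw [Tors.Dict.FF_eq_adjoin, hg, modularFunctionFieldFullC]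

theorem Tri_lift_aux (S : Setup A M q) {x : LaurentSeries (kk A)}
    (hx : x ∈ modularFunctionFieldFullC (kk A) M) : ∃ v : F0 A M, Red A (hat A M v) x := by
  unfold modularFunctionFieldFullC at hx
  induction hx using IntermediateField.adjoin_induction with
  | mem y hy =>
    obtain ⟨d, hd0, hd, rfl⟩ := hy
    have hmem : qExpand (K0 A) d (jqModC (K0 A)) ∈ FF (K0 A) M := by
      rw [Tri_FF_eq_fullC]
      exact IntermediateField.subset_adjoin _ _ ⟨d, hd0, hd, rfl⟩
    refine ⟨⟨_, hmem⟩, ?_⟩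
    rw [hat_apply, coeffMap_qExpand, coeffMap_jqModC]
    exact Unit.GR_j.qExpand d
  | algebraMap a =>
    obtain ⟨a', rfl⟩ := resA0_surjective S a
    refine ⟨algebraMap (K0 A) (F0 A M) (a' : K0 A), ?_⟩
    rw [hat_algebraMap, Gauss.algebraMap_eq_C]
    exact Unit.GR.C (A := A) ⟨((a' : K0 A) : Kbar), a'.2⟩
  | add x y _ _ hx hy =>
    obtain ⟨v, hv⟩ := hx
    obtain ⟨w, hw⟩ := hy
    exact ⟨v + w, by rw [map_add]; exact Unit.GR.add hv hw⟩
  | inv x _ hx =>
    obtain ⟨v, hv⟩ := hx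
    by_cases h0 : x = 0
    · exact ⟨0, by rw [map_zero, h0, inv_zero]; exact Unit.GR.zero⟩
    · exact ⟨v⁻¹, by rw [map_inv₀]; exact Unit.GR.inv hv h0⟩
  | mul x y _ _ hx hy =>
    obtain ⟨v, hv⟩ := hx
    obtain ⟨w, hw⟩ := hy
    exact ⟨v * w, by rw [map_mul]; exact Unit.GR.mul hv hw⟩

/-- **LEAF T1 (surjectivity of the Gauss residue map of level `M` over `K0`).**
PROOF. Let `𝓡 = {r : k((t)) | ∃ u : F0 A M, Red A (hat A M u) r}`.  It contains the constants (`resA0_surjective`,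
`hat_algebraMap`, `Unit.GR.C`), it is stable under `+`, `*`, `-` (`Unit.GR.add/mul/neg`, `Red = GR` by definition) and inverses
(`Unit.GR.inv`, `map_inv₀`; `r = 0` trivial), so it is the carrier of an `IntermediateField k k((t))`; it contains the generators
`qExpand k d (jqModC k)`, `d ∣ M`, of `modularFunctionFieldFullC k M = adjoin k (divisorExpansionsC k M)`: lift
`⟨coeffEmb (K0 A) (qExpand ℚ d jq), _⟩ : FF (K0 A) M` (`Tors.Dict.gens`, `Tors.Dict.FF_eq_adjoin` / `coeffEmb_mem_laurentBaseChange`, `jqd_mem_full`),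
whose `hat` is `qExpand Kbar d (jqModC Kbar)` (`Igusa.LevelDeg_coeffEmb_jq`-type lemma, `coeffMap_qExpand`), `Unit.GR_j`, `Unit.GR.qExpand`.
Conclude with `IntermediateField.adjoin_le_iff`. -/
theorem exists_lift_M (_S : Setup A M q) (u : Fb A M) : ∃ v : F0 A M, Red A (hat A M v) (u : LaurentSeries (kk A)) := by
  exact Tri_lift_aux _S u.2

/-- every element of `E k M` is a residue, along each of the three valuations. -/
theorem exists_red_eq (i : Cp) (u : Fb A M) :
    ∃ z : S.F, Red A (ex S i z) (u : LaurentSeries (kk A)) := by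
  obtain ⟨v, hv⟩ := exists_lift_M S u
  cases i
  · exact ⟨pi0 A M q v, by show Red A (S.e0 _) _; rwa [e0_pi0]⟩
  · exact ⟨pi0 A M q v, by show Red A (S.e1 _) _; rwa [e1_pi0]⟩
  · exact ⟨pi2 A M q v, by show Red A (S.e2 _) _; rwa [e2_pi2]⟩

/-! ### the reduction data -/

variable {S}

/-- the three reduction data. -/
def redData (h : ResMem S) (i : Cp) : RedData (K0 A) S.F (kk A) (Fb A M) where
  A := O0 A
  O := S.W i.idx
  resA := resA0 A
  res := (resS S i).codRestrict (modularFunctionFieldFullC (kk A) M)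
    (fun z => h i z _ (red_resS S i z))
  resA_surjective := resA0_surjective S
  res_surjective := fun u => by
    obtain ⟨z, hz⟩ := exists_red_eq S i u
    exact ⟨⟨z, mem_W_of_red S hz⟩, Subtype.ext (resS_eq_of_red S i ⟨z, _⟩ hz)⟩
  algebraMap_mem := fun a ha => mem_W_of_red S (red_algebraMap S i a ha)
  res_algebraMap := fun a ha => Subtype.ext (by
    have := resS_eq_of_red S i ⟨_, mem_W_of_red S (red_algebraMap S i a ha)⟩ (red_algebraMap S i a ha)
    exact this.trans (Gauss.algebraMap_eq_C _).symm)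

theorem coe_red (h : ResMem S) {i : Cp} {z : S.F} {r : LaurentSeries (kk A)}
    (hr : Red A (ex S i z) r) :
    (((redData h i).red z : Fb A M) : LaurentSeries (kk A)) = r := by
  rw [(redData h i).red_of_mem (mem_W_of_red S hr)]
  exact resS_eq_of_red S i ⟨z, _⟩ hr

theorem red_eq (h : ResMem S) {i : Cp} {z : S.F} {u : Fb A M}
    (hr : Red A (ex S i z) (u : LaurentSeries (kk A))) : (redData h i).red z = u :=
  Subtype.ext (coe_red h hr)

theorem red_red (h : ResMem S) {i : Cp} {z : S.F} (hz : z ∈ S.W i.idx) :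
    Red A (ex S i z) (((redData h i).red z : Fb A M) : LaurentSeries (kk A)) := by
  have := red_resS S i ⟨z, hz⟩
  rwa [← coe_red h this] at this

/-! ### the uniformiser of the middle component -/

variable (S)

theorem hat_j0 (A : ValuationSubring Kbar) (M : ℕ) : hat A M (j0 A M) = jqModC Kbar := by
  rw [← Val.coe_bc0, Val.bc0_eq, bc0_j0]
  exact Igusa.LevelDeg_coeffEmb_jq

/-- the `j`-invariant of level `M q²`. -/
def jj : S.F := pi0 A M q (j0 A M)

/-- `j(t) - j(t^{q²})`. -/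
def bb : S.F := pi0 A M q (j0 A M) - pi2 A M q (j0 A M)

include S in
theorem charP_kk : CharP (kk A) q := GAL.Hecke.charP_residueField A S.hq S.hA

/-- `j̄(t) - j̄(t^{q²}) ≠ 0`.
PROOF. coefficient of `t^{-1}`: `jqModC k` has coefficient `1` at `-1`; `qExpand k q (qExpand k q x)` has coefficient `0` at `-1`
(`qExpand_coeff`-type lemma: only exponents divisible by `q`; `q ≥ 2`). -/
theorem jbar_sub_ne_zero (k : Type*) [Field k] (hq : q.Prime) :
    jqModC k - qExpand k q (qExpand k q (jqModC k)) ≠ 0 := by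
  intro h
  have h1 := congrArg (fun x : LaurentSeries k => x.coeff (-1 : ℤ)) h
  simp only [HahnSeries.coeff_sub, HahnSeries.coeff_zero] at h1
  rw [coeff_jqModC_neg_one, qExpand_coeff_of_not_dvd q _ (by
    intro hdvd
    have h2 : (q : ℤ) ∣ 1 := (dvd_neg.1 hdvd)
    have h3 : q ∣ 1 := by exact_mod_cast h2
    exact hq.one_lt.ne' (Nat.dvd_one.1 h3)), sub_zero] at h1
  exact one_ne_zero h1

theorem red_bb_oo : Red A (ex S Cp.oo (bb S))
    (jqModC (kk A) - qExpand (kk A) q (qExpand (kk A) q (jqModC (kk A)))) := by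
  show Red A (S.e0 (bb S)) _
  rw [bb, map_sub, e0_pi0, e0_pi2, hat_j0]
  exact Unit.GR.sub Unit.GR_j ((Unit.GR_j.qExpand q).qExpand q)

theorem red_bb_zr : Red A (ex S Cp.zr (bb S))
    (qExpand (kk A) q (qExpand (kk A) q (jqModC (kk A))) - jqModC (kk A)) := by
  show Red A (S.e2 (bb S)) _
  rw [bb, map_sub, e2_pi0, e2_pi2, hat_j0]
  exact Unit.GR.sub ((Unit.GR_j.qExpand q).qExpand q) Unit.GR_j

/-- **LEAF T2.** `e1 b = j(t) - j(ζ t) = - (ζ - 1) y`, `y` a Gauss unit with residue `θ j̄ ≠ 0`.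
PROOF. `e1_pi0`, `e1_pi2`, `hat_j0`; `x = jqModC Kbar ∈ gRing A` (`Unit.GR_j.mem`); `KS.zeta_mem`, `KS.residue_zeta` (instances `Fact q.Prime`,
`charP_kk S`), `ζ ≠ 1` (`S.hζ.ne_one S.hq.one_lt`); `y := C (ζ - 1)⁻¹ * (twist ζ x - x)`: `KS.twist_sub_mem_gRing`, `KS.gRes_twist_sub`:
residue `θ (gRes x) = θ (jqModC k)` (`Unit.GR_j`), which is `≠ 0`: its coefficient at `-1` is `-1` (`KS.theta_coeff`). -/
theorem exists_bb_mid : ∃ (y : LaurentSeries Kbar) (r : LaurentSeries (kk A)), r ≠ 0 ∧ Red A y r ∧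
    ex S Cp.mid (bb S) = - (HahnSeries.C (S.ζ - 1) * y) := by
  have : Fact q.Prime := ⟨S.hq⟩
  have := charP_kk S
  have hζ0 : S.ζ ≠ 0 := S.hζ.ne_zero S.hq.ne_zero
  obtain ⟨hA, hA'⟩ := KS.zeta_mem A q S.hζ.pow_eq_one
  have h1 := KS.residue_zeta A q S.hζ.pow_eq_one hA
  have hne : S.ζ ≠ 1 := S.hζ.ne_one S.hq.one_lt
  obtain ⟨hx, hxr⟩ := Unit.GR_j (A := A)
  refine ⟨HahnSeries.C (S.ζ - 1)⁻¹ * (S24.twist S.ζ hζ0 (jqModC Kbar) - jqModC Kbar),
    KS.theta (jqModC (kk A)), ?_, ⟨KS.twist_sub_mem_gRing A hζ0 hA hA' h1 hne hx, ?_⟩, ?_⟩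
  · intro h
    have h1 := congrArg (fun x => HahnSeries.coeff x (-1 : ℤ)) h
    simp only [KS.theta_coeff, HahnSeries.coeff_zero] at h1
    rw [jqModC, HahnSeries.coeff_single_mul, sub_self, one_mul] at h1
    have h2 : (HahnSeries.ofPowerSeries ℤ (kk A) (jNum.map (Int.castRingHom (kk A)))).coeff 0
        = 1 := by
      have := HahnSeries.ofPowerSeries_apply_coeff (Γ := ℤ) (jNum.map (Int.castRingHom (kk A))) 0
      rw [Nat.cast_zero] at this
      rw [this, PowerSeries.coeff_map, PowerSeries.coeff_zero_eq_constantCoeff, constantCoeff_jNum]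
      simp
    rw [h2] at h1
    simp at h1
  · rw [KS.gRes_twist_sub A hζ0 hA hA' h1 hne hx, hxr]
  · show S.e1 (bb S) = _
    rw [bb, map_sub, e1_pi0, e1_pi2, hat_j0, ← mul_assoc, ← map_mul,
      mul_inv_cancel₀ (sub_ne_zero.2 hne), map_one, one_mul, neg_sub]

/-- **LEAF T3.** PROOF. `exists_bb_mid`; `ζ - 1 ∈ A` with residue `0` (`KS.residue_zeta`), `Unit.GR.C`, `Unit.GR.mul`, `Unit.GR.neg`. -/
theorem red_bb_mid : Red A (ex S Cp.mid (bb S)) 0 := by
  obtain ⟨y, r, _, hy, he⟩ := exists_bb_mid S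
  have : Fact q.Prime := ⟨S.hq⟩
  have := charP_kk S
  obtain ⟨h1, _⟩ := KS.zeta_mem A q S.hζ.pow_eq_one
  have hres := KS.residue_zeta A q S.hζ.pow_eq_one h1
  have hC : Red A (HahnSeries.C (S.ζ - 1)) 0 := by
    have h := Unit.GR.C (A := A) (⟨S.ζ, h1⟩ - 1)
    rw [map_sub, hres, map_one, sub_self, map_zero] at h
    exact h
  rw [he]
  have h := (Unit.GR.mul hC hy).neg
  rwa [zero_mul, neg_zero] at h

/-- **LEAF T4.** PROOF. `exists_bb_mid`; `KS.exists_unit_eps` : `(ζ - 1)^(q-1) = ε q`, `ε` a unit of `A`;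
`e1 (b^(q-1) / q) = (-1)^(q-1) C ε y^(q-1)` (`map_div₀`, `map_pow`, `map_natCast`, `C` of a natural number), residue `(-1)^(q-1) ε̄ r^(q-1) ≠ 0`. -/
theorem exists_red_bb_pow : ∃ r : LaurentSeries (kk A), r ≠ 0 ∧
    Red A (ex S Cp.mid (bb S ^ (q - 1) / (q : S.F))) r := by
  obtain ⟨y, r, hr0, hy, he⟩ := exists_bb_mid S
  have : Fact q.Prime := ⟨S.hq⟩
  have := charP_kk S
  obtain ⟨ε, hε⟩ := KS.exists_unit_eps A q S.hζ
  have hq0 : ((q : ℕ) : LaurentSeries Kbar) ≠ 0 := by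
    rw [← map_natCast (HahnSeries.C : Kbar →+* LaurentSeries Kbar), Ne, map_eq_zero]
    exact Nat.cast_ne_zero.2 S.hq.ne_zero
  have e1 : ex S Cp.mid (bb S ^ (q - 1) / (q : S.F)) =
      (-1) ^ (q - 1) * (HahnSeries.C ((ε : ↥A) : Kbar) * y ^ (q - 1)) := by
    rw [map_div₀, map_pow, map_natCast, he, div_eq_iff hq0, neg_pow, mul_pow, ← map_pow, hε,
      map_mul, map_natCast]
    ring
  have hεr : IsLocalRing.residue ↥A (ε : ↥A) ≠ 0 :=
    (IsLocalRing.residue_ne_zero_iff_isUnit _).2 ε.isUnit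
  refine ⟨(-1) ^ (q - 1) * (HahnSeries.C (IsLocalRing.residue ↥A (ε : ↥A)) * r ^ (q - 1)), ?_, ?_⟩
  · refine mul_ne_zero (pow_ne_zero _ (neg_ne_zero.2 one_ne_zero))
      (mul_ne_zero ?_ (pow_ne_zero _ hr0))
    rw [Ne, map_eq_zero]
    exact hεr
  · rw [e1]
    exact Unit.GR.mul ((Unit.GR.one.neg).pow _) (Unit.GR.mul (Unit.GR.C _) (Unit.GR.pow hy _))

/-! ### valuations -/

theorem val_lt_one_iff (i : Cp) (z : S.F) : (S.W i.idx).valuation z < 1 ↔ Red A (ex S i z) 0 := by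
  cases i
  · exact gVS_lt_one_iff (h := S.normable_e0)
  · exact gVS_lt_one_iff (h := S.normable_e1)
  · exact gVS_lt_one_iff (h := S.normable_e2)

theorem isU_iff_gu (i : Cp) (z : S.F) : IsU (S.W i.idx) z ↔ GU A (ex S i z) := by
  cases i
  · exact isU_gVS_iff (h := S.normable_e0)
  · exact isU_gVS_iff (h := S.normable_e1)
  · exact isU_gVS_iff (h := S.normable_e2)

variable {S}

theorem val_lt_one_of_red_eq_zero (h : ResMem S) {i : Cp} {z : S.F} (hz : z ∈ S.W i.idx)
    (h0 : (redData h i).red z = 0) : (S.W i.idx).valuation z < 1 := by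
  rw [val_lt_one_iff]
  have := red_red h hz
  rwa [h0] at this

theorem red_ne_zero_of_red (h : ResMem S) {i : Cp} {z : S.F} {r : LaurentSeries (kk A)}
    (hr : Red A (ex S i z) r) (hr0 : r ≠ 0) : (redData h i).red z ≠ 0 := by
  intro h0
  apply hr0
  rw [← coe_red h hr, h0]
  rfl

theorem val_q_lt_one (hG : S.lvl.Good (O0 A) q) (i : Fin 3) : (S.W i).valuation (q : S.F) < 1 := by
  have := hG.vert.pi_lt i
  rwa [map_natCast] at this

theorem q_ne_zero_F (S : Setup A M q) : (q : S.F) ≠ 0 := Nat.cast_ne_zero.2 S.hq.ne_zero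

/-- **The concrete `Tri`.** -/
def tri (h : ResMem S) (hG : S.lvl.Good (O0 A) q) : Tri (K0 A) S.F (kk A) (Fb A M) where
  q := q
  e := q - 1
  q_prime := S.hq
  he := Nat.sub_add_cancel S.hq.one_le
  R := redData h
  hA := fun _ => rfl
  hredA := fun _ _ => rfl
  noeth := by
    have := K0L.isDiscreteValuationRing_OI A S.hq S.hA
    show IsNoetherianRing ↥(O0 A)
    infer_instance
  q_ne := Nat.cast_ne_zero.2 S.hq.ne_zero
  redA_q := by
    have hmem : (q : K0 A) ∈ O0 A := natCast_mem _ q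
    have := charP_kk S
    rw [(redData h Cp.oo).redA_of_mem hmem]
    show resA0 A ⟨(q : K0 A), hmem⟩ = 0
    have e : (⟨(q : K0 A), hmem⟩ : ↥(O0 A)) = ((q : ℕ) : ↥(O0 A)) := Subtype.ext (by simp)
    rw [e, map_natCast, CharP.cast_eq_zero]
  ker_A := fun a ha h0 => by
    rw [(redData h Cp.oo).redA_of_mem ha] at h0
    have h1 : IsLocalRing.residue ↥A ⟨(a : Kbar), ha⟩ = 0 := h0
    rw [IsLocalRing.residue_eq_zero_iff] at h1
    have h2 : (a : Kbar) ∈ A.nonunits :=
      ValuationSubring.mem_nonunits_iff_exists_mem_maximalIdeal.2 ⟨ha, h1⟩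
    have h3 := K0L.div_mem' A S.hq S.hA a.2 h2
    show ((a / (q : K0 A) : K0 A) : Kbar) ∈ A
    simpa using h3
  b := bb S
  ker_oo := fun z hz h0 => by
    by_cases hz0 : z = 0
    · rw [hz0, zero_div]; exact Subring.zero_mem _
    obtain ⟨x, hx⟩ := hG.eW0 z hz0
    exact div_mem_of_value (val_q_lt_one hG 0) (q_ne_zero_F S)
      (val_lt_one_of_red_eq_zero h (i := Cp.oo) hz h0) hx
  ker_zr := fun z hz h0 => by
    by_cases hz0 : z = 0
    · rw [hz0, zero_div]; exact Subring.zero_mem _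
    obtain ⟨x, hx⟩ := hG.eW2 z hz0
    exact div_mem_of_value (val_q_lt_one hG 2) (q_ne_zero_F S)
      (val_lt_one_of_red_eq_zero h (i := Cp.zr) hz h0) hx
  ker_mid := fun z hz h0 => by
    by_cases hz0 : z = 0
    · rw [hz0, zero_div]; exact Subring.zero_mem _
    obtain ⟨x, hx⟩ := hG.eW1 z hz0
    obtain ⟨r, hr0, hr⟩ := exists_red_bb_pow S
    exact div_mem_of_value_pow (Nat.sub_pos_of_lt S.hq.one_lt) (val_q_lt_one hG 1) (q_ne_zero_F S)
      ((isU_iff_gu S Cp.mid _).2 ⟨r, hr0, hr⟩)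
      (val_lt_one_of_red_eq_zero h (i := Cp.mid) hz h0) hx
  b_oo := red_ne_zero_of_red h (red_bb_oo S) (jbar_sub_ne_zero _ S.hq)
  b_zr := red_ne_zero_of_red h (red_bb_zr S) (by
    rw [← neg_sub]; exact neg_ne_zero.2 (jbar_sub_ne_zero _ S.hq))
  b_mem := mem_W_of_red S (red_bb_mid S)
  b_mid := red_eq h (u := 0) (red_bb_mid S)
  b_pow := by
    obtain ⟨r, hr0, hr⟩ := exists_red_bb_pow S
    exact red_ne_zero_of_red h hr hr0
  scale := fun i z => by
    by_cases hz0 : z = 0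
    · exact ⟨0, by rw [hz0, mul_zero]; exact Subring.zero_mem _⟩
    cases i
    · obtain ⟨x, hx⟩ := hG.eW0 z hz0
      exact exists_pow_mul_mem (val_q_lt_one hG 0) (q_ne_zero_F S) hx
    · obtain ⟨x, hx⟩ := hG.eW1 z hz0
      exact exists_pow_mul_mem_pow (Nat.sub_pos_of_lt S.hq.one_lt) (val_q_lt_one hG 1)
        (q_ne_zero_F S) hx
    · obtain ⟨x, hx⟩ := hG.eW2 z hz0
      exact exists_pow_mul_mem (val_q_lt_one hG 2) (q_ne_zero_F S) hx

end Fermat.Agent.S36.RC.Conc
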